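/-
S12lib / Cofixed  (helper6) — S12: from the Prelude's `HasGaloisStableCofixedLine` to a generator.

For `W' : WeierstrassCurve ℚ` with `Δ ≠ 0` and a prime `p`: a `ZMod p`-submodule `N ≠ ⊥, ⊤` of
`E[p] = torsionBy ℤ (W'⁄ℚ̄).Point p` is a line: `N = ⟨Q⟩` for a point `Q` of exact order `p`
(`exists_generator`); if `N` is a Galois-stable cofixed line then `⟨Q⟩` is Galois-stable, every
`σ x - x` (`x ∈ E[p]`) lies in `⟨Q⟩`, and `E[p] ⊄ ⟨Q⟩` (`exists_cofixed_generator`).
-/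
import Mathlib
import Fermat.Prelude.Def_FLTPrelim_CofixedLine
import Fermat.Agent.S41lib.NE.TorsionCard

set_option autoImplicit false

noncomputable section

namespace Fermat.Agent.S12lib

open WeierstrassCurve WeierstrassCurve.Affine WeierstrassCurve.Affine.Point

local notation "Qb" => AlgebraicClosure ℚ
local notation "GQ" => (AlgebraicClosure ℚ ≃ₐ[ℚ] AlgebraicClosure ℚ)

section Gen

variable (W' : WeierstrassCurve ℚ) (hΔ : W'.Δ ≠ 0) {p : ℕ} (hp : p.Prime)

include hΔ hp in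
/-- a proper nonzero submodule of `E[p]` is generated by a point of exact order `p` -/
theorem exists_generator (N : Submodule (ZMod p) (Submodule.torsionBy ℤ (W'⁄Qb).Point p))
    (hbot : N ≠ ⊥) (htop : N ≠ ⊤) :
    ∃ Q : (W'⁄Qb).Point, addOrderOf Q = p ∧
      ∀ x : Submodule.torsionBy ℤ (W'⁄Qb).Point p,
        x ∈ N ↔ (x : (W'⁄Qb).Point) ∈ AddSubgroup.zmultiples Q := by
  classical
  have : Fact p.Prime := ⟨hp⟩
  have hΔb : (W'⁄Qb).Δ ≠ 0 := by
    have e : (W'⁄Qb).Δ = algebraMap ℚ Qb W'.Δ := WeierstrassCurve.map_Δ _ _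
    rw [e]
    exact (map_ne_zero_iff _ (algebraMap ℚ Qb).injective).mpr hΔ
  have hcard : Nat.card (Submodule.torsionBy ℤ (W'⁄Qb).Point p) = p ^ 2 :=
    Fermat.Agent.S41lib.NE.card_torsionBy_eq_sq (W'⁄Qb) hΔb p hp.two_le
  have hfinV : Finite (Submodule.torsionBy ℤ (W'⁄Qb).Point p) := by
    apply Nat.finite_of_card_ne_zero
    rw [hcard]
    exact pow_ne_zero 2 hp.ne_zero
  -- the cardinality of `N`
  have hdvd : Nat.card N.toAddSubgroup ∣ p ^ 2 := by
    rw [← hcard]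
    exact AddSubgroup.card_addSubgroup_dvd_card N.toAddSubgroup
  obtain ⟨k, hk2, hk⟩ := (Nat.dvd_prime_pow hp).mp hdvd
  have hk0 : k ≠ 0 := by
    rintro rfl
    rw [pow_zero] at hk
    apply hbot
    have h1 := (AddSubgroup.card_eq_one (H := N.toAddSubgroup)).1 hk
    rw [Submodule.eq_bot_iff]
    intro x hx
    have : x ∈ N.toAddSubgroup := hx
    rw [h1] at this
    exact AddSubgroup.mem_bot.1 this
  have hk2' : k ≠ 2 := by
    rintro rfl
    apply htop
    have h1 : N.toAddSubgroup = ⊤ := AddSubgroup.eq_top_of_card_eq _ (by rw [hk, hcard])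
    rw [Submodule.eq_top_iff']
    intro x
    have : x ∈ N.toAddSubgroup := by rw [h1]; exact AddSubgroup.mem_top x
    exact this
  have hk1 : k = 1 := by omega
  rw [hk1, pow_one] at hk
  -- a nonzero element
  obtain ⟨x₀, hx₀N, hx₀0⟩ := (Submodule.ne_bot_iff N).1 hbot
  set Q : (W'⁄Qb).Point := (x₀ : (W'⁄Qb).Point) with hQ
  have hpQ : p • Q = 0 := by
    have := (Submodule.mem_torsionBy_iff _ _).mp x₀.2
    rwa [natCast_zsmul] at this
  have hQ0 : Q ≠ 0 := fun h => hx₀0 (Subtype.ext h)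
  have hord : addOrderOf Q = p := addOrderOf_eq_prime hpQ hQ0
  refine ⟨Q, hord, ?_⟩
  -- `zmultiples x₀ ≤ N` inside `E[p]`, of the same cardinality
  have hle : AddSubgroup.zmultiples x₀ ≤ N.toAddSubgroup := by
    rw [AddSubgroup.zmultiples_le]
    exact hx₀N
  have hordx₀ : addOrderOf x₀ = p := by
    refine addOrderOf_eq_prime ?_ hx₀0
    apply Subtype.ext
    rw [Submodule.coe_smul_of_tower]
    exact hpQ
  have hcardz : Nat.card (AddSubgroup.zmultiples x₀) = p := by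
    rw [Nat.card_zmultiples, hordx₀]
  have hfinN : Finite N.toAddSubgroup := inferInstance
  have heq : AddSubgroup.zmultiples x₀ = N.toAddSubgroup := by
    apply AddSubgroup.eq_of_le_of_card_ge hle
    rw [hcardz, hk]
  intro x
  constructor
  · intro hx
    have hx' : x ∈ AddSubgroup.zmultiples x₀ := by rw [heq]; exact hx
    obtain ⟨m, rfl⟩ := AddSubgroup.mem_zmultiples_iff.1 hx'
    refine AddSubgroup.mem_zmultiples_iff.2 ⟨m, ?_⟩
    rw [Submodule.coe_smul_of_tower]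
  · intro hx
    obtain ⟨m, hm⟩ := AddSubgroup.mem_zmultiples_iff.1 hx
    have : x = m • x₀ := by
      apply Subtype.ext
      rw [Submodule.coe_smul_of_tower, ← hm]
    rw [this]
    exact N.toAddSubgroup.zsmul_mem hx₀N m

/-- a multiple of a point of finite order by an integer is a multiple by a natural number -/
theorem exists_nat_of_mem_zmultiples {G : Type*} [AddGroup G] {x y : G} (hx : IsOfFinAddOrder x)
    (hy : y ∈ AddSubgroup.zmultiples x) : ∃ a : ℕ, y = a • x := by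
  rw [← hx.mem_multiples_iff_mem_zmultiples] at hy
  obtain ⟨a, ha⟩ := (AddSubmonoid.mem_multiples_iff _ _).1 hy
  exact ⟨a, ha.symm⟩

include hΔ hp in
/-- **a Galois-stable cofixed line is generated by a point `Q` of exact order `p`** with `⟨Q⟩`
Galois-stable, `(σ - 1) E[p] ⊆ ⟨Q⟩`, and `E[p] ⊄ ⟨Q⟩` -/
theorem exists_cofixed_generator (h : HasGaloisStableCofixedLine (K := Qb) ℚ W' p) :
    ∃ Q : (W'⁄Qb).Point, addOrderOf Q = p ∧
      (∀ σ : GQ, σ • Q ∈ AddSubgroup.zmultiples Q) ∧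
      (∀ σ : GQ, ∃ a : ℕ, σ • Q = a • Q) ∧
      (∀ (σ : GQ) (x : (W'⁄Qb).Point), p • x = 0 → σ • x - x ∈ AddSubgroup.zmultiples Q) ∧
      ∃ x : (W'⁄Qb).Point, p • x = 0 ∧ x ∉ AddSubgroup.zmultiples Q := by
  classical
  obtain ⟨N, hst, hbot, htop, hcof⟩ := h
  obtain ⟨Q, hord, hQN⟩ := exists_generator W' hΔ hp N hbot htop
  have hpQ : p • Q = 0 := by rw [← hord]; exact addOrderOf_nsmul_eq_zero Q
  have hfin : IsOfFinAddOrder Q := by
    rw [← addOrderOf_pos_iff, hord]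
    exact hp.pos
  -- torsion points as elements of `E[p]`
  have mk : ∀ x : (W'⁄Qb).Point, p • x = 0 →
      ∃ x' : Submodule.torsionBy ℤ (W'⁄Qb).Point p, (x' : (W'⁄Qb).Point) = x := fun x hx =>
    ⟨⟨x, by rw [Submodule.mem_torsionBy_iff, natCast_zsmul]; exact hx⟩, rfl⟩
  obtain ⟨Q', hQ'⟩ := mk Q hpQ
  have hQ'N : Q' ∈ N := (hQN Q').2 (by rw [hQ']; exact AddSubgroup.mem_zmultiples Q)
  have hstQ : ∀ σ : GQ, σ • Q ∈ AddSubgroup.zmultiples Q := fun σ => by
    have h1 := (hQN (σ • Q')).1 (hst σ Q' hQ'N)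
    have e : ((σ • Q' : Submodule.torsionBy ℤ (W'⁄Qb).Point p) : (W'⁄Qb).Point) =
        σ • (Q' : (W'⁄Qb).Point) := rfl
    rwa [e, hQ'] at h1
  refine ⟨Q, hord, hstQ, fun σ => exists_nat_of_mem_zmultiples hfin (hstQ σ), ?_, ?_⟩
  · intro σ x hx
    obtain ⟨x', hx'⟩ := mk x hx
    have h1 := (hQN (σ • x' - x')).1 (hcof σ x')
    have e : ((σ • x' - x' : Submodule.torsionBy ℤ (W'⁄Qb).Point p) : (W'⁄Qb).Point) =
        σ • (x' : (W'⁄Qb).Point) - x' := rfl
    rwa [e, hx'] at h1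
  · by_contra hall
    push Not at hall
    apply htop
    rw [Submodule.eq_top_iff']
    intro x
    refine (hQN x).2 (hall x ?_)
    have := (Submodule.mem_torsionBy_iff _ _).mp x.2
    rwa [natCast_zsmul] at this

end Gen

/-- the Frey-curve form: `hFM` and `hΔ` are the first two conjuncts of `FreyModelStmt` -/
theorem frey_cofixed_generator (P : FreyPackage)
    (hFM : P.freyCurve = P.freyCurveInt.map (Int.castRingHom ℚ)) (hΔ : P.freyCurveInt.Δ ≠ 0)
    (h : HasGaloisStableCofixedLine (K := Qb) ℚ P.freyCurve P.p) :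
    ∃ Q : ((P.freyCurveInt.map (Int.castRingHom ℚ) : WeierstrassCurve ℚ)⁄Qb).Point,
      addOrderOf Q = P.p ∧
      (∀ σ : GQ, σ • Q ∈ AddSubgroup.zmultiples Q) ∧
      (∀ σ : GQ, ∃ a : ℕ, σ • Q = a • Q) ∧
      (∀ (σ : GQ) (x : ((P.freyCurveInt.map (Int.castRingHom ℚ) : WeierstrassCurve ℚ)⁄Qb).Point),
        P.p • x = 0 → σ • x - x ∈ AddSubgroup.zmultiples Q) ∧
      ∃ x : ((P.freyCurveInt.map (Int.castRingHom ℚ) : WeierstrassCurve ℚ)⁄Qb).Point,
        P.p • x = 0 ∧ x ∉ AddSubgroup.zmultiples Q := by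
  rw [hFM] at h
  refine exists_cofixed_generator _ ?_ P.pp h
  rw [WeierstrassCurve.map_Δ, eq_intCast]
  exact_mod_cast hΔ

end Fermat.Agent.S12lib
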