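/-
S12lib / Core  (helper7)  — block (K): the place-level core of Mazur's argument.

helper3's endgame `S15lib.s15_of_stmts`, generalised: for ANY Galois-fixed place `x` of `X₀(p)`, any two
Galois-fixed places `P₀, P∞` whose difference `c = [P₀ − P∞]` is an Eisenstein class of finite order, any
prime `r ∣ ord c` (`r ≠ p`), a test prime `ℓ₀ ∉ {r, p}` and a target prime `ℓ ≠ p` (with `ℓ ≠ 2` if
`ℓ = r`):

  `x` cannot reduce to `P₀` at `ℓ₀` and to `P∞` at `ℓ`.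

Applied to `(P₀, P∞) = (cusp 0, cusp ∞)` and to `(cusp ∞, cusp 0)` (the mirror statement).
-/
import Fermat.Agent.S15lib.Closed
import Fermat.Agent.S15lib.Dict.ModRed

set_option autoImplicit false
set_option linter.style.haveILetI false
set_option linter.unusedSectionVars false

noncomputable section

namespace Fermat.Agent.S12lib

open AlgebraicCurve ModularCurve WeierstrassCurve WeierstrassCurve.Affine
open Fermat.Agent.S15lib

local notation "Qb" => AlgebraicClosure ℚ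
local notation "GQ" => (AlgebraicClosure ℚ ≃ₐ[ℚ] AlgebraicClosure ℚ)

set_option maxHeartbeats 1600000 in
set_option synthInstance.maxHeartbeats 400000 in
/-- **(K) the core**: a Galois-fixed place `x` cannot reduce to `P₀` at `ℓ₀` and to `P∞` at `ℓ`. -/
theorem core {p : ℕ} (hp : p.Prime) (hp' : p ∉ ({2, 3, 5, 7, 13} : Finset ℕ))
    (x P₀ Pinf : Place Qb (FB p))
    (hxfix : ∀ σ : GQ, gal p σ • x = x)
    (hfix₀ : ∀ σ : GQ, gal p σ • P₀ = P₀) (hfixInf : ∀ σ : GQ, gal p σ • Pinf = Pinf)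
    (hfo : IsOfFinAddOrder (ptClass P₀ Pinf))
    (hcE : haveI : NeZero p := ⟨hp.ne_zero⟩; IsEis (ptClass P₀ Pinf))
    {r : ℕ} (hr : r.Prime) (hrp : r ≠ p) (hrc : r ∣ addOrderOf (ptClass P₀ Pinf))
    {ℓ₀ : ℕ} (hℓ₀ : ℓ₀.Prime) (hℓ₀p : ℓ₀ ≠ p) (hℓ₀r : ℓ₀ ≠ r)
    (A₀ : ValuationSubring Qb) (hA₀ : A₀.LiesOverPrime ℓ₀) (hin₀ : ReductionInputsModL A₀ p)
    {ℓ : ℕ} (hℓ : ℓ.Prime) (hℓp : ℓ ≠ p) (hℓr : ℓ = r → ℓ ≠ 2)
    (A : ValuationSubring Qb) (hA : A.LiesOverPrime ℓ) (hin : ReductionInputsModL A p) :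
    ¬ (placeReductionModL hin₀ x = placeReductionModL hin₀ P₀ ∧
        placeReductionModL hin x = placeReductionModL hin Pinf) := by
  classical
  rintro ⟨hx₀, hxA⟩
  haveI : NeZero p := ⟨hp.ne_zero⟩
  set c : JZero p := ptClass P₀ Pinf with hc
  set y : JZero p := ptClass x P₀ with hy
  have hyc : y + c = ptClass x Pinf := ptClass_add x P₀ Pinf
  have hcrat : IsRat c := isRat_ptClass hfix₀ hfixInf
  have hyrat : IsRat y := isRat_ptClass hxfix hfix₀
  have hn'0 : addOrderOf c ≠ 0 := fun h => (addOrderOf_pos_iff.mpr hfo).ne' h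
  obtain ⟨b, n'', hn'', hbn⟩ := Nat.exists_eq_pow_mul_and_not_dvd hn'0 r hr.ne_one
  haveI : Fact ℓ₀.Prime := ⟨hℓ₀⟩
  haveI : Fact ℓ.Prime := ⟨hℓ⟩
  have hℓ₀p' : ¬ ℓ₀ ∣ p := fun h => hℓ₀p ((Nat.prime_dvd_prime_iff_eq hℓ₀ hp).mp h)
  have hℓp' : ¬ ℓ ∣ p := fun h => hℓp ((Nat.prime_dvd_prime_iff_eq hℓ hp).mp h)
  -- the two reductions
  have hy₀ : reductionModL A₀ p y = 0 := reduction_ptClass_eq_zero hin₀ hx₀
  have hycA : reductionModL A p (y + c) = 0 := by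
    rw [hyc]
    exact reduction_ptClass_eq_zero hin hxA
  -- the finite images
  obtain ⟨a₀, m₀, hm₀, hF₀⟩ := exists_card_decomp (Fin.finStmt hp hℓ₀ hℓ₀p A₀ hA₀) hr
  obtain ⟨a, m', hm', hF⟩ := exists_card_decomp (Fin.finStmt hp hℓ hℓp A hA) hr
  -- the descent at level `k`
  obtain ⟨e, he, heE, heG⟩ := descStmt_closed hp hp' hr hrp (a₀ + a + b)
  obtain ⟨h, t, hh, ht, ⟨m, hmt⟩, hey⟩ := heG y hyrat
  -- Step 1: `t = 0`
  have ht0 : t = 0 := by
    have h1 : reductionModL A₀ p (e y) = 0 :=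
      heckeRing_red (fun q hq z hz => RedH.redHeckeStmt hp hℓ₀ hℓ₀p A₀ hA₀ q hq z hz) he y hy₀
    rw [hey, map_add, map_nsmul] at h1
    have h2' : m₀ • reductionModL A₀ p t = 0 := by
      have h1' : m₀ • (r ^ (a₀ + a + b) • reductionModL A₀ p h + reductionModL A₀ p t) = 0 := by
        rw [h1, smul_zero]
      rwa [nsmul_add, hF₀ h hh (a₀ + a + b) (by omega), zero_add] at h1'
    have h3' : m₀ • t = 0 := by
      refine Fermat.Agent.S18.result p hℓ₀p' A₀ hA₀ hin₀ (r ^ m) ?_ (m₀ • t) ?_ ?_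
      · intro hd
        exact hℓ₀r ((Nat.prime_dvd_prime_iff_eq hℓ₀ hr).mp (hℓ₀.dvd_of_dvd_pow hd))
      · rw [smul_comm, hmt, smul_zero]
      · rw [map_nsmul, h2']
    have hcop : Nat.Coprime (r ^ m) m₀ :=
      Nat.Coprime.pow_left m ((Nat.Prime.coprime_iff_not_dvd hr).mpr hm₀)
    have hd1 : addOrderOf t ∣ r ^ m := addOrderOf_dvd_of_nsmul_eq_zero hmt
    have hd2 : addOrderOf t ∣ m₀ := addOrderOf_dvd_of_nsmul_eq_zero h3'
    have : addOrderOf t = 1 := Nat.eq_one_of_dvd_coprimes hcop hd1 hd2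
    exact AddMonoid.addOrderOf_eq_one_iff.mp this
  rw [ht0, add_zero] at hey
  -- Step 2
  have h1 : reductionModL A p (e (y + c)) = 0 :=
    heckeRing_red (fun q hq z hz => RedH.redHeckeStmt hp hℓ hℓp A hA q hq z hz) he (y + c) hycA
  rw [map_add, hey, map_add, map_nsmul] at h1
  have h2' : m' • reductionModL A p (e c) = 0 := by
    have h1' : m' • (r ^ (a₀ + a + b) • reductionModL A p h + reductionModL A p (e c)) = 0 := by
      rw [h1, smul_zero]
    rwa [nsmul_add, hF h hh (a₀ + a + b) (by omega), zero_add] at h1'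
  -- `z = (m' n'') c` is an Eisenstein eigenvector of `r`-power order
  set z : JZero p := (m' * n'') • c with hz
  have hzb : r ^ b • z = 0 := by
    rw [hz, smul_smul, mul_comm, mul_assoc, mul_comm n'', ← hbn, mul_smul, addOrderOf_nsmul_eq_zero,
      smul_zero]
  have hzk : r ^ (a₀ + a + b) • z = 0 := by
    rw [pow_add, mul_smul, hzb, smul_zero]
  have hzE : IsEis z := IsEis.nsmul hcE _
  have hez : e z = z := heE z hzk hzE
  have hzred : reductionModL A p z = 0 := by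
    rw [← hez, hz, map_nsmul, map_nsmul, mul_comm, mul_smul, h2', smul_zero]
  have hz0 : z = 0 := by
    by_cases hlr : ℓ = r
    · exact Tors.torsInjStmt hp hℓ hℓp (hℓr hlr) A hA z (hcrat.nsmul _) (r ^ b) (pow_pos hr.pos b)
        hzb hzred
    · refine Fermat.Agent.S18.result p hℓp' A hA hin (r ^ b) ?_ z hzb hzred
      intro hd
      exact hlr ((Nat.prime_dvd_prime_iff_eq hℓ hr).mp (hℓ.dvd_of_dvd_pow hd))
  -- contradiction
  have hdvd : addOrderOf c ∣ m' * n'' := addOrderOf_dvd_of_nsmul_eq_zero hz0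
  have : r ∣ m' * n'' := hrc.trans hdvd
  rcases (Nat.Prime.dvd_mul hr).mp this with h | h
  · exact hm' h
  · exact hn'' h

/-! ### the two cusps -/

theorem ptClass_self {N : ℕ} [NeZero N] (P : Place Qb (FB N)) : ptClass P P = 0 := by
  rw [ptClass_eq]
  have : (⟨_, single_sub_mem_degZero P P⟩ : Divisor.degZero (K := Qb) (F := FB N)) = 0 := by
    apply Subtype.ext
    show (Finsupp.single P (1 : ℤ) - Finsupp.single P 1 : Divisor Qb (FB N)) = 0
    rw [sub_self]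
  rw [this]
  exact Pic0.mk_zero

theorem ptClass_swap {N : ℕ} [NeZero N] (P Q : Place Qb (FB N)) : ptClass Q P = -ptClass P Q := by
  rw [eq_neg_iff_add_eq_zero, ptClass_add, ptClass_self]

theorem IsEis.neg {p : ℕ} [NeZero p] {v : JZero p} (hv : IsEis v) : IsEis (-v) := by
  intro q hq
  rw [map_neg, hv q hq]
  exact (zsmul_neg _ _).symm

/-- the order of the cuspidal class `[(0) − (∞)]` -/
def cuspOrder (p : ℕ) (hp : p.Prime) : ℕ :=
  haveI : NeZero p := ⟨hp.ne_zero⟩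
  addOrderOf (ptClass (Cusp.cZero p hp) (Cusp.cInf p))

theorem cuspOrder_dvd {p : ℕ} (hp : p.Prime) : cuspOrder p hp ∣ p - 1 := by
  haveI : NeZero p := ⟨hp.ne_zero⟩
  exact addOrderOf_dvd_of_nsmul_eq_zero (Cusp.sub_one_nsmul_ptClass p hp)

theorem cuspOrder_ne_one {p : ℕ} (hp : p.Prime) (hp' : p ∉ ({2, 3, 5, 7, 13} : Finset ℕ)) :
    cuspOrder p hp ≠ 1 := by
  haveI : NeZero p := ⟨hp.ne_zero⟩
  intro h
  exact Cusp.ptClass_cusps_ne_zero p hp hp' (AddMonoid.addOrderOf_eq_one_iff.mp h)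

theorem cuspOrder_ne_zero {p : ℕ} (hp : p.Prime) : cuspOrder p hp ≠ 0 := by
  intro h
  have h1 := cuspOrder_dvd hp
  rw [h, zero_dvd_iff] at h1
  have := hp.one_lt
  omega

/-- **(K) for the cusps**: with `r ∣ ord [(0) − (∞)]`, a Galois-fixed place `x` of `X₀(p)` cannot
reduce to the cusp `0` at `ℓ₀` and to the cusp `∞` at `ℓ`, nor to `∞` at `ℓ₀` and to `0` at `ℓ`. -/
theorem core_cusps {p : ℕ} (hp : p.Prime) (hp' : p ∉ ({2, 3, 5, 7, 13} : Finset ℕ))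
    (x : Place Qb (FB p)) (hxfix : ∀ σ : GQ, gal p σ • x = x)
    {r : ℕ} (hr : r.Prime) (hrc : r ∣ cuspOrder p hp)
    {ℓ₀ : ℕ} (hℓ₀ : ℓ₀.Prime) (hℓ₀p : ℓ₀ ≠ p) (hℓ₀r : ℓ₀ ≠ r)
    (A₀ : ValuationSubring Qb) (hA₀ : A₀.LiesOverPrime ℓ₀) (hin₀ : ReductionInputsModL A₀ p)
    {ℓ : ℕ} (hℓ : ℓ.Prime) (hℓp : ℓ ≠ p) (hℓr : ℓ = r → ℓ ≠ 2)
    (A : ValuationSubring Qb) (hA : A.LiesOverPrime ℓ) (hin : ReductionInputsModL A p)
    (c₀ cinf : Place Qb (FB p))
    (hc₀ : haveI : NeZero p := ⟨hp.ne_zero⟩; IsCuspZero p c₀)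
    (hcinf : haveI : NeZero p := ⟨hp.ne_zero⟩; IsCuspInf p cinf) :
    ¬ (placeReductionModL hin₀ x = placeReductionModL hin₀ c₀ ∧
        placeReductionModL hin x = placeReductionModL hin cinf) ∧
    ¬ (placeReductionModL hin₀ x = placeReductionModL hin₀ cinf ∧
        placeReductionModL hin x = placeReductionModL hin c₀) := by
  haveI : NeZero p := ⟨hp.ne_zero⟩
  haveI : Fact p.Prime := ⟨hp⟩
  have e₀ : c₀ = Cusp.cZero p hp := Dict.eq_cZero_of_isCuspZero hc₀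
  have einf : cinf = Cusp.cInf p := Dict.eq_cInf_of_isCuspInf hcinf
  subst e₀; subst einf
  have hrp : r ≠ p := by
    intro h
    have h1 : r ≤ p - 1 :=
      Nat.le_of_dvd (Nat.sub_pos_of_lt hp.one_lt) (hrc.trans (cuspOrder_dvd hp))
    have := hp.one_lt
    omega
  have hfo : IsOfFinAddOrder (ptClass (Cusp.cZero p hp) (Cusp.cInf p)) :=
    addOrderOf_pos_iff.mp (Nat.pos_of_ne_zero (cuspOrder_ne_zero hp))
  have hE : IsEis (ptClass (Cusp.cZero p hp) (Cusp.cInf p)) := Cusp.isEis_ptClass p hp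
  refine ⟨core hp hp' x _ _ hxfix (Cusp.gal_smul_cZero p hp) (Cusp.gal_smul_cInf p) hfo hE hr hrp
    hrc hℓ₀ hℓ₀p hℓ₀r A₀ hA₀ hin₀ hℓ hℓp hℓr A hA hin, ?_⟩
  have hsw := ptClass_swap (Cusp.cZero p hp) (Cusp.cInf p)
  refine core hp hp' x _ _ hxfix (Cusp.gal_smul_cInf p) (Cusp.gal_smul_cZero p hp) ?_ ?_ hr hrp
    ?_ hℓ₀ hℓ₀p hℓ₀r A₀ hA₀ hin₀ hℓ hℓp hℓr A hA hin
  · rw [hsw]; exact hfo.neg
  · rw [hsw]; exact IsEis.neg hE
  · rw [hsw, addOrderOf_neg]; exact hrc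

end Fermat.Agent.S12lib
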