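/-
S12lib / Count  (helper7)  — S12, block (G): the two counting lemmas.

`W : WeierstrassCurve ℤ`, `E = (W.map (Int.castRingHom ℚ))⁄ℚ̄`, `A ∣ ℓ` a place of `ℚ̄`, `p ≠ ℓ` primes.

* `le_of_frob_fixed`      (G0) a nonzero `p`-torsion point of `E⁰(A)` fixed by one Frobenius element at
                          `A` forces `p ≤ 2ℓ + 1`  (its reduction generates a subgroup of order `p` of
                          `W̃_ns(𝔽_ℓ)`);
* `le_of_good_of_cofixed` (G1) good reduction at `ℓ` and a subgroup `N ⊆ E[p]` of order `p` with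
                          `(σ − 1)E[p] ⊆ N`:  `p ≤ 2ℓ + 1`;
* `inZero_of_cofixed`     (G2) multiplicative reduction at `ℓ`, `2ℓ + 1 < p`: such an `N` (Galois-stable)
                          lies in `E⁰(A)` for every `A ∣ ℓ`.
-/
import Mathlib
import Fermat.Agent.S58lib.Red.Hom
import Fermat.Agent.S41lib.NE.TorsionCard
import Fermat.Agent.S58lib.Mult.Main
import Fermat.Agent.S58lib.Cnt.FrobFixed
import Fermat.Agent.S58lib.Lead.PointCount
import Fermat.Agent.S44lib.AnnInst.Frob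
import Fermat.Agent.S12lib.Loc.VeluLocal

set_option autoImplicit false

namespace Fermat.Agent.S12lib

open IsLocalRing WeierstrassCurve WeierstrassCurve.Affine WeierstrassCurve.Affine.Point
open Fermat.Agent.S05lib Fermat.Agent.S58lib.Red Fermat.Agent.S58lib.Mult Fermat.Agent.S41lib.NE

local notation "Qb" => AlgebraicClosure ℚ
local notation "GQ" => (AlgebraicClosure ℚ ≃ₐ[ℚ] AlgebraicClosure ℚ)

section Transport

variable {L : Type*} [Field L] {A : ValuationSubring L} {W : Affine L}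

/-- transport of `RedPt` along an equality of the reduced curves -/
theorem exists_redPt_of_eq {Wb Wb' : Affine (ResidueField A)} (e : Wb = Wb') {P : W.Point}
    (h : ∃ Pb : Wb.Point, RedPt A P Pb) : ∃ Pb : Wb'.Point, RedPt A P Pb := by
  subst e
  exact h

end Transport

/-- the two presentations of the reduction of an integral model -/
theorem reductionMod_baseChange (W : WeierstrassCurve ℤ) (ℓ : ℕ) (k : Type*) [Field k]
    [Algebra (ZMod ℓ) k] :
    ((W.reductionMod ℓ)⁄k : Affine k) = W.map (Int.castRingHom k) := by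
  show ((W.map (Int.castRingHom (ZMod ℓ))).map (algebraMap (ZMod ℓ) k)) = _
  rw [WeierstrassCurve.map_map]
  congr 1
  exact RingHom.ext_int _ _

/-- **(G0)** a nonzero `p`-torsion point of `E⁰(A)`, `A ∣ ℓ ≠ p`, fixed by a Frobenius element at `A`:
then `p ≤ 2ℓ + 1`. -/
theorem le_of_frob_fixed (W : WeierstrassCurve ℤ) {ℓ p : ℕ} (hℓ : ℓ.Prime) (hp : p.Prime)
    (hℓp : ℓ ≠ p) (A : ValuationSubring Qb) (hA : A.LiesOverPrime ℓ) {σ : GQ}
    (hσ : A.IsFrobeniusAt σ ℓ) {P₀ : ((W.map (Int.castRingHom ℚ))⁄Qb).Point} (h0 : P₀ ≠ 0)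
    (hpP : p • P₀ = 0) (hz : W.InZeroComponentAt A P₀) (hfix : σ • P₀ = P₀) :
    p ≤ 2 * ℓ + 1 := by
  classical
  haveI : Fact ℓ.Prime := ⟨hℓ⟩
  haveI := charP_residueField hℓ hA
  letI : Algebra (ZMod ℓ) (ResidueField A) := ZMod.algebra _ ℓ
  have hnd : ¬ ℓ ∣ p := fun h => hℓp ((Nat.prime_dvd_prime_iff_eq hℓ hp).mp h)
  have hvp : A.valuation ((p : ℕ) : Qb) = 1 := val_natCast_eq_one_of_not_dvd hℓ hA hnd
  have hR := redCurve_int W (ℓ := ℓ) A
  obtain ⟨Pb, hPb⟩ := exists_redPt_of_eq (reductionMod_baseChange W ℓ (ResidueField A)).symm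
    ((Loc.inZero_iff_exists_redPt W A hvp hpP).1 hz)
  -- the reduction is fixed by the coordinatewise Frobenius
  have hFr : ∀ r : ResidueField A,
      FiniteField.frobeniusAlgHom (ZMod ℓ) (ResidueField A) r = r ^ ℓ := by
    intro r
    rw [FiniteField.coe_frobeniusAlgHom, ZMod.card]
  have h2 := hPb.frob hσ (FiniteField.frobeniusAlgHom (ZMod ℓ) (ResidueField A)) hFr
  rw [hfix] at h2
  have hfixb : Point.map (FiniteField.frobeniusAlgHom (ZMod ℓ) (ResidueField A)) Pb = Pb :=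
    h2.unique hPb
  obtain ⟨P₁, hP₁⟩ := Fermat.Agent.S58lib.Cnt.mem_range_baseChange_of_map_eq (W.reductionMod ℓ)
    (FiniteField.frobeniusAlgHom (ZMod ℓ) (ResidueField A)) hFr Pb hfixb
  -- orders
  have hPb0 : Pb ≠ 0 := fun h => h0 (hPb.eq_zero_iff.mpr h)
  have hpPb : p • Pb = 0 := by
    have := RedPt.nsmul hR hvp hPb hpP p
    rw [hpP] at this
    exact this.eq_zero_iff.mp rfl
  have hinj : Function.Injective
      (Point.baseChange (W' := W.reductionMod ℓ) (ZMod ℓ) (ResidueField A)) :=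
    Point.map_injective _
  have hP₁0 : P₁ ≠ 0 := by
    rintro rfl
    exact hPb0 (by rw [← hP₁, _root_.map_zero])
  have hpP₁ : p • P₁ = 0 := by
    apply hinj
    rw [map_nsmul, hP₁, hpPb, _root_.map_zero]
  haveI : Fact p.Prime := ⟨hp⟩
  have hord : addOrderOf P₁ = p := addOrderOf_eq_prime hpP₁ hP₁0
  -- the count
  have hcard := Fermat.Agent.S58lib.Lead.card_point_le ((W.reductionMod ℓ)⁄(ZMod ℓ))
  rw [ZMod.card] at hcard
  haveI : Finite ((W.reductionMod ℓ)⁄(ZMod ℓ)).toAffine.Point :=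
    Nat.finite_of_card_ne_zero (by
      have := Fermat.Agent.S58lib.Lead.one_le_card_point ((W.reductionMod ℓ)⁄(ZMod ℓ))
      omega)
  have hle : addOrderOf P₁ ≤ Nat.card ((W.reductionMod ℓ)⁄(ZMod ℓ)).toAffine.Point :=
    addOrderOf_le_card
  omega

/-- good reduction: every torsion point of order prime to `ℓ` lies in `E⁰(A)` -/
theorem inZero_of_good (W : WeierstrassCurve ℤ) {ℓ n : ℕ} (hℓ : ℓ.Prime) (hn : ¬ ℓ ∣ n)
    (hgood : ¬ (ℓ : ℤ) ∣ W.Δ) (A : ValuationSubring Qb) (hA : A.LiesOverPrime ℓ)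
    {P : ((W.map (Int.castRingHom ℚ))⁄Qb).Point} (hP : n • P = 0) :
    W.InZeroComponentAt A P := by
  classical
  haveI : Fact ℓ.Prime := ⟨hℓ⟩
  haveI := charP_residueField hℓ hA
  letI : Algebra (ZMod ℓ) (ResidueField A) := ZMod.algebra _ ℓ
  have hvn : A.valuation ((n : ℕ) : Qb) = 1 := val_natCast_eq_one_of_not_dvd hℓ hA hn
  exact (Loc.inZero_iff_exists_redPt W A hvn hP).2
    (exists_redPt_of_eq (reductionMod_baseChange W ℓ (ResidueField A))
      (exists_redPt_int W hℓ hgood hA hn hP))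

/-- the base change to `ℚ̄` of an integral model with `Δ ≠ 0` has `Δ ≠ 0` -/
theorem baseChange_Δ_ne_zero (W : WeierstrassCurve ℤ) (hΔ0 : W.Δ ≠ 0) :
    ((W.map (Int.castRingHom ℚ))⁄Qb).Δ ≠ 0 := by
  rw [(baseChange_int_coeffs W (K := Qb)).2.2.2.2.2]
  exact Int.cast_ne_zero.mpr hΔ0

/-- **(G1)** good reduction at `ℓ ≠ p`, `N ⊆ E[p]` a subgroup of order `p` containing
`(σ − 1)E[p]` for every `σ`: then `p ≤ 2ℓ + 1`. -/
theorem le_of_good_of_cofixed (W : WeierstrassCurve ℤ) (hΔ0 : W.Δ ≠ 0) {ℓ p : ℕ} (hℓ : ℓ.Prime)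
    (hp : p.Prime) (hℓp : ℓ ≠ p) (hgood : ¬ (ℓ : ℤ) ∣ W.Δ)
    (N : AddSubgroup ((W.map (Int.castRingHom ℚ))⁄Qb).Point) (hcard : Nat.card N = p)
    (hcof : ∀ σ : GQ, ∀ x : ((W.map (Int.castRingHom ℚ))⁄Qb).Point, p • x = 0 → σ • x - x ∈ N) :
    p ≤ 2 * ℓ + 1 := by
  classical
  obtain ⟨A, σ, hA, hσ⟩ := Fermat.Agent.Helper5.exists_isFrobeniusAt ℓ hℓ
  have hnd : ¬ ℓ ∣ p := fun h => hℓp ((Nat.prime_dvd_prime_iff_eq hℓ hp).mp h)
  have hVcard := Fermat.Agent.S41lib.NE.card_torsionBy_eq_sq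
    (W := ((W.map (Int.castRingHom ℚ))⁄Qb)) (baseChange_Δ_ne_zero W hΔ0) p hp.two_le
  haveI : Finite N := Nat.finite_of_card_ne_zero (by rw [hcard]; exact hp.ne_zero)
  -- `σ − 1 : E[p] → N` is not injective
  let f : Submodule.torsionBy ℤ ((W.map (Int.castRingHom ℚ))⁄Qb).Point p → N := fun x =>
    ⟨σ • (x : ((W.map (Int.castRingHom ℚ))⁄Qb).Point) - x,
      hcof σ x (nsmul_eq_zero_of_mem_torsionBy x)⟩
  have hninj : ¬ Function.Injective f := by
    intro hinj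
    have := Nat.card_le_card_of_injective f hinj
    rw [hVcard, hcard] at this
    have h2 := hp.two_le
    nlinarith
  rw [Function.not_injective_iff] at hninj
  obtain ⟨x, y, hxy, hne⟩ := hninj
  have hxy' : σ • (x : ((W.map (Int.castRingHom ℚ))⁄Qb).Point) - x =
      σ • (y : ((W.map (Int.castRingHom ℚ))⁄Qb).Point) - y := congrArg Subtype.val hxy
  have hpx := nsmul_eq_zero_of_mem_torsionBy x
  have hpy := nsmul_eq_zero_of_mem_torsionBy y
  refine le_of_frob_fixed W hℓ hp hℓp A hA hσ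
    (P₀ := (x : ((W.map (Int.castRingHom ℚ))⁄Qb).Point) - y) ?_ ?_ ?_ ?_
  · intro h
    exact hne (Subtype.ext (sub_eq_zero.mp h))
  · rw [nsmul_sub, hpx, hpy, sub_zero]
  · exact inZero_of_good W hℓ hnd hgood A hA (by rw [nsmul_sub, hpx, hpy, sub_zero])
  · rw [smul_sub]
    exact sub_eq_sub_iff_sub_eq_sub.mp hxy'

/-- `E⁰(A)` is stable under a Frobenius element at `A` (on torsion of order prime to `ℓ`) -/
theorem inZero_frob (W : WeierstrassCurve ℤ) {ℓ n : ℕ} (hℓ : ℓ.Prime) (hn : ¬ ℓ ∣ n)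
    (A : ValuationSubring Qb) (hA : A.LiesOverPrime ℓ) {σ : GQ} (hσ : A.IsFrobeniusAt σ ℓ)
    {P : ((W.map (Int.castRingHom ℚ))⁄Qb).Point} (hP : n • P = 0)
    (hz : W.InZeroComponentAt A P) : W.InZeroComponentAt A (σ • P) := by
  classical
  haveI : Fact ℓ.Prime := ⟨hℓ⟩
  haveI := charP_residueField hℓ hA
  letI : Algebra (ZMod ℓ) (ResidueField A) := ZMod.algebra _ ℓ
  have hvn : A.valuation ((n : ℕ) : Qb) = 1 := val_natCast_eq_one_of_not_dvd hℓ hA hn
  obtain ⟨Pb, hPb⟩ := exists_redPt_of_eq (reductionMod_baseChange W ℓ (ResidueField A)).symm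
    ((Loc.inZero_iff_exists_redPt W A hvn hP).1 hz)
  have hFr : ∀ r : ResidueField A,
      FiniteField.frobeniusAlgHom (ZMod ℓ) (ResidueField A) r = r ^ ℓ := by
    intro r
    rw [FiniteField.coe_frobeniusAlgHom, ZMod.card]
  have h2 := hPb.frob hσ (FiniteField.frobeniusAlgHom (ZMod ℓ) (ResidueField A)) hFr
  exact (Loc.inZero_iff_exists_redPt W A hvn (by rw [smul_comm, hP]; rfl)).2
    (exists_redPt_of_eq (reductionMod_baseChange W ℓ (ResidueField A)) ⟨_, h2⟩)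

/-- `E⁰(A)` is stable under negation (on torsion of order a unit at `A`) -/
theorem inZero_neg (W : WeierstrassCurve ℤ) (A : ValuationSubring Qb) {n : ℕ}
    (hvn : A.valuation ((n : ℕ) : Qb) = 1) {P : ((W.map (Int.castRingHom ℚ))⁄Qb).Point}
    (hP : n • P = 0) (hz : W.InZeroComponentAt A P) : W.InZeroComponentAt A (-P) := by
  classical
  obtain ⟨Pb, hPb⟩ := (Loc.inZero_iff_exists_redPt W A hvn hP).1 hz
  exact (Loc.inZero_iff_exists_redPt W A hvn (by rw [neg_nsmul, hP, _root_.neg_zero])).2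
    ⟨-Pb, hPb.neg (redCurve_int_cast W A)⟩

/-- multiplicative reduction at `ℓ ≠ p`, `p` odd: a nonzero `p`-torsion point in `E⁰(A)` -/
theorem exists_inZero_of_multiplicative (W : WeierstrassCurve ℤ) (hΔ0 : W.Δ ≠ 0) {ℓ p : ℕ}
    (hℓ : ℓ.Prime) (hp : p.Prime) (hodd : p ≠ 2) (hℓp : ℓ ≠ p) (hℓΔ : (ℓ : ℤ) ∣ W.Δ)
    (hℓc₄ : ¬ (ℓ : ℤ) ∣ W.c₄) (A : ValuationSubring Qb) (hA : A.LiesOverPrime ℓ) :
    ∃ P₀ : ((W.map (Int.castRingHom ℚ))⁄Qb).Point,
      P₀ ≠ 0 ∧ p • P₀ = 0 ∧ W.InZeroComponentAt A P₀ := by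
  classical
  have hR := redCurve_int_cast W A
  have hcoef := baseChange_int_coeffs W (K := Qb)
  have hnd : ¬ ℓ ∣ p := fun h => hℓp ((Nat.prime_dvd_prime_iff_eq hℓ hp).mp h)
  have hvp : A.valuation ((p : ℕ) : Qb) = 1 := val_natCast_eq_one_of_not_dvd hℓ hA hnd
  have hΔb : (W.map (Int.castRingHom (ResidueField A))).Δ = 0 := by
    have hres := hR.res_Δ
    rw [hcoef.2.2.2.2.2] at hres
    exact hres.eq_zero_iff.mpr (val_intCast_lt_one_of_dvd hℓ hA hℓΔ)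
  have hc₄b : (W.map (Int.castRingHom (ResidueField A))).c₄ ≠ 0 := by
    have hres := hR.res_c₄
    have e : ((W.map (Int.castRingHom ℚ) : WeierstrassCurve ℚ)⁄Qb).c₄ = (W.c₄ : Qb) := by
      have e' : ((W.map (Int.castRingHom ℚ) : WeierstrassCurve ℚ)⁄Qb) =
          W.map (algebraMap ℤ Qb) := Fermat.Agent.S13lib.baseChange_map_int W
      rw [e', WeierstrassCurve.map_c₄]; simp
    rw [e] at hres
    exact hres.ne_zero_iff.mpr ((val_intCast_eq_one_iff hℓ hA _).mpr hℓc₄)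
  have hpk : ((p : ℕ) : ResidueField A) ≠ 0 := (Res.natCast (A := A) p).ne_zero_iff.mpr hvp
  have : IsAlgClosed (ResidueField A) := Fermat.Agent.S18lib.Gink.isAlgClosed_residueField A
  obtain ⟨Pb, hPb⟩ := exists_addOrderOf_of_node (W.map (Int.castRingHom (ResidueField A)))
    hΔb hc₄b p hpk
  have hPbp : p • Pb = 0 := by rw [← hPb]; exact addOrderOf_nsmul_eq_zero Pb
  obtain ⟨m, rfl⟩ := hp.odd_of_ne_two hodd
  obtain ⟨P, hPn, hP⟩ := exists_redPt_lift hR (baseChange_Δ_ne_zero W hΔ0) m hvp hPbp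
  refine ⟨P, ?_, hPn, (Loc.inZero_iff_exists_redPt W A hvp hPn).2 ⟨Pb, hP⟩⟩
  intro h0
  have hb0 : Pb = 0 := hP.eq_zero_iff.mp h0
  rw [hb0, addOrderOf_zero] at hPb
  have := hp.two_le
  omega

/-- **(G2)** multiplicative reduction at `ℓ ≠ p` with `2ℓ + 1 < p`: a subgroup `N ⊆ E[p]` of order
`p` containing `(σ − 1)E[p]` for every `σ` lies in `E⁰(A)` for every `A ∣ ℓ`. -/
theorem inZero_of_cofixed (W : WeierstrassCurve ℤ) (hΔ0 : W.Δ ≠ 0) {ℓ p : ℕ} (hℓ : ℓ.Prime)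
    (hp : p.Prime) (hodd : p ≠ 2) (hℓp : ℓ ≠ p) (hℓΔ : (ℓ : ℤ) ∣ W.Δ) (hℓc₄ : ¬ (ℓ : ℤ) ∣ W.c₄)
    (hlt : 2 * ℓ + 1 < p)
    (N : AddSubgroup ((W.map (Int.castRingHom ℚ))⁄Qb).Point) (hN : ∀ x ∈ N, p • x = 0)
    (hcard : Nat.card N = p)
    (hcof : ∀ σ : GQ, ∀ x : ((W.map (Int.castRingHom ℚ))⁄Qb).Point, p • x = 0 → σ • x - x ∈ N)
    (A : ValuationSubring Qb) (hA : A.LiesOverPrime ℓ) :
    ∀ Q ∈ N, W.InZeroComponentAt A Q := by
  classical
  intro Q hQN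
  by_contra hQz
  have hnd : ¬ ℓ ∣ p := fun h => hℓp ((Nat.prime_dvd_prime_iff_eq hℓ hp).mp h)
  have hvp : A.valuation ((p : ℕ) : Qb) = 1 := val_natCast_eq_one_of_not_dvd hℓ hA hnd
  have hQ0 : Q ≠ 0 := fun h => hQz (Or.inl h)
  have hpQ : p • Q = 0 := hN Q hQN
  haveI : Fact p.Prime := ⟨hp⟩
  have hordQ : addOrderOf Q = p := addOrderOf_eq_prime hpQ hQ0
  haveI : Finite N := Nat.finite_of_card_ne_zero (by rw [hcard]; exact hp.ne_zero)
  -- `N = ⟨Q⟩`
  have hNQ : ∀ x ∈ N, ∃ k : ℕ, x = k • Q := by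
    have hle : AddSubgroup.zmultiples Q ≤ N := AddSubgroup.zmultiples_le_of_mem hQN
    have hc : Nat.card (AddSubgroup.zmultiples Q) = p := by
      rw [Nat.card_zmultiples, hordQ]
    have heq : AddSubgroup.zmultiples Q = N := by
      apply AddSubgroup.eq_of_le_of_card_ge hle
      rw [hc, hcard]
    intro x hx
    rw [← heq] at hx
    obtain ⟨k, rfl⟩ := AddSubgroup.mem_zmultiples_iff.mp hx
    refine ⟨(k % p).toNat, ?_⟩
    have hk0 : 0 ≤ k % (p : ℤ) := Int.emod_nonneg _ (by exact_mod_cast hp.ne_zero)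
    have e : k = (p : ℤ) * (k / p) + ((k % p).toNat : ℤ) := by
      rw [Int.toNat_of_nonneg hk0]
      exact (Int.mul_ediv_add_emod k p).symm
    conv_lhs => rw [e]
    rw [add_zsmul, mul_zsmul', natCast_zsmul, natCast_zsmul, hpQ, zsmul_zero, zero_add]
  -- `N ∩ E⁰(A) = 0`
  have hN0 : ∀ x ∈ N, W.InZeroComponentAt A x → x = 0 := by
    intro x hx hz
    obtain ⟨k, rfl⟩ := hNQ x hx
    by_contra hne
    have hk : ¬ p ∣ k := by
      rintro ⟨j, rfl⟩
      exact hne (by rw [mul_nsmul, hpQ, nsmul_zero])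
    exact Loc.not_inZero_nsmul W A hp hvp hpQ hQz hk hz
  -- a Frobenius element and a point of `E⁰(A)`
  obtain ⟨σ, hσ⟩ := Fermat.Agent.S44lib.AnnInst.exists_isFrobeniusAt_of_liesOver hℓ hA
  obtain ⟨P₀, hP0, hpP, hzP⟩ :=
    exists_inZero_of_multiplicative W hΔ0 hℓ hp hodd hℓp hℓΔ hℓc₄ A hA
  have hD : σ • P₀ - P₀ = 0 := by
    apply hN0 _ (hcof σ P₀ hpP)
    rw [sub_eq_add_neg]
    exact Loc.inZero_add W A hvp (by rw [smul_comm, hpP]; rfl)
      (by rw [neg_nsmul, hpP, _root_.neg_zero]) (inZero_frob W hℓ hnd A hA hσ hpP hzP)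
      (inZero_neg W A hvp hpP hzP)
  have := le_of_frob_fixed W hℓ hp hℓp A hA hσ hP0 hpP hzP (sub_eq_zero.mp hD)
  omega

end Fermat.Agent.S12lib
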