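/-
S12lib / Iface  (helper9) — Project F: S12 (`frey_no_cofixed_large`), then S09.

ROUTE (Mazur III.5 with an archimedean/2-adic ending instead of Shafarevich).
`E₀` = Frey curve, `p ≥ 17`, `N₀ ⊂ E₀[p]` a cofixed line.  Build curves `W₁, W₂, …` over `ℤ`:
`W₁ = E₀/N₀`, `W_{n+1} = W_n/C_n`, where at level `n ≥ 1`
* `Q_n ∈ W_n[p]` is a rational point of order `p` (the image of `W_{n-1}[p]`),
* S15 (+ counting at `2, 3`) ⇒ `Q_n ∉ W_n⁰` at every multiplicative `ℓ ≠ p`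
  ⇒ `W_n[p]` is unramified outside `p`,
* S14 ⇒ `W_n[p] = ⟨Q_n⟩ ⊕ C_n`, `C_n ≅ μ_p` (the local splitting at `p` comes from a
  `p`-divisible `D_A`-stable subgroup `T ⊂ W_n(ℚ̄)` with `T ∩ W_n[p]` a ramified line: it is
  pushed forward from the kernel of reduction of the Frey curve, NO `p`-adic analysis of `W_n`),
* `W_{n+1}` = Vélu's curve of `(W_n, C_n)` RESCALED by `p` (integral: torsion points are
  `ℓ`-integral for `ℓ ≠ p` (EL0), and `p·x(T)` is integral at `p`: the ladder polynomial has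
  leading coefficient `p`); semistability outside `p` propagates (`c₄' = c₄ + 240 t`, `t ≡ 0` at a
  node, EL2 otherwise; `ℓ ∈ {2,3,5}`: `240 ≡ 0`).
ENDING: `v₂(Δ(W_{n+1})) = p·v₂(Δ(W_n))` (Vélu's discriminant identity `Δ' Ψ⁴ = Δ^p`, `Ψ` a
2-adic unit because `C_n ⊂ W_n⁰` at `2`: Frobenius at `2` has eigenvalue `2 ≠ 1` on `C_n`), so
`|Δ(W_n)| ≥ 2^(p^(n-1))`; but the period lattices satisfy `area(Λ_{n+1}) = area(Λ_n)/p³` and
`|Δ(Λ)|·area(Λ)⁶ ≤ C₀` (`Δ` is a cusp form of weight 12): `2^(p^(n-1)) ≤ C₀ p^(18n)/area(Λ₀)⁶`,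
absurd for large `n`.

This file: the definitions, the invariant `Inv`, the block statements, and the top-level
assembly `s12_of_stmts : BaseStmt → StepStmt → EndStmt → S12`.
-/
import Mathlib
import Fermat.Prelude.Def_FLTPrelim_CofixedLine
import Fermat.Prelude.Def_EllipticCurve_ZeroComponentAt
import Fermat.Prelude.Def_ExtCitation_AdmissibleExtension_v2
import Fermat.Agent.S15lib.Dict.Defs
import Fermat.Agent.ProgramR.LevelOne.JInjective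

set_option autoImplicit false

noncomputable section

namespace Fermat.Agent.S12lib

open WeierstrassCurve WeierstrassCurve.Affine WeierstrassCurve.Affine.Point
open Fermat.Agent.S15lib.Dict Fermat.Agent.ProgramR.LevelOne UpperHalfPlane

local notation "Qb" => AlgebraicClosure ℚ
local notation "GQ" => (AlgebraicClosure ℚ ≃ₐ[ℚ] AlgebraicClosure ℚ)

/-! ### the objects -/

/-- the `ℚ̄`-points of an integral model (same type as in S15) -/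
abbrev Pt (W : WeierstrassCurve ℤ) : Type := ((W.map (Int.castRingHom ℚ))⁄Qb).Point

/-- the `p`-torsion, with the Prelude's Galois action and `ZMod p`-module structure -/
abbrev Tors (W : WeierstrassCurve ℤ) (p : ℕ) : Type := Submodule.torsionBy ℤ (Pt W) p

/-- multiplicative or good reduction (for this model) at every prime `ℓ ≠ p` -/
def SemistableAway (p : ℕ) (W : WeierstrassCurve ℤ) : Prop :=
  ∀ ℓ : ℕ, ℓ.Prime → ℓ ≠ p → (ℓ : ℤ) ∣ W.Δ → ¬ (ℓ : ℤ) ∣ W.c₄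

/-- `C` is a line on which Galois acts through the mod `p` cyclotomic character (`cycloExp`, the
normalisation of S14), and trivially on `W[p]/C` -/
def IsMuLine (p : ℕ) [Fact p.Prime] (W : WeierstrassCurve ℤ)
    (C : Submodule (ZMod p) (Tors W p)) : Prop :=
  Nat.card C = p ∧
  (∀ σ : GQ, ∀ x ∈ C, σ • x = (ExtCitation.cycloExp p σ : ZMod p) • x) ∧
  (∀ (σ : GQ) (x : Tors W p), σ • x - x ∈ C)

/-- the `p`-adic marking: over every `A ∣ p` a `D_A`-stable `p`-divisible subgroup `T` of `W(ℚ̄)`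
with `T ∩ W[p] = C` (for the Frey curve: the kernel of reduction; then pushed forward) -/
def PMarked (p : ℕ) (W : WeierstrassCurve ℤ) (C : Submodule (ZMod p) (Tors W p)) : Prop :=
  ∀ A : ValuationSubring Qb, A.LiesOverPrime p →
    ∃ T : AddSubgroup (Pt W),
      (∀ σ ∈ A.decompositionSubgroup ℚ, ∀ x ∈ T, σ • x ∈ T) ∧
      (∀ x ∈ T, ∃ y ∈ T, p • y = x) ∧
      (∀ x : Tors W p, x ∈ C ↔ (x : Pt W) ∈ T)

/-- a lattice `λ(ℤτ + ℤ)` with `g₂ = c₄/12`, `g₃ = c₆/216` and area `|λ|² Im τ ≥ M` -/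
def HasLattice (c₄ c₆ : ℂ) (M : ℝ) : Prop :=
  ∃ (lam : ℂ) (hlam : lam ≠ 0) (τ : ℍ),
    (periodPairOf lam hlam τ).g₂ = c₄ / 12 ∧ (periodPairOf lam hlam τ).g₃ = c₆ / 216 ∧
    M ≤ ‖lam‖ ^ 2 * τ.im

/-- Vélu's curve `E/⟨Q⟩`: `a₁, a₂, a₃` unchanged, `a₄' = a₄ - 5t`, `a₆' = a₆ - b₂t - 7w`
(`t = veluT`, `w = veluW` of `S15lib/Dict/Defs`; `c₄' = veluC4`, `c₆' = veluC6`) -/
def veluCurve {K : Type*} [Field K] [DecidableEq K] (W : WeierstrassCurve K)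
    (Q : W.toAffine.Point) (p : ℕ) : WeierstrassCurve K :=
  ⟨W.a₁, W.a₂, W.a₃, W.a₄ - 5 * veluT W Q p, W.a₆ - W.b₂ * veluT W Q p - 7 * veluW W Q p⟩

/-! ### the invariant at level `n ≥ 1` -/

/-- the invariant of the ascent at level `n ≥ 1`: an integral model `W`, semistable outside `p`,
a rational point `Q` of order `p`, its Galois-stable complement `C ≅ μ_p` (from S14), marked at
`p`, with `2^(p^(n-1)) ∣ Δ` and a period lattice of area `≥ M₀ / p^(3n)`. -/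
structure Inv (p : ℕ) [Fact p.Prime] (n : ℕ) (M₀ : ℝ) (W : WeierstrassCurve ℤ)
    (Q : Tors W p) (C : Submodule (ZMod p) (Tors W p)) : Prop where
  disc_ne : W.Δ ≠ 0
  semistable : SemistableAway p W
  two_pow : (2 : ℤ) ^ (p ^ (n - 1)) ∣ W.Δ
  card : Nat.card (Tors W p) = p ^ 2
  fix : ∀ σ : GQ, σ • Q = Q
  notMem : Q ∉ C
  mu : IsMuLine p W C
  marked : PMarked p W C
  lattice : HasLattice (W.c₄ : ℂ) (W.c₆ : ℂ) (M₀ / (p : ℝ) ^ (3 * n))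

/-! ### the three top-level statements -/

/-- **(BASE)** a cofixed line on the Frey curve gives level `1`. -/
def BaseStmt : Prop :=
  ∀ (P : FreyPackage) (_hp : 17 ≤ P.p),
    HasGaloisStableCofixedLine (K := Qb) ℚ P.freyCurve P.p →
    haveI : Fact P.p.Prime := ⟨P.pp⟩
    ∃ (M₀ : ℝ) (_ : 0 < M₀) (W : WeierstrassCurve ℤ) (Q : Tors W P.p)
      (C : Submodule (ZMod P.p) (Tors W P.p)), Inv P.p 1 M₀ W Q C

/-- **(STEP)** level `n ≥ 1` gives level `n + 1`. -/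
def StepStmt : Prop :=
  ∀ {p : ℕ} [Fact p.Prime] (_hp : 17 ≤ p) (n : ℕ) (_hn : 1 ≤ n) (M₀ : ℝ) (W : WeierstrassCurve ℤ)
    (Q : Tors W p) (C : Submodule (ZMod p) (Tors W p)), Inv p n M₀ W Q C →
    ∃ (W' : WeierstrassCurve ℤ) (Q' : Tors W' p) (C' : Submodule (ZMod p) (Tors W' p)),
      Inv p (n + 1) M₀ W' Q' C'

/-- **(END)** the archimedean/2-adic contradiction: no level `n` for `n` large. -/
def EndStmt : Prop :=
  ∀ (p : ℕ) (_hp : 2 ≤ p) (M₀ : ℝ) (_hM : 0 < M₀), ∃ n₀ : ℕ, ∀ n : ℕ, n₀ ≤ n →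
    ∀ W : WeierstrassCurve ℤ, W.Δ ≠ 0 → (2 : ℤ) ^ (p ^ (n - 1)) ∣ W.Δ →
      ¬ HasLattice (W.c₄ : ℂ) (W.c₆ : ℂ) (M₀ / (p : ℝ) ^ (3 * n))

/-- **S12 from (BASE), (STEP), (END).** -/
theorem s12_of_stmts (hB : BaseStmt) (hS : StepStmt) (hE : EndStmt) (P : FreyPackage)
    (hp : 17 ≤ P.p) : ¬ HasGaloisStableCofixedLine (K := Qb) ℚ P.freyCurve P.p := by
  intro hcof
  haveI : Fact P.p.Prime := ⟨P.pp⟩
  obtain ⟨M₀, hM₀, W₁, Q₁, C₁, h₁⟩ := hB P hp hcof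
  obtain ⟨n₀, hn₀⟩ := hE P.p (by omega) M₀ hM₀
  have key : ∀ n : ℕ, 1 ≤ n → ∃ (W : WeierstrassCurve ℤ) (Q : Tors W P.p)
      (C : Submodule (ZMod P.p) (Tors W P.p)), Inv P.p n M₀ W Q C := by
    intro n hn
    induction n, hn using Nat.le_induction with
    | base => exact ⟨W₁, Q₁, C₁, h₁⟩
    | succ n hn ih =>
      obtain ⟨W, Q, C, h⟩ := ih
      exact hS hp n hn M₀ W Q C h
  obtain ⟨W, Q, C, h⟩ := key (max n₀ 1) (le_max_right _ _)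
  exact hn₀ (max n₀ 1) (le_max_left _ _) W h.disc_ne h.two_pow h.lattice

/-! ### the blocks of (STEP) and (BASE) -/

/-- the statement of S14 at `p` (to be fed with `Fermat.Agent.S14.result`) -/
abbrev S14Stmt (p : ℕ) [Fact p.Prime] : Prop := ExtCitation.ExtVanishingCts p

/-- the statement of S15 (to be fed with `Fermat.Agent.S15.result`) -/
def S15Stmt : Prop :=
  ∀ {p : ℕ} (_hp : p.Prime) (_hp' : p ∉ ({2, 3, 5, 7, 13} : Finset ℕ))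
    (W : WeierstrassCurve ℤ) (_hΔ : W.Δ ≠ 0) (Q : Pt W)
    (_hQfix : ∀ σ : GQ, σ • Q = Q) (_hQord : addOrderOf Q = p)
    (_h2Δ : (2 : ℤ) ∣ W.Δ) (_h2c₄ : ¬ (2 : ℤ) ∣ W.c₄)
    (_h2 : ∀ A : ValuationSubring Qb, A.LiesOverPrime 2 → ¬ W.InZeroComponentAt A Q)
    (_h3Δ : (3 : ℤ) ∣ W.Δ) (_h3c₄ : ¬ (3 : ℤ) ∣ W.c₄)
    (_h3 : ∀ A : ValuationSubring Qb, A.LiesOverPrime 3 → ¬ W.InZeroComponentAt A Q)
    {ℓ : ℕ} (_hℓ : ℓ.Prime) (_hℓp : ℓ ≠ p) (_hℓΔ : (ℓ : ℤ) ∣ W.Δ) (_hℓc₄ : ¬ (ℓ : ℤ) ∣ W.c₄)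
    (A : ValuationSubring Qb) (_hA : A.LiesOverPrime ℓ), ¬ W.InZeroComponentAt A Q

/-- **(V)** Vélu's isogeny over `ℚ̄` as a group homomorphism, with the period lattice
(`ι` any embedding `ℚ̄ → ℂ`; over `ℂ`: `Ψ_{Λ'} ∘ Ψ_Λ⁻¹`, `Λ' = Λ + ℤ z₀`, and
`℘_{Λ'} = ℘_Λ + Σ_k (℘_Λ(· + k z₀) - ℘_Λ(k z₀))`). -/
def VeluHomStmt : Prop :=
  ∀ {p : ℕ} [Fact p.Prime] (_hodd : p ≠ 2) (ι : Qb →+* ℂ) (E : WeierstrassCurve Qb)
    (_hΔ : E.Δ ≠ 0) (Q : E.toAffine.Point) (_hQ : addOrderOf Q = p) (M : ℝ)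
    (_hL : HasLattice (ι E.c₄) (ι E.c₆) M),
    HasLattice (ι (veluC4 E Q p)) (ι (veluC6 E Q p)) (M / p) ∧
    ∃ φ : E.toAffine.Point →+ (veluCurve E Q p).toAffine.Point,
      Function.Surjective φ ∧ (∀ P, φ P = 0 ↔ P ∈ AddSubgroup.zmultiples Q) ∧
      ∀ P, P ∉ AddSubgroup.zmultiples Q →
        ptX (φ P) = ptX P + ∑ k ∈ Finset.Icc 1 (p - 1), (ptX (P + k • Q) - ptX (k • Q)) ∧
        ptY (φ P) = ptY P + ∑ k ∈ Finset.Icc 1 (p - 1), (ptY (P + k • Q) - ptY (k • Q))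

/-- **(I)** the integral quotient: for a Galois-stable line `C ⊂ W[p]` the curve `W' ` = Vélu's
curve of `(W, C)` rescaled by `p` (`aᵢ' ↦ pⁱ aᵢ'`) is an integral model, and the isogeny is a
surjective Galois-equivariant homomorphism `W(ℚ̄) → W'(ℚ̄)` with kernel `C`. -/
def QuotStmt : Prop :=
  ∀ {p : ℕ} [Fact p.Prime] (_hp : 5 ≤ p) (W : WeierstrassCurve ℤ) (_hΔ : W.Δ ≠ 0)
    (C : Submodule (ZMod p) (Tors W p)) (_hst : IsGaloisStable ℚ C) (_hC : Nat.card C = p)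
    (M : ℝ) (_hL : HasLattice (W.c₄ : ℂ) (W.c₆ : ℂ) M),
    ∃ (W' : WeierstrassCurve ℤ) (φ : Pt W →+ Pt W') (T : Tors W p),
      T ∈ C ∧ T ≠ 0 ∧ Function.Surjective φ ∧
      (∀ P : Pt W, φ P = 0 ↔ ∃ x ∈ C, (x : Pt W) = P) ∧
      (∀ (σ : GQ) (P : Pt W), φ (σ • P) = σ • φ P) ∧
      (W'.c₄ : Qb) = (p : Qb) ^ 4 * veluC4 ((W.map (Int.castRingHom ℚ))⁄Qb) (T : Pt W) p ∧
      (W'.Δ : Qb) * veluPsi ((W.map (Int.castRingHom ℚ))⁄Qb) (T : Pt W) p ^ 4 =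
        (p : Qb) ^ 12 * (W.Δ : Qb) ^ p ∧
      HasLattice (W'.c₄ : ℂ) (W'.c₆ : ℂ) (M / (p : ℝ) ^ 3)

/-- **(SS)** semistability outside `p` propagates to the quotient. -/
def SemistableStmt : Prop :=
  ∀ {p : ℕ} (_hp : p.Prime) (_hp5 : 5 ≤ p) (W W' : WeierstrassCurve ℤ) (_hΔ : W.Δ ≠ 0)
    (_hss : SemistableAway p W) (T : Pt W) (_hT : addOrderOf T = p)
    (_hc₄ : (W'.c₄ : Qb) = (p : Qb) ^ 4 * veluC4 ((W.map (Int.castRingHom ℚ))⁄Qb) T p)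
    (_hΔ' : (W'.Δ : Qb) * veluPsi ((W.map (Int.castRingHom ℚ))⁄Qb) T p ^ 4 =
      (p : Qb) ^ 12 * (W.Δ : Qb) ^ p),
    SemistableAway p W'

/-- **(H)** the hypotheses of S15 at `ℓ ∈ {2, 3}` by counting: `p - 1` distinct nonsingular
reductions in `𝔽_ℓ²` are impossible for `p ≥ 11`. -/
def CountStmt : Prop :=
  ∀ {p : ℕ} (_hp : p.Prime) (_hp11 : 11 ≤ p) (W : WeierstrassCurve ℤ) (_hΔ : W.Δ ≠ 0)
    (Q : Pt W) (_hfix : ∀ σ : GQ, σ • Q = Q) (_hord : addOrderOf Q = p)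
    {ℓ : ℕ} (_hℓ : ℓ = 2 ∨ ℓ = 3) (_hss : (ℓ : ℤ) ∣ W.Δ → ¬ (ℓ : ℤ) ∣ W.c₄),
    (ℓ : ℤ) ∣ W.Δ ∧ ∀ A : ValuationSubring Qb, A.LiesOverPrime ℓ → ¬ W.InZeroComponentAt A Q

/-- **(A)** unramifiedness at `ℓ ≠ p`: good reduction, or multiplicative reduction with the
rational point `Q` outside the zero component (`S58lib.Mult`: a point of order `p` in `W⁰` fixed
by inertia, independent of `Q`). -/
def UnramStmt : Prop :=
  ∀ {p : ℕ} (_hp : p.Prime) (_hodd : p ≠ 2) (W : WeierstrassCurve ℤ) (_hΔ : W.Δ ≠ 0)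
    (Q : Pt W) (_hfix : ∀ σ : GQ, σ • Q = Q) (_hord : addOrderOf Q = p)
    {ℓ : ℕ} (_hℓ : ℓ.Prime) (_hℓp : ℓ ≠ p) (_hss : (ℓ : ℤ) ∣ W.Δ → ¬ (ℓ : ℤ) ∣ W.c₄)
    (A : ValuationSubring Qb) (_hA : A.LiesOverPrime ℓ)
    (_hQ : (ℓ : ℤ) ∣ W.Δ → ¬ W.InZeroComponentAt A Q)
    (σ : GQ) (_hσ : σ ∈ A.inertiaSubgroupIn ℚ) (x : Pt W) (_hx : p • x = 0), σ • x = x

/-- **(C2)** the 2-adic growth: at level `n ≥ 1` the line `C` lies in `W⁰` at `2` (a Frobenius at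
`A ∣ 2` acts by `2 ≠ 1` on `C`, by `1` on `Q`, and `W⁰ ∩ W[p]` is a `D_A`-stable line `∌ Q`), so
`Ψ = ∏ ψ₂(kT)` is a 2-adic unit and `v₂(Δ') = p v₂(Δ)`. -/
def TwoAdicStmt : Prop :=
  ∀ {p : ℕ} [Fact p.Prime] (_hp5 : 5 ≤ p) (W W' : WeierstrassCurve ℤ) (_hΔ : W.Δ ≠ 0)
    (_h2Δ : (2 : ℤ) ∣ W.Δ) (_h2c₄ : ¬ (2 : ℤ) ∣ W.c₄)
    (C : Submodule (ZMod p) (Tors W p)) (_hmu : IsMuLine p W C)
    (Q : Tors W p) (_hQC : Q ∉ C) (_hfix : ∀ σ : GQ, σ • Q = Q)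
    (_hQ2 : ∀ A : ValuationSubring Qb, A.LiesOverPrime 2 → ¬ W.InZeroComponentAt A (Q : Pt W))
    (T : Tors W p) (_hT : T ∈ C) (_hT0 : T ≠ 0)
    (_hΔ' : (W'.Δ : Qb) * veluPsi ((W.map (Int.castRingHom ℚ))⁄Qb) (T : Pt W) p ^ 4 =
      (p : Qb) ^ 12 * (W.Δ : Qb) ^ p)
    (e : ℕ) (_he : (2 : ℤ) ^ e ∣ W.Δ), (2 : ℤ) ^ (p * e) ∣ W'.Δ

/-- **(R)** the cyclotomic character is ramified at `p`: Minkowski (`S13lib.asm_hmink`) applied to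
`ker ω`, which contains every inertia group at `ℓ ≠ p`. -/
def RamStmt : Prop :=
  ∀ {p : ℕ} [Fact p.Prime] (_h3 : 3 ≤ p) (A : ValuationSubring Qb) (_hA : A.LiesOverPrime p),
    ∃ σ ∈ A.inertiaSubgroupIn ℚ, (ExtCitation.cycloExp p σ : ZMod p) ≠ 1

/-- **(FM)** the integral Frey model. -/
def FreyModelStmt : Prop :=
  ∀ P : FreyPackage, P.freyCurve = P.freyCurveInt.map (Int.castRingHom ℚ) ∧
    P.freyCurveInt.Δ ≠ 0 ∧ ∀ ℓ : ℕ, ℓ.Prime → (ℓ : ℤ) ∣ P.freyCurveInt.Δ → ¬ (ℓ : ℤ) ∣ P.freyCurveInt.c₄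

/-- **(P)** the `p`-adic block, on the Frey curve only: a cofixed line `N` is a `μ`-line (Galois
acts on it through `ω`: inertia at `p` acts on the `p`-torsion of the kernel of reduction through
`ω` (`v(z)^(p-1) = v(p) = v(ζ-1)^(p-1)`, `S05lib.zc_nsmul_estimate`), then Minkowski), and it is
`T ∩ E[p]` for `T` = the kernel of reduction at `A ∣ p` (`p`-divisible: the ladder polynomials). -/
def FreyPadicStmt : Prop :=
  ∀ (P : FreyPackage) (N : Submodule (ZMod P.p) (Tors P.freyCurveInt P.p))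
    (_hst : IsGaloisStable ℚ N) (_hbot : N ≠ ⊥) (_htop : N ≠ ⊤)
    (_hcof : ∀ (σ : GQ) (x : Tors P.freyCurveInt P.p), σ • x - x ∈ N),
    haveI : Fact P.p.Prime := ⟨P.pp⟩
    IsMuLine P.p P.freyCurveInt N ∧ PMarked P.p P.freyCurveInt N

end Fermat.Agent.S12lib
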