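/-
S12lib / FreyModel  (helper2) — Project F, block (FM) of `S12lib/Iface.lean`:
the integral Frey model `freyCurveInt` base-changes to `freyCurve`, has `Δ ≠ 0`
(`256 Δ = (a^p b^p c^p)²`) and is semistable everywhere (`c₄ = a^{2p} + a^p b^p + b^{2p}`).
-/
import Fermat.Agent.S12lib.Iface

set_option autoImplicit false

namespace Fermat.Agent.S12lib

namespace FreyModel

open FreyPackage

variable (P : FreyPackage)

/-- `32 ∣ b^p` (`b` even, `p ≥ 5`). -/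
lemma dvd_b_pow : (32 : ℤ) ∣ P.b ^ P.p := by
  have h2 : (2 : ℤ) ∣ P.b := (ZMod.intCast_zmod_eq_zero_iff_dvd P.b 2).1 P.hb2
  have h5 : (2 : ℤ) ^ 5 ∣ P.b ^ P.p :=
    dvd_trans (pow_dvd_pow_of_dvd h2 5) (pow_dvd_pow P.b P.hp5)
  norm_num at h5
  exact h5

/-- `a^p ≡ 3 mod 4`. -/
lemma a_pow_mod_four : (4 : ℤ) ∣ P.a ^ P.p - 3 := by
  have h4 : ((P.a ^ P.p - 3 : ℤ) : ZMod 4) = 0 := by
    push_cast
    rw [P.ha4]
    obtain ⟨k, hk⟩ := P.hp_odd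
    rw [hk, pow_succ, pow_mul]
    have : (3 : ZMod 4) ^ 2 = 1 := by decide
    rw [this, one_pow, one_mul]
    decide
  exact (ZMod.intCast_zmod_eq_zero_iff_dvd _ 4).1 h4

lemma four_dvd : (4 : ℤ) ∣ P.b ^ P.p - 1 - P.a ^ P.p := by
  obtain ⟨u, hu⟩ := dvd_b_pow P
  obtain ⟨w, hw⟩ := a_pow_mod_four P
  exact ⟨8 * u - 1 - w, by linarith⟩

lemma sixteen_dvd : (16 : ℤ) ∣ -(P.a ^ P.p) * (P.b ^ P.p) := by
  obtain ⟨u, hu⟩ := dvd_b_pow P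
  exact ⟨-(P.a ^ P.p) * (2 * u), by rw [hu]; ring⟩

lemma four_mul_a₂ : 4 * P.freyCurveInt.a₂ = P.b ^ P.p - 1 - P.a ^ P.p :=
  Int.mul_ediv_cancel' (four_dvd P)

lemma sixteen_mul_a₄ : 16 * P.freyCurveInt.a₄ = -(P.a ^ P.p) * (P.b ^ P.p) :=
  Int.mul_ediv_cancel' (sixteen_dvd P)

lemma c₄_eq : P.freyCurveInt.c₄ =
    (P.a ^ P.p) ^ 2 + P.a ^ P.p * P.b ^ P.p + (P.b ^ P.p) ^ 2 := by
  have h2 := four_mul_a₂ P
  have h4 := sixteen_mul_a₄ P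
  have ha1 : P.freyCurveInt.a₁ = 1 := rfl
  have ha3 : P.freyCurveInt.a₃ = 0 := rfl
  simp only [WeierstrassCurve.c₄, WeierstrassCurve.b₂, WeierstrassCurve.b₄, ha1, ha3]
  linear_combination (4 * P.freyCurveInt.a₂ + P.b ^ P.p - P.a ^ P.p + 1) * h2 - 3 * h4

lemma disc_eq : 256 * P.freyCurveInt.Δ = (P.a ^ P.p * P.b ^ P.p * P.c ^ P.p) ^ 2 := by
  have h2 := four_mul_a₂ P
  have h4 := sixteen_mul_a₄ P
  have ha1 : P.freyCurveInt.a₁ = 1 := rfl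
  have ha3 : P.freyCurveInt.a₃ = 0 := rfl
  have ha6 : P.freyCurveInt.a₆ = 0 := rfl
  have hb2 : P.freyCurveInt.b₂ = P.b ^ P.p - P.a ^ P.p := by
    simp only [WeierstrassCurve.b₂, ha1]; linarith
  have hb4 : P.freyCurveInt.b₄ = 2 * P.freyCurveInt.a₄ := by
    simp only [WeierstrassCurve.b₄, ha1, ha3]; ring
  have hb6 : P.freyCurveInt.b₆ = 0 := by
    simp only [WeierstrassCurve.b₆, ha3, ha6]; ring
  have hb8 : P.freyCurveInt.b₈ = -P.freyCurveInt.a₄ ^ 2 := by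
    simp only [WeierstrassCurve.b₈, ha1, ha3, ha6]; ring
  rw [← P.hFLT, WeierstrassCurve.Δ, hb2, hb4, hb6, hb8]
  linear_combination ((16 * P.freyCurveInt.a₄ + -(P.a ^ P.p) * (P.b ^ P.p)) *
    (P.b ^ P.p - P.a ^ P.p) ^ 2 - 4 * ((16 * P.freyCurveInt.a₄) ^ 2 +
    (16 * P.freyCurveInt.a₄) * (-(P.a ^ P.p) * (P.b ^ P.p)) +
    (-(P.a ^ P.p) * (P.b ^ P.p)) ^ 2)) * h4

end FreyModel

open FreyModel in
/-- **(FM)** the integral Frey model. -/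
theorem freyModelStmt : FreyModelStmt := by
  intro P
  refine ⟨?_, ?_, ?_⟩
  · -- base change
    have h2 := four_mul_a₂ P
    have h4 := sixteen_mul_a₄ P
    ext
    · simp [FreyPackage.freyCurve, FreyPackage.freyCurveInt]
    · show (P.b ^ P.p - 1 - P.a ^ P.p : ℚ) / 4 = ((P.freyCurveInt.a₂ : ℤ) : ℚ)
      have : ((4 * P.freyCurveInt.a₂ : ℤ) : ℚ) = ((P.b ^ P.p - 1 - P.a ^ P.p : ℤ) : ℚ) := by
        rw [h2]
      push_cast at this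
      linarith
    · simp [FreyPackage.freyCurve, FreyPackage.freyCurveInt]
    · show (-(P.a ^ P.p) * (P.b ^ P.p) : ℚ) / 16 = ((P.freyCurveInt.a₄ : ℤ) : ℚ)
      have : ((16 * P.freyCurveInt.a₄ : ℤ) : ℚ) = ((-(P.a ^ P.p) * (P.b ^ P.p) : ℤ) : ℚ) := by
        rw [h4]
      push_cast at this
      linarith
    · simp [FreyPackage.freyCurve, FreyPackage.freyCurveInt]
  · -- `Δ ≠ 0`
    intro h0
    have h := disc_eq P
    rw [h0, mul_zero] at h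
    have hne : P.a ^ P.p * P.b ^ P.p * P.c ^ P.p ≠ 0 :=
      mul_ne_zero (mul_ne_zero (pow_ne_zero _ P.ha0) (pow_ne_zero _ P.hb0)) (pow_ne_zero _ P.hc0)
    exact pow_ne_zero 2 hne h.symm
  · -- semistable
    intro ℓ hℓ hΔ hc₄
    have hℓ' : Prime (ℓ : ℤ) := Nat.prime_iff_prime_int.mp hℓ
    rw [c₄_eq] at hc₄
    have h256 : (ℓ : ℤ) ∣ (P.a ^ P.p * P.b ^ P.p * P.c ^ P.p) ^ 2 := by
      rw [← disc_eq]; exact Dvd.dvd.mul_left hΔ 256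
    have habc : (ℓ : ℤ) ∣ P.a ^ P.p * P.b ^ P.p * P.c ^ P.p := hℓ'.dvd_of_dvd_pow h256
    have hcop : ∀ {x y : ℤ}, gcd x y = 1 → (ℓ : ℤ) ∣ x → (ℓ : ℤ) ∣ y → False := by
      intro x y hxy hx hy
      have := dvd_gcd hx hy
      rw [hxy] at this
      exact hℓ'.not_isUnit (isUnit_of_dvd_one this)
    rcases hℓ'.dvd_or_dvd habc with hab | hc
    · rcases hℓ'.dvd_or_dvd hab with ha | hb
      · -- `ℓ ∣ a`
        have hb2 : (ℓ : ℤ) ∣ (P.b ^ P.p) ^ 2 := by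
          have : (P.b ^ P.p) ^ 2 = ((P.a ^ P.p) ^ 2 + P.a ^ P.p * P.b ^ P.p + (P.b ^ P.p) ^ 2) -
              P.a ^ P.p * (P.a ^ P.p + P.b ^ P.p) := by ring
          rw [this]
          exact dvd_sub hc₄ (Dvd.dvd.mul_right ha _)
        exact hcop P.hgcdab (hℓ'.dvd_of_dvd_pow ha)
          (hℓ'.dvd_of_dvd_pow (hℓ'.dvd_of_dvd_pow hb2))
      · -- `ℓ ∣ b`
        have ha2 : (ℓ : ℤ) ∣ (P.a ^ P.p) ^ 2 := by
          have : (P.a ^ P.p) ^ 2 = ((P.a ^ P.p) ^ 2 + P.a ^ P.p * P.b ^ P.p + (P.b ^ P.p) ^ 2) -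
              P.b ^ P.p * (P.a ^ P.p + P.b ^ P.p) := by ring
          rw [this]
          exact dvd_sub hc₄ (Dvd.dvd.mul_right hb _)
        exact hcop P.hgcdab (hℓ'.dvd_of_dvd_pow (hℓ'.dvd_of_dvd_pow ha2))
          (hℓ'.dvd_of_dvd_pow hb)
    · -- `ℓ ∣ c`
      have ha2 : (ℓ : ℤ) ∣ (P.a ^ P.p) ^ 2 := by
        have : (P.a ^ P.p) ^ 2 = ((P.a ^ P.p) ^ 2 + P.a ^ P.p * P.b ^ P.p + (P.b ^ P.p) ^ 2) -
            P.b ^ P.p * P.c ^ P.p := by rw [← P.hFLT]; ring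
        rw [this]
        exact dvd_sub hc₄ (Dvd.dvd.mul_left hc _)
      exact hcop P.hgcdac (hℓ'.dvd_of_dvd_pow (hℓ'.dvd_of_dvd_pow ha2))
        (hℓ'.dvd_of_dvd_pow hc)

end Fermat.Agent.S12lib
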