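/-
S12lib / Line  (helper6) — S12, block (D): the Galois-fixed place of `X₀(p)` attached to a
Galois-STABLE LINE `N = ⟨Q⟩ ⊂ E[p]` (the point `Q` itself need not be rational).

* `veluT_fixed`, `veluW_fixed`, `veluC4_fixed`, `veluC6_fixed`, `veluJ_fixed_of_stable` : Vélu's sums
  over the multiples of `Q` are symmetric functions of the `x`-coordinates of `N ∖ 0`, hence
  Galois-fixed as soon as `N` is Galois-stable;
* `val_pair_eq_one`, `val_pair_lt_one` : with `a₀ = c₄³/Δ`, `b₀ = veluJ`: at a multiplicative prime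
  `ℓ ≠ p` (ANY `ℓ`, including `2` and `3`), `|b₀ / a₀^p| = 1` if `N ⊂ E⁰` and `< 1` otherwise;
* `exists_place_of_stable_line` : the variant of `Dict.EL2.dictStmt'_of` for a stable line.
-/
import Mathlib
import Fermat.Agent.S12lib.Loc.VeluLocal

set_option autoImplicit false

noncomputable section

namespace Fermat.Agent.S12lib

open IsLocalRing WeierstrassCurve WeierstrassCurve.Affine WeierstrassCurve.Affine.Point
open AlgebraicCurve ModularCurve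
open Fermat.Agent.S05lib Fermat.Agent.S41lib.NE
open Fermat.Agent.S28lib Fermat.Agent.S37lib.ConjNorm Fermat.Agent.S18lib
open Fermat.Agent.S15lib Fermat.Agent.S15lib.Dict Fermat.Agent.S15lib.Dict.EL2
open Fermat.Agent.S12lib.Loc

local notation "Qb" => AlgebraicClosure ℚ
local notation "GQ" => (AlgebraicClosure ℚ ≃ₐ[ℚ] AlgebraicClosure ℚ)

/-! ### sums over a cyclic group -/

section Cyclic

variable {G M : Type*} [AddGroup G] [AddCommMonoid M]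

/-- a sum over the multiples of an element of finite order -/
theorem sum_zmultiples (x : G) (hx : IsOfFinAddOrder x) [Fintype (AddSubgroup.zmultiples x)]
    (f : G → M) :
    ∑ P : AddSubgroup.zmultiples x, f P.1 = ∑ j ∈ Finset.range (addOrderOf x), f (j • x) := by
  rw [← Fin.sum_univ_eq_sum_range (fun j => f (j • x)) (addOrderOf x),
    ← (finEquivZMultiples hx).sum_comp (fun P => f P.1)]
  rfl

/-- the sum of an even function over a cyclic group of odd order `p`, in terms of a half system -/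
theorem sum_zmultiples_eq_half (x : G) {p : ℕ} (hp : Odd p) (hx : addOrderOf x = p)
    [Fintype (AddSubgroup.zmultiples x)] (f : G → M) (hf : ∀ P, f (-P) = f P) :
    ∑ P : AddSubgroup.zmultiples x, f P.1 =
      f 0 + 2 • ∑ j ∈ Finset.Icc 1 ((p - 1) / 2), f (j • x) := by
  have hp0 : 0 < p := hp.pos
  have hfin : IsOfFinAddOrder x := by
    rw [← addOrderOf_pos_iff, hx]
    exact hp0
  have hpx : p • x = 0 := by rw [← hx]; exact addOrderOf_nsmul_eq_zero x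
  rw [sum_zmultiples x hfin, hx]
  have hIcc : Finset.Icc 1 (p - 1) = (Finset.range p).erase 0 := by
    ext j
    simp only [Finset.mem_Icc, Finset.mem_erase, Finset.mem_range]
    omega
  have hsymm : ∀ j ∈ Finset.Icc 1 (p - 1), f ((p - j) • x) = f (j • x) := by
    intro j hj
    rw [Finset.mem_Icc] at hj
    have : (p - j) • x = -(j • x) := by
      rw [eq_neg_iff_add_eq_zero, ← add_nsmul, Nat.sub_add_cancel (by omega), hpx]
    rw [this, hf]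
  rw [← EL2.sum_Icc_eq_two_mul_half hp (fun j => f (j • x)) hsymm, hIcc,
    ← Finset.add_sum_erase _ _ (Finset.mem_range.2 hp0), zero_nsmul]

end Cyclic

/-! ### Galois-invariance of Vélu's sums for a stable line -/

section Stable

variable (W' : WeierstrassCurve ℚ)

theorem ptX_neg (P : (W'⁄Qb).Point) : ptX (-P) = ptX P := by
  rcases P with _ | ⟨x, y, h⟩
  · rfl
  · rfl

variable {W'} {p : ℕ} (hp : p.Prime) (hp2 : p ≠ 2) (Q : (W'⁄Qb).Point)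
  (hQord : addOrderOf Q = p) (hst : ∀ σ : GQ, ∃ a : ℕ, σ • Q = a • Q)

include hst in
theorem smul_mem_zmultiples (σ : GQ) {P : (W'⁄Qb).Point}
    (hP : P ∈ AddSubgroup.zmultiples Q) : σ • P ∈ AddSubgroup.zmultiples Q := by
  obtain ⟨k, rfl⟩ := AddSubgroup.mem_zmultiples_iff.1 hP
  obtain ⟨a, ha⟩ := hst σ
  rw [algEquiv_smul_zsmul, ha]
  exact AddSubgroup.zsmul_mem _ (AddSubgroup.nsmul_mem _ (AddSubgroup.mem_zmultiples Q) a) k

include hp hp2 hQord hst in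
/-- a half-system sum of a Galois-equivariant function of the `x`-coordinates of the multiples of
`Q` is Galois-fixed -/
theorem halfSum_fixed (g : Qb → Qb) (hg : ∀ (σ : GQ) (x : Qb), σ (g x) = g (σ x)) (σ : GQ) :
    σ (∑ j ∈ Finset.Icc 1 ((p - 1) / 2), g (ptX (j • Q))) =
      ∑ j ∈ Finset.Icc 1 ((p - 1) / 2), g (ptX (j • Q)) := by
  classical
  have hodd : Odd p := hp.odd_of_ne_two hp2
  have hfin : IsOfFinAddOrder Q := by
    rw [← addOrderOf_pos_iff, hQord]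
    exact hp.pos
  have : Fintype (AddSubgroup.zmultiples Q) := Fintype.ofEquiv _ (finEquivZMultiples hfin)
  have hS := sum_zmultiples_eq_half Q hodd hQord (fun P => g (ptX P))
    (fun P => by rw [ptX_neg])
  -- the permutation of the line induced by `σ`
  let e : AddSubgroup.zmultiples Q ≃ AddSubgroup.zmultiples Q :=
    { toFun := fun P => ⟨σ • P.1, smul_mem_zmultiples Q hst σ P.2⟩
      invFun := fun P => ⟨σ⁻¹ • P.1, smul_mem_zmultiples Q hst σ⁻¹ P.2⟩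
      left_inv := fun P => Subtype.ext (inv_smul_smul σ P.1)
      right_inv := fun P => Subtype.ext (smul_inv_smul σ P.1) }
  have hσS : σ (∑ P : AddSubgroup.zmultiples Q, g (ptX P.1)) =
      ∑ P : AddSubgroup.zmultiples Q, g (ptX P.1) := by
    rw [map_sum, ← e.sum_comp (fun P => g (ptX P.1))]
    refine Finset.sum_congr rfl fun P _ => ?_
    rw [hg, ← ptX_algEquiv_smul]
    rfl
  rw [hS, map_add, hg, ptX_zero, _root_.map_zero, nsmul_eq_mul, map_mul, map_natCast] at hσS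
  have h2 : ((2 : ℕ) : Qb) ≠ 0 := by norm_num
  exact mul_left_cancel₀ h2 (add_left_cancel hσS)

end Stable

section Velu

variable {p : ℕ} (hp : p.Prime) (hp2 : p ≠ 2) (W : WeierstrassCurve ℤ)
  (Q : ((W.map (Int.castRingHom ℚ) : WeierstrassCurve ℚ)⁄Qb).Point)
  (hQord : addOrderOf Q = p) (hst : ∀ σ : GQ, ∃ a : ℕ, σ • Q = a • Q)

include hp hp2 hQord hst

theorem veluT_fixed (σ : GQ) : σ (veluT _ Q p) = veluT _ Q p := by
  simp only [veluT, bc_b₂, bc_b₄]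
  exact halfSum_fixed hp hp2 Q hQord hst
    (fun x => 6 * x ^ 2 + ((W.b₂ : ℤ) : Qb) * x + ((W.b₄ : ℤ) : Qb))
    (fun σ x => by simp only [map_add, map_mul, map_pow, map_intCast, map_ofNat]) σ

theorem veluW_fixed (σ : GQ) : σ (veluW _ Q p) = veluW _ Q p := by
  simp only [veluW, bc_b₂, bc_b₄, bc_b₆]
  exact halfSum_fixed hp hp2 Q hQord hst
    (fun x => 10 * x ^ 3 + 2 * ((W.b₂ : ℤ) : Qb) * x ^ 2 + 3 * ((W.b₄ : ℤ) : Qb) * x +
      ((W.b₆ : ℤ) : Qb))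
    (fun σ x => by simp only [map_add, map_mul, map_pow, map_intCast, map_ofNat]) σ

theorem veluC4_fixed (σ : GQ) : σ (veluC4 _ Q p) = veluC4 _ Q p := by
  rw [veluC4, map_add, map_mul, veluT_fixed hp hp2 W Q hQord hst σ, bc_c₄, map_intCast, map_ofNat]

theorem veluC6_fixed (σ : GQ) : σ (veluC6 _ Q p) = veluC6 _ Q p := by
  rw [veluC6, map_add, map_add, map_mul, map_mul, map_mul, veluT_fixed hp hp2 W Q hQord hst σ,
    veluW_fixed hp hp2 W Q hQord hst σ, bc_c₆, bc_b₂, map_intCast, map_intCast, map_ofNat,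
    map_ofNat]

/-- `j(E/N)` is rational for a Galois-stable line `N = ⟨Q⟩` -/
theorem veluJ_fixed_of_stable (σ : GQ) : σ (veluJ _ Q p) = veluJ _ Q p := by
  rw [veluJ, map_div₀, map_mul, map_sub, map_pow, map_pow, veluC4_fixed hp hp2 W Q hQord hst σ,
    veluC6_fixed hp hp2 W Q hQord hst σ, map_ofNat]

end Velu

/-! ### the valuation of `b₀ / a₀^p` -/

section Pair

variable {p : ℕ} (hp : p.Prime) (hp2 : p ≠ 2) (W : WeierstrassCurve ℤ) (hΔ : W.Δ ≠ 0) {ℓ : ℕ}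
  (hℓ : ℓ.Prime) (hℓp : ℓ ≠ p) (hℓΔ : (ℓ : ℤ) ∣ W.Δ) (hℓc₄ : ¬ (ℓ : ℤ) ∣ W.c₄)
  (A : ValuationSubring Qb) (hA : A.LiesOverPrime ℓ)
  (Q : ((W.map (Int.castRingHom ℚ) : WeierstrassCurve ℚ)⁄Qb).Point) (hQord : addOrderOf Q = p)
  (hdisc : (veluC4 _ Q p ^ 3 - veluC6 _ Q p ^ 2) * veluPsi _ Q p ^ 4 =
    1728 * ((W.map (Int.castRingHom ℚ) : WeierstrassCurve ℚ)⁄Qb).Δ ^ p)

include hΔ hℓ hℓc₄ hA hdisc in
/-- `|b₀ / a₀^p| = |c₄'|³ |Ψ|⁴` at a prime not dividing `c₄` -/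
theorem val_pair :
    A.valuation (veluJ _ Q p * (((W.c₄ : Qb) ^ 3 / (W.Δ : Qb))⁻¹) ^ p) =
      A.valuation (veluC4 _ Q p ^ 3 * veluPsi _ Q p ^ 4) := by
  have hEΔ0 : ((W.map (Int.castRingHom ℚ) : WeierstrassCurve ℚ)⁄Qb).Δ ≠ 0 := by
    rw [bc_Δ]
    exact_mod_cast hΔ
  have hvc₄ : A.valuation ((W.c₄ : ℤ) : Qb) = 1 := (val_intCast_eq_one_iff hℓ hA _).mpr hℓc₄
  have hc₄0 : ((W.map (Int.castRingHom ℚ) : WeierstrassCurve ℚ)⁄Qb).c₄ ≠ 0 := by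
    rw [bc_c₄]
    intro h0
    rw [h0, _root_.map_zero] at hvc₄
    exact zero_ne_one hvc₄
  have hkey := veluJ_mul_inv_pow _ Q p hEΔ0 hc₄0 hdisc
  rw [bc_c₄, bc_Δ] at hkey
  rw [hkey, map_div₀, map_pow _ ((W.c₄ : ℤ) : Qb), hvc₄, one_pow, div_one]

include hp hp2 hΔ hℓ hℓp hℓΔ hℓc₄ hA hQord hdisc in
theorem val_pair_eq_one (hzero : W.InZeroComponentAt A Q) :
    A.valuation (veluJ _ Q p * (((W.c₄ : Qb) ^ 3 / (W.Δ : Qb))⁻¹) ^ p) = 1 := by
  rw [val_pair W hΔ hℓ hℓc₄ A hA Q hdisc, map_mul, map_pow, map_pow,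
    val_veluC4_eq_one hp hp2 W hℓ hℓp hℓΔ hℓc₄ A hA Q hQord,
    val_veluPsi_eq_one hp hp2 W hℓ hℓp hℓΔ hℓc₄ A hA Q hQord hzero, one_pow, one_pow, one_mul]

include hp hp2 hΔ hℓ hℓp hℓΔ hℓc₄ hA hQord hdisc in
theorem val_pair_lt_one (hnzero : ¬ W.InZeroComponentAt A Q) :
    A.valuation (veluJ _ Q p * (((W.c₄ : Qb) ^ 3 / (W.Δ : Qb))⁻¹) ^ p) < 1 := by
  rw [val_pair W hΔ hℓ hℓc₄ A hA Q hdisc, map_mul, map_pow, map_pow,
    val_veluC4_eq_one hp hp2 W hℓ hℓp hℓΔ hℓc₄ A hA Q hQord, one_pow, one_mul]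
  exact pow_lt_one₀ zero_le (val_veluPsi_lt_one hp W hℓ hℓp A hA Q hQord hnzero) (by norm_num)

end Pair

/-! ### a line off the zero component, at ANY prime (also `ℓ = p`) -/

section Off

variable {p : ℕ} (hp : p.Prime) (W : WeierstrassCurve ℤ) (hΔ : W.Δ ≠ 0) {ℓ : ℕ}
  (hℓ : ℓ.Prime) (hℓc₄ : ¬ (ℓ : ℤ) ∣ W.c₄)
  (A : ValuationSubring Qb) (hA : A.LiesOverPrime ℓ)
  (Q : ((W.map (Int.castRingHom ℚ) : WeierstrassCurve ℚ)⁄Qb).Point) (hQord : addOrderOf Q = p)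
  (hoff : ∀ k : ℕ, ¬ p ∣ k → ¬ W.InZeroComponentAt A (k • Q))

include hQord hoff in
/-- the points of a line off the zero component are integral (no hypothesis on `ℓ`) -/
theorem ptX_ptY_mem_of_off (k : ℕ) : ptX (k • Q) ∈ A ∧ ptY (k • Q) ∈ A := by
  classical
  have hR := Fermat.Agent.S58lib.Mult.redCurve_int_cast W A
  by_cases hk : p ∣ k
  · have h0 : k • Q = 0 := by
      rw [← hQord] at hk
      exact addOrderOf_dvd_iff_nsmul_eq_zero.1 hk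
    rw [h0]
    exact ⟨A.zero_mem, A.zero_mem⟩
  · have hnz := hoff k hk
    rcases hkQ : k • Q with _ | ⟨x, y, h⟩
    · exact ⟨A.zero_mem, A.zero_mem⟩
    · rw [hkQ] at hnz
      have hx : x ∈ A := by
        by_contra hx
        exact hnz (Or.inr ⟨x, y, h, rfl, Or.inl hx⟩)
      have hy := val_y_le_one_of_val_x_le_one hR.integralModel h.1 ((A.valuation_le_one_iff _).2 hx)
      exact ⟨hx, (A.valuation_le_one_iff _).1 hy⟩

include hp hΔ hℓ hℓc₄ hA hQord hoff in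
/-- **a line off `E⁰` at `A`** (any residue characteristic, `ℓ = p` allowed): `|b₀ / a₀^p| < 1` -/
theorem val_pair_lt_one_of_off
    (hdisc : (veluC4 _ Q p ^ 3 - veluC6 _ Q p ^ 2) * veluPsi _ Q p ^ 4 =
      1728 * ((W.map (Int.castRingHom ℚ) : WeierstrassCurve ℚ)⁄Qb).Δ ^ p) :
    A.valuation (veluJ _ Q p * (((W.c₄ : Qb) ^ 3 / (W.Δ : Qb))⁻¹) ^ p) < 1 := by
  classical
  have hQ0 : Q ≠ 0 := by
    rintro rfl
    rw [addOrderOf_zero] at hQord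
    exact hp.one_lt.ne hQord
  have hint := ptX_ptY_mem_of_off W A Q hQord hoff
  obtain ⟨e1, -, e3, -, -, -⟩ := baseChange_int_coeffs W (K := Qb)
  have hpsi : ∀ k : ℕ, psi2 _ (k • Q) ∈ A := fun k => by
    simp only [psi2, e1, e3]
    exact A.add_mem _ _ (A.add_mem _ _ (A.mul_mem _ _ (ofNat_mem A 2) (hint k).2)
      (A.mul_mem _ _ (intCast_mem A _) (hint k).1)) (intCast_mem A _)
  have hc4mem : veluC4 _ Q p ∈ A := by
    simp only [veluC4, veluT, bc_c₄, bc_b₂, bc_b₄]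
    refine A.add_mem _ _ (intCast_mem A _)
      (A.mul_mem _ _ (ofNat_mem A 240) (sum_mem fun k _ => ?_))
    exact A.add_mem _ _ (A.add_mem _ _ (A.mul_mem _ _ (ofNat_mem A 6) (pow_mem (hint k).1 2))
      (A.mul_mem _ _ (intCast_mem A _) (hint k).1)) (intCast_mem A _)
  have hint1 := hint 1
  rw [one_smul] at hint1
  have hQoff : ¬ W.InZeroComponentAt A Q := by
    have := hoff 1 (fun h => hp.one_lt.ne' (Nat.dvd_one.1 h))
    rwa [one_smul] at this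
  have hnode : A.valuation (psi2 _ Q) < 1 := localNodeStmt W A Q hQ0 hint1.1 hint1.2 hQoff
  have h1mem : 1 ∈ Finset.Icc 1 (p - 1) := by
    rw [Finset.mem_Icc]
    have := hp.two_le
    omega
  have hΨ : veluPsi _ Q p =
      psi2 _ Q * ∏ k ∈ (Finset.Icc 1 (p - 1)).erase 1, psi2 _ (k • Q) := by
    rw [veluPsi, ← Finset.mul_prod_erase _ _ h1mem, one_smul]
  have hrest : (∏ k ∈ (Finset.Icc 1 (p - 1)).erase 1, psi2 _ (k • Q)) ∈ A :=
    prod_mem fun k _ => hpsi k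
  have hpsiQ : psi2 _ Q ∈ A := by
    have := hpsi 1
    rwa [one_smul] at this
  have hsplit : veluC4 _ Q p ^ 3 * veluPsi _ Q p ^ 4 =
      psi2 _ Q * (veluC4 _ Q p ^ 3 * psi2 _ Q ^ 3 *
        (∏ k ∈ (Finset.Icc 1 (p - 1)).erase 1, psi2 _ (k • Q)) ^ 4) := by
    rw [hΨ]; ring
  rw [val_pair W hΔ hℓ hℓc₄ A hA Q hdisc, hsplit, map_mul]
  refine mul_lt_of_lt_of_le_one hnode ((A.valuation_le_one_iff _).2 ?_)
  exact A.mul_mem _ _ (A.mul_mem _ _ (pow_mem hc4mem 3) (pow_mem hpsiQ 3)) (pow_mem hrest 4)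

end Off

/-! ### the place -/

/-- **the Galois-fixed place of `X₀(p)` attached to a Galois-stable line `⟨Q⟩ ⊂ E[p]`**, raw form:
the place of the pair `(a₀, b₀) = (c₄³/Δ, veluJ)` given by `ModStmt`, with its reductions in terms
of `|b₀ / a₀^p|` at every place `A ∤ p` where `a₀` has a pole -/
theorem exists_place_pair (hV : VeluQbStmt) (hM : ModStmt)
    {p : ℕ} (hp : p.Prime) (hp5 : 5 ≤ p)
    (W : WeierstrassCurve ℤ) (hΔ : W.Δ ≠ 0)
    (Q : ((W.map (Int.castRingHom ℚ) : WeierstrassCurve ℚ)⁄Qb).Point)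
    (hQord : addOrderOf Q = p) (hst : ∀ σ : GQ, ∃ a : ℕ, σ • Q = a • Q)
    (h₀ : ∃ ℓ₀ : ℕ, ℓ₀.Prime ∧ ℓ₀ ≠ p ∧ (ℓ₀ : ℤ) ∣ W.Δ ∧ ¬ (ℓ₀ : ℤ) ∣ W.c₄) :
    haveI : NeZero p := ⟨hp.ne_zero⟩
    ∃ x : Place Qb (FB p), (∀ σ : GQ, gal p σ • x = x) ∧
      ∀ {ℓ : ℕ} (_hℓ : ℓ.Prime) (_hℓp : ℓ ≠ p) (A : ValuationSubring Qb) (_hA : A.LiesOverPrime ℓ)
        (_haA : (W.c₄ : Qb) ^ 3 / (W.Δ : Qb) ∉ A) (h : ReductionInputsModL A p)
        (c : Place Qb (FB p)),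
        (A.valuation (veluJ _ Q p * (((W.c₄ : Qb) ^ 3 / (W.Δ : Qb))⁻¹) ^ p) = 1 →
            IsCuspInf p c → placeReductionModL h x = placeReductionModL h c) ∧
        (A.valuation (veluJ _ Q p * (((W.c₄ : Qb) ^ 3 / (W.Δ : Qb))⁻¹) ^ p) < 1 →
            IsCuspZero p c → placeReductionModL h x = placeReductionModL h c) := by
  classical
  have : Fact p.Prime := ⟨hp⟩
  obtain ⟨ℓ₀, hℓ₀, hℓ₀p, hℓ₀Δ, hℓ₀c₄⟩ := h₀
  have hp2 : p ≠ 2 := by omega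
  have hEΔ0 : ((W.map (Int.castRingHom ℚ) : WeierstrassCurve ℚ)⁄Qb).Δ ≠ 0 := by
    rw [bc_Δ]
    exact_mod_cast hΔ
  obtain ⟨-, hphi⟩ := hV hp2 _ hEΔ0 Q hQord
  rw [bc_c₄, bc_Δ] at hphi
  have ha : ∀ σ : GQ, σ ((W.c₄ : Qb) ^ 3 / (W.Δ : Qb)) = (W.c₄ : Qb) ^ 3 / (W.Δ : Qb) := fun σ => by
    simp only [map_div₀, map_pow, map_intCast]
  have hb := veluJ_fixed_of_stable hp hp2 W Q hQord hst
  have : Fact ℓ₀.Prime := ⟨hℓ₀⟩
  have hA₀ : (padicPlace ℓ₀).LiesOverPrime ℓ₀ := Fermat.Agent.S55lib.padicPlace_liesOverPrime ℓ₀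
  exact hM hp5 _ _ ha hb hphi
    ⟨ℓ₀, hℓ₀, hℓ₀p, padicPlace ℓ₀, hA₀, j_not_mem W hℓ₀ _ hA₀ hℓ₀Δ hℓ₀c₄ hΔ⟩

/-- **the Galois-fixed place of `X₀(p)` attached to a Galois-stable line `⟨Q⟩ ⊂ E[p]`**, and its
reductions at the multiplicative primes `ℓ ≠ p` (all of them, `2` and `3` included) -/
theorem exists_place_of_stable_line (hV : VeluQbStmt) (hM : ModStmt) (hC : CuspStmt)
    {p : ℕ} (hp : p.Prime) (hp' : p ∉ ({2, 3, 5, 7, 13} : Finset ℕ))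
    (W : WeierstrassCurve ℤ) (hΔ : W.Δ ≠ 0)
    (Q : ((W.map (Int.castRingHom ℚ) : WeierstrassCurve ℚ)⁄Qb).Point)
    (hQord : addOrderOf Q = p) (hst : ∀ σ : GQ, ∃ a : ℕ, σ • Q = a • Q) :
    haveI : NeZero p := ⟨hp.ne_zero⟩
    ∃ x : Place Qb (FB p), (∀ σ : GQ, gal p σ • x = x) ∧
      ∀ {ℓ : ℕ} (_hℓ : ℓ.Prime) (_hℓp : ℓ ≠ p) (_hℓΔ : (ℓ : ℤ) ∣ W.Δ) (_hℓc₄ : ¬ (ℓ : ℤ) ∣ W.c₄)
        (A : ValuationSubring Qb) (_hA : A.LiesOverPrime ℓ) (h : ReductionInputsModL A p)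
        (c : Place Qb (FB p)),
        ((W.InZeroComponentAt A Q ∧ IsCuspInf p c) ∨
          (¬ W.InZeroComponentAt A Q ∧ IsCuspZero p c)) →
          placeReductionModL h x = placeReductionModL h c := by
  classical
  have : Fact p.Prime := ⟨hp⟩
  by_cases hex : ∃ ℓ₀ : ℕ, ℓ₀.Prime ∧ ℓ₀ ≠ p ∧ (ℓ₀ : ℤ) ∣ W.Δ ∧ ¬ (ℓ₀ : ℤ) ∣ W.c₄
  swap
  · obtain ⟨cInf, -, -, -, hfix, -⟩ := hC hp hp'
    refine ⟨cInf, hfix, ?_⟩
    intro ℓ hℓ hℓp hℓΔ hℓc₄
    exact absurd ⟨ℓ, hℓ, hℓp, hℓΔ, hℓc₄⟩ hex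
  have hp2 : p ≠ 2 := by
    rintro rfl
    exact hp' (by decide)
  have hp5 : 5 ≤ p := by
    by_contra hlt
    rw [not_le] at hlt
    have h2 := hp.two_le
    interval_cases p
    · exact hp' (by decide)
    · exact hp' (by decide)
    · exact absurd hp (by decide)
  have hEΔ0 : ((W.map (Int.castRingHom ℚ) : WeierstrassCurve ℚ)⁄Qb).Δ ≠ 0 := by
    rw [bc_Δ]
    exact_mod_cast hΔ
  obtain ⟨hdisc, -⟩ := hV hp2 _ hEΔ0 Q hQord
  obtain ⟨x, hxfix, hx⟩ := exists_place_pair hV hM hp hp5 W hΔ Q hQord hst hex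
  refine ⟨x, hxfix, ?_⟩
  intro ℓ hℓ hℓp hℓΔ hℓc₄ A hA h c hcase
  obtain ⟨h1, h2⟩ := hx hℓ hℓp A hA (j_not_mem W hℓ _ hA hℓΔ hℓc₄ hΔ) h c
  rcases hcase with ⟨hzero, hcinf⟩ | ⟨hnzero, hczero⟩
  · exact h1 (val_pair_eq_one hp hp2 W hΔ hℓ hℓp hℓΔ hℓc₄ A hA Q hQord hdisc hzero) hcinf
  · exact h2 (val_pair_lt_one hp hp2 W hΔ hℓ hℓp hℓΔ hℓc₄ A hA Q hQord hdisc hnzero) hczero

end Fermat.Agent.S12lib
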