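/-
S12lib / Canon  (helper9) — S12, block (X), first half: the cofixed line of the Frey curve is
"canonical" at every place where `j(E)` has a pole:

  `∀ ℓ prime (ℓ = p included), ∀ A ∣ ℓ, a₀ ∉ A → |b₀ · a₀^{-p}|_A = 1`,

with `a₀ = c₄³/Δ = j(E)`, `b₀ = veluJ E Q p = j(E/⟨Q⟩)`.

* `ℓ ≠ p`, `2ℓ + 1 < p` (so `ℓ ∈ {2,3,5,7}` at least): helper7's counting lemmas (G);
* other `ℓ ≠ p`: helper7's core (K) for the Galois-fixed place of `X₀(p)` attached to the line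
  (helper6's (D)), with the test prime `ℓ₀ ∈ {5, 7} ∖ {r}`;
* `ℓ = p`: the block (P) (helper2), taken as a hypothesis `AtPStmt` here.
-/
import Mathlib
import Fermat.Agent.S12lib.Core
import Fermat.Agent.S12lib.Line
import Fermat.Agent.S12lib.Count
import Fermat.Agent.S12lib.Cofixed
import Fermat.Agent.S12lib.FreyModel
import Fermat.Agent.S15lib.Final
import Fermat.Agent.S15lib.Dict.EA.Main

set_option autoImplicit false
set_option linter.style.haveILetI false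

noncomputable section

namespace Fermat.Agent.S12lib

open AlgebraicCurve ModularCurve WeierstrassCurve WeierstrassCurve.Affine
open Fermat.Agent.S15lib Fermat.Agent.S15lib.Dict Fermat.Agent.S15lib.Dict.EL2
open Fermat.Agent.S05lib

local notation "Qb" => AlgebraicClosure ℚ
local notation "GQ" => (AlgebraicClosure ℚ ≃ₐ[ℚ] AlgebraicClosure ℚ)

/-- (EA) Vélu over `ℚ̄`, closed (same three lines as the unlanded `S15lib/Dict/Main.lean`) -/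
theorem veluQbStmt_closed : EL2.VeluQbStmt :=
  Dict.veluQb_of_veluC (veluCStmt_of_lat Dict.EA.veluLatStmt)

/-- **(P)**, the block at `p`: if `p ∣ Δ` (i.e. `p ∣ abc`) the cofixed line is canonical at every
place over `p`. -/
def AtPStmt : Prop :=
  ∀ (P : FreyPackage) (_hp17 : 17 ≤ P.p)
    (Q : ((P.freyCurveInt.map (Int.castRingHom ℚ) : WeierstrassCurve ℚ)⁄Qb).Point)
    (_hQord : addOrderOf Q = P.p)
    (_hst : ∀ σ : GQ, ∃ a : ℕ, σ • Q = a • Q)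
    (_hcof : ∀ (σ : GQ)
      (x : ((P.freyCurveInt.map (Int.castRingHom ℚ) : WeierstrassCurve ℚ)⁄Qb).Point),
      P.p • x = 0 → σ • x - x ∈ AddSubgroup.zmultiples Q)
    (_hne : ∃ x : ((P.freyCurveInt.map (Int.castRingHom ℚ) : WeierstrassCurve ℚ)⁄Qb).Point,
      P.p • x = 0 ∧ x ∉ AddSubgroup.zmultiples Q)
    (_hpΔ : ((P.p : ℕ) : ℤ) ∣ P.freyCurveInt.Δ)
    (A : ValuationSubring Qb) (_hA : A.LiesOverPrime P.p),
    A.valuation (veluJ _ Q P.p *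
      (((P.freyCurveInt.c₄ : Qb) ^ 3 / (P.freyCurveInt.Δ : Qb))⁻¹) ^ P.p) = 1

/-- `j = c₄³/Δ` is integral at the primes not dividing `Δ` -/
theorem j_mem_of_not_dvd (W : WeierstrassCurve ℤ) {ℓ : ℕ} (hℓ : ℓ.Prime)
    (A : ValuationSubring Qb) (hA : A.LiesOverPrime ℓ) (h : ¬ (ℓ : ℤ) ∣ W.Δ) :
    ((W.c₄ : Qb) ^ 3 / (W.Δ : Qb)) ∈ A := by
  rw [← A.valuation_le_one_iff, map_div₀, map_pow, (val_intCast_eq_one_iff hℓ hA _).mpr h, div_one]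
  exact pow_le_one₀ zero_le ((A.valuation_le_one_iff _).2 (intCast_mem A _))

/-- **the cofixed line of the Frey curve is canonical at every pole of `j`** (given (P)). -/
theorem frey_canonical (hAtP : AtPStmt) (P : FreyPackage) (hp17 : 17 ≤ P.p)
    (Q : ((P.freyCurveInt.map (Int.castRingHom ℚ) : WeierstrassCurve ℚ)⁄Qb).Point)
    (hQord : addOrderOf Q = P.p)
    (hst : ∀ σ : GQ, ∃ a : ℕ, σ • Q = a • Q)
    (hcof : ∀ (σ : GQ)
      (x : ((P.freyCurveInt.map (Int.castRingHom ℚ) : WeierstrassCurve ℚ)⁄Qb).Point),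
      P.p • x = 0 → σ • x - x ∈ AddSubgroup.zmultiples Q)
    (hne : ∃ x : ((P.freyCurveInt.map (Int.castRingHom ℚ) : WeierstrassCurve ℚ)⁄Qb).Point,
      P.p • x = 0 ∧ x ∉ AddSubgroup.zmultiples Q) :
    ∀ ℓ : ℕ, ℓ.Prime → ∀ A : ValuationSubring Qb, A.LiesOverPrime ℓ →
      ((P.freyCurveInt.c₄ : Qb) ^ 3 / (P.freyCurveInt.Δ : Qb)) ∉ A →
      A.valuation (veluJ _ Q P.p *
        (((P.freyCurveInt.c₄ : Qb) ^ 3 / (P.freyCurveInt.Δ : Qb))⁻¹) ^ P.p) = 1 := by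
  classical
  obtain ⟨-, hΔ, hc₄⟩ := freyModelStmt P
  have hp : P.p.Prime := P.pp
  have hp' : P.p ∉ ({2, 3, 5, 7, 13} : Finset ℕ) := by
    simp only [Finset.mem_insert, Finset.mem_singleton]
    omega
  have hp2 : P.p ≠ 2 := by omega
  have hp5 : 5 ≤ P.p := by omega
  haveI : NeZero P.p := ⟨hp.ne_zero⟩
  haveI : Fact P.p.Prime := ⟨hp⟩
  -- the line
  have hcard : Nat.card (AddSubgroup.zmultiples Q) = P.p := by
    rw [Nat.card_zmultiples, hQord]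
  have hpQ : P.p • Q = 0 := by
    rw [← hQord]
    exact addOrderOf_nsmul_eq_zero Q
  have hN : ∀ x ∈ AddSubgroup.zmultiples Q, P.p • x = 0 := by
    intro x hx
    obtain ⟨k, rfl⟩ := AddSubgroup.mem_zmultiples_iff.1 hx
    rw [smul_comm, hpQ, zsmul_zero]
  -- the small primes are multiplicative and the line lies in the zero component there
  have hsmall : ∀ ℓ : ℕ, ℓ.Prime → 2 * ℓ + 1 < P.p → ((ℓ : ℕ) : ℤ) ∣ P.freyCurveInt.Δ := by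
    intro ℓ hℓ hlt
    by_contra hgood
    have := le_of_good_of_cofixed P.freyCurveInt hΔ hℓ hp (by omega) hgood
      (AddSubgroup.zmultiples Q) hcard hcof
    omega
  have hsmallZ : ∀ ℓ : ℕ, ℓ.Prime → 2 * ℓ + 1 < P.p → ∀ A : ValuationSubring Qb,
      A.LiesOverPrime ℓ → P.freyCurveInt.InZeroComponentAt A Q := by
    intro ℓ hℓ hlt A hA
    exact inZero_of_cofixed P.freyCurveInt hΔ hℓ hp hp2 (by omega) (hsmall ℓ hℓ hlt)
      (hc₄ ℓ hℓ (hsmall ℓ hℓ hlt)) hlt (AddSubgroup.zmultiples Q) hN hcard hcof A hA Q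
      (AddSubgroup.mem_zmultiples Q)
  -- Vélu's discriminant identity
  have hEΔ0 : ((P.freyCurveInt.map (Int.castRingHom ℚ) : WeierstrassCurve ℚ)⁄Qb).Δ ≠ 0 := by
    rw [bc_Δ]
    exact_mod_cast hΔ
  obtain ⟨hdisc, -⟩ := veluQbStmt_closed hp2 _ hEΔ0 Q hQord
  -- the place
  have h5 : (5 : ℕ).Prime := by norm_num
  obtain ⟨x, hxfix, hx⟩ := exists_place_pair veluQbStmt_closed Dict.modStmt hp hp5 P.freyCurveInt hΔ
    Q hQord hst ⟨5, h5, by omega, hsmall 5 h5 (by omega), hc₄ 5 h5 (hsmall 5 h5 (by omega))⟩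
  -- the cusps
  obtain ⟨cInf, cZero, hInf, hZero, -⟩ := Cusp.cuspStmt hp hp'
  -- the prime `r` and the test prime `ℓ₀`
  obtain ⟨r, hr, hrc⟩ := Nat.exists_prime_and_dvd (cuspOrder_ne_one hp hp')
  obtain ⟨ℓ₀, hℓ₀, hℓ₀r, hℓ₀lt⟩ : ∃ ℓ₀ : ℕ, ℓ₀.Prime ∧ ℓ₀ ≠ r ∧ 2 * ℓ₀ + 1 < P.p := by
    by_cases h : r = 5
    · exact ⟨7, by norm_num, by omega, by omega⟩
    · exact ⟨5, by norm_num, fun h' => h h'.symm, by omega⟩
  have hℓ₀p : ℓ₀ ≠ P.p := by omega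
  have hℓ₀p' : ¬ ℓ₀ ∣ P.p := fun h => hℓ₀p ((Nat.prime_dvd_prime_iff_eq hℓ₀ hp).mp h)
  haveI : Fact ℓ₀.Prime := ⟨hℓ₀⟩
  have hA₀ : (padicPlace ℓ₀).LiesOverPrime ℓ₀ := Fermat.Agent.S55lib.padicPlace_liesOverPrime ℓ₀
  have hin₀ : ReductionInputsModL (padicPlace ℓ₀) P.p :=
    Fermat.Agent.S37lib.B3.reductionInputsModL P.p (padicPlace ℓ₀) hℓ₀p' hA₀
  have hℓ₀Δ := hsmall ℓ₀ hℓ₀ hℓ₀lt
  have hℓ₀c₄ := hc₄ ℓ₀ hℓ₀ hℓ₀Δ
  have hxInf₀ : placeReductionModL hin₀ x = placeReductionModL hin₀ cInf :=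
    (hx hℓ₀ hℓ₀p (padicPlace ℓ₀) hA₀ (j_not_mem P.freyCurveInt hℓ₀ _ hA₀ hℓ₀Δ hℓ₀c₄ hΔ) hin₀ cInf).1
      (val_pair_eq_one hp hp2 P.freyCurveInt hΔ hℓ₀ hℓ₀p hℓ₀Δ hℓ₀c₄ (padicPlace ℓ₀) hA₀ Q hQord
        hdisc (hsmallZ ℓ₀ hℓ₀ hℓ₀lt _ hA₀)) hInf
  -- the main loop
  intro ℓ hℓ A hA haA
  haveI : Fact ℓ.Prime := ⟨hℓ⟩
  have hℓΔ : ((ℓ : ℕ) : ℤ) ∣ P.freyCurveInt.Δ := by
    by_contra h
    exact haA (j_mem_of_not_dvd P.freyCurveInt hℓ A hA h)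
  have hℓc₄ := hc₄ ℓ hℓ hℓΔ
  by_cases hℓp : ℓ = P.p
  · subst hℓp
    exact hAtP P hp17 Q hQord hst hcof hne hℓΔ A hA
  by_cases hlt : 2 * ℓ + 1 < P.p
  · exact val_pair_eq_one hp hp2 P.freyCurveInt hΔ hℓ hℓp hℓΔ hℓc₄ A hA Q hQord hdisc
      (hsmallZ ℓ hℓ hlt A hA)
  have hzero : P.freyCurveInt.InZeroComponentAt A Q := by
    by_contra hnz
    have hℓp' : ¬ ℓ ∣ P.p := fun h => hℓp ((Nat.prime_dvd_prime_iff_eq hℓ hp).mp h)
    have hin : ReductionInputsModL A P.p :=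
      Fermat.Agent.S37lib.B3.reductionInputsModL P.p A hℓp' hA
    have h0 : placeReductionModL hin x = placeReductionModL hin cZero :=
      (hx hℓ hℓp A hA haA hin cZero).2
        (val_pair_lt_one hp hp2 P.freyCurveInt hΔ hℓ hℓp hℓΔ hℓc₄ A hA Q hQord hdisc hnz) hZero
    have hℓ2 : ℓ = r → ℓ ≠ 2 := fun _ => by omega
    exact (core_cusps hp hp' x hxfix hr hrc hℓ₀ hℓ₀p hℓ₀r (padicPlace ℓ₀) hA₀ hin₀ hℓ hℓp hℓ2 A hA
      hin cZero cInf hZero hInf).2 ⟨hxInf₀, h0⟩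
  exact val_pair_eq_one hp hp2 P.freyCurveInt hΔ hℓ hℓp hℓΔ hℓc₄ A hA Q hQord hdisc hzero

end Fermat.Agent.S12lib
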