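/-
S12lib / FreyTors  (helper7) — S12 one-step route, block (F): the Frey arithmetic that (N)/(X) use.

* `frey_arith` : `X = a^p`, `Y = b^p`, `Z = c^p` satisfy `X + Y = Z`, `X`, `Z` odd, `32 ∣ Y`,
  `Y ≠ 0`, `IsCoprime X Y`;
* `frey_two_torsion` : the three rational points of order `2` of the integral Frey model
  `y² + xy = x³ + a₂x² + a₄x` (`(y + x/2)² = x (x - a^p/4) (x + b^p/4)`), with
  `x`-coordinates `0`, `a^p/4`, `-b^p/4`; they are Galois-fixed and pairwise distinct.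
-/
import Mathlib
import Fermat.Agent.S12lib.FreyModel
import Fermat.Agent.S41lib.NE.Reduction

set_option autoImplicit false

noncomputable section

namespace Fermat.Agent.S12lib

open WeierstrassCurve WeierstrassCurve.Affine WeierstrassCurve.Affine.Point
open Fermat.Agent.S15lib.Dict Fermat.Agent.S41lib.NE

local notation "Qb" => AlgebraicClosure ℚ
local notation "GQ" => (AlgebraicClosure ℚ ≃ₐ[ℚ] AlgebraicClosure ℚ)

/-- the integer facts on `X = a^p`, `Y = b^p`, `Z = c^p` -/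
theorem frey_arith (P : FreyPackage) :
    P.a ^ P.p + P.b ^ P.p = P.c ^ P.p ∧ Odd (P.a ^ P.p) ∧ Odd (P.c ^ P.p) ∧
      (32 : ℤ) ∣ P.b ^ P.p ∧ P.b ^ P.p ≠ 0 ∧ IsCoprime (P.a ^ P.p) (P.b ^ P.p) := by
  have h32 := FreyModel.dvd_b_pow P
  have hX : Odd (P.a ^ P.p) := by
    obtain ⟨w, hw⟩ := FreyModel.a_pow_mod_four P
    exact ⟨2 * w + 1, by linarith⟩
  have hYe : Even (P.b ^ P.p) := by
    obtain ⟨u, hu⟩ := h32
    exact ⟨16 * u, by rw [hu]; ring⟩
  refine ⟨P.hFLT, hX, ?_, h32, pow_ne_zero _ P.hb0, ?_⟩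
  · rw [← P.hFLT]
    exact hX.add_even hYe
  · have h : IsCoprime P.a P.b := by
      rw [Int.isCoprime_iff_gcd_eq_one]
      have := P.hgcdab
      simpa [gcd, Int.gcd_eq_natAbs] using this
    exact h.pow

section Tors

variable (P : FreyPackage)

/-- coefficients of the base change of the integral Frey model -/
theorem frey_coeffs :
    ((P.freyCurveInt.map (Int.castRingHom ℚ))⁄Qb).a₁ = 1 ∧
    4 * ((P.freyCurveInt.map (Int.castRingHom ℚ))⁄Qb).a₂ =
      ((P.b ^ P.p : ℤ) : Qb) - 1 - ((P.a ^ P.p : ℤ) : Qb) ∧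
    ((P.freyCurveInt.map (Int.castRingHom ℚ))⁄Qb).a₃ = 0 ∧
    16 * ((P.freyCurveInt.map (Int.castRingHom ℚ))⁄Qb).a₄ =
      -((P.a ^ P.p : ℤ) : Qb) * ((P.b ^ P.p : ℤ) : Qb) ∧
    ((P.freyCurveInt.map (Int.castRingHom ℚ))⁄Qb).a₆ = 0 := by
  obtain ⟨e1, e2, e3, e4, e6, -⟩ := baseChange_int_coeffs P.freyCurveInt (K := Qb)
  have h2 := FreyModel.four_mul_a₂ P
  have h4 := FreyModel.sixteen_mul_a₄ P
  refine ⟨?_, ?_, ?_, ?_, ?_⟩
  · rw [e1]; simp [FreyPackage.freyCurveInt]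
  · rw [e2]
    have : ((4 * P.freyCurveInt.a₂ : ℤ) : Qb) = ((P.b ^ P.p - 1 - P.a ^ P.p : ℤ) : Qb) := by
      rw [h2]
    push_cast at this ⊢
    linear_combination this
  · rw [e3]; simp [FreyPackage.freyCurveInt]
  · rw [e4]
    have : ((16 * P.freyCurveInt.a₄ : ℤ) : Qb) = ((-(P.a ^ P.p) * (P.b ^ P.p) : ℤ) : Qb) := by
      rw [h4]
    push_cast at this ⊢
    linear_combination this
  · rw [e6]; simp [FreyPackage.freyCurveInt]

/-- a point with `σ`-fixed coordinates is `σ`-fixed -/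
theorem smul_some_of_fixed (W' : WeierstrassCurve ℚ) (σ : GQ) {x y : Qb}
    (h : (W'⁄Qb).toAffine.Nonsingular x y) (hx : σ x = x) (hy : σ y = y) :
    σ • (Point.some x y h : (W'⁄Qb).Point) = Point.some x y h := by
  rw [algEquiv_smul_def, Point.map_some]
  simp only [Point.some.injEq]
  exact ⟨hx, hy⟩

/-- a point `(x₀, -x₀/2)` of order `2` on a curve `y² + xy = x³ + a₂x² + a₄x` -/
theorem exists_two_torsion_point (E : WeierstrassCurve Qb) (h1 : E.a₁ = 1) (h3 : E.a₃ = 0)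
    (h6 : E.a₆ = 0) {x₀ : Qb}
    (hx : x₀ ^ 3 + (E.a₂ + 1 / 4) * x₀ ^ 2 + E.a₄ * x₀ = 0)
    (hx' : 3 * x₀ ^ 2 + (2 * E.a₂ + 1 / 2) * x₀ + E.a₄ ≠ 0) :
    ∃ h : E.toAffine.Nonsingular x₀ (-x₀ / 2),
      2 • (Point.some x₀ (-x₀ / 2) h : E.toAffine.Point) = 0 := by
  have hns : E.toAffine.Nonsingular x₀ (-x₀ / 2) := by
    rw [Affine.nonsingular_iff', Affine.equation_iff]
    refine ⟨?_, Or.inl ?_⟩
    · rw [h1, h3, h6]
      linear_combination -hx
    · rw [h1]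
      intro h0
      apply hx'
      linear_combination -h0
  refine ⟨hns, ?_⟩
  rw [two_nsmul]
  apply Point.add_self_of_Y_eq
  rw [Affine.negY, h1, h3]
  ring

/-- **the three rational points of order `2` of the Frey curve** -/
theorem frey_two_torsion :
    ∃ T : Fin 3 → ((P.freyCurveInt.map (Int.castRingHom ℚ))⁄Qb).Point,
      (∀ i, T i ≠ 0 ∧ 2 • T i = 0) ∧ Function.Injective T ∧
      (∀ (σ : GQ) (i : Fin 3), σ • T i = T i) ∧
      ptX (T 0) = 0 ∧ ptX (T 1) = ((P.a ^ P.p : ℤ) : Qb) / 4 ∧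
      ptX (T 2) = -((P.b ^ P.p : ℤ) : Qb) / 4 := by
  classical
  obtain ⟨h1, h2, h3, h4, h6⟩ := frey_coeffs P
  set E := ((P.freyCurveInt.map (Int.castRingHom ℚ))⁄Qb) with hE
  set α : Qb := ((P.a ^ P.p : ℤ) : Qb) with hα
  set β : Qb := ((P.b ^ P.p : ℤ) : Qb) with hβ
  have hα0 : α ≠ 0 := Int.cast_ne_zero.mpr (pow_ne_zero _ P.ha0)
  have hβ0 : β ≠ 0 := Int.cast_ne_zero.mpr (pow_ne_zero _ P.hb0)
  have hγ0 : α + β ≠ 0 := by
    rw [hα, hβ, ← Int.cast_add, P.hFLT]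
    exact Int.cast_ne_zero.mpr (pow_ne_zero _ P.hc0)
  have h4' : (4 : Qb) ≠ 0 := by norm_num
  -- the three points
  obtain ⟨n0, t0⟩ := exists_two_torsion_point E h1 h3 h6 (x₀ := 0) (by ring) (by
    intro h0
    have : E.a₄ = 0 := by linear_combination h0
    rw [this, mul_zero] at h4
    exact mul_ne_zero (neg_ne_zero.mpr hα0) hβ0 h4.symm)
  obtain ⟨n1, t1⟩ := exists_two_torsion_point E h1 h3 h6 (x₀ := α / 4)
    (by linear_combination (α ^ 2 / 64) * h2 + (α / 64) * h4) (by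
    intro h0
    have : α * (α + β) = 0 := by
      linear_combination 16 * h0 - 2 * α * h2 - h4
    exact mul_ne_zero hα0 hγ0 this)
  obtain ⟨n2, t2⟩ := exists_two_torsion_point E h1 h3 h6 (x₀ := -β / 4)
    (by linear_combination (β ^ 2 / 64) * h2 - (β / 64) * h4) (by
    intro h0
    have : β * (α + β) = 0 := by
      linear_combination 16 * h0 + 2 * β * h2 - h4
    exact mul_ne_zero hβ0 hγ0 this)
  refine ⟨![Point.some _ _ n0, Point.some _ _ n1, Point.some _ _ n2], ?_, ?_, ?_, rfl, rfl, rfl⟩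
  · intro i
    fin_cases i
    · exact ⟨Point.some_ne_zero _, t0⟩
    · exact ⟨Point.some_ne_zero _, t1⟩
    · exact ⟨Point.some_ne_zero _, t2⟩
  · intro i j hij
    have hx := congrArg ptX hij
    fin_cases i <;> fin_cases j
    · rfl
    · exact absurd (show (0 : Qb) = α / 4 from hx) (fun h => hα0 (by linear_combination (-4) * h))
    · exact absurd (show (0 : Qb) = -β / 4 from hx) (fun h => hβ0 (by linear_combination 4 * h))
    · exact absurd (show α / 4 = (0 : Qb) from hx) (fun h => hα0 (by linear_combination 4 * h))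
    · rfl
    · exact absurd (show α / 4 = -β / 4 from hx) (fun h => hγ0 (by linear_combination 4 * h))
    · exact absurd (show -β / 4 = (0 : Qb) from hx) (fun h => hβ0 (by linear_combination (-4) * h))
    · exact absurd (show -β / 4 = α / 4 from hx) (fun h => hγ0 (by linear_combination (-4) * h))
    · rfl
  · have hfixα : ∀ σ : GQ, σ α = α := fun σ => by rw [hα]; exact map_intCast σ _
    have hfixβ : ∀ σ : GQ, σ β = β := fun σ => by rw [hβ]; exact map_intCast σ _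
    intro σ i
    fin_cases i
    · exact smul_some_of_fixed _ σ n0 (by simp) (by simp)
    · exact smul_some_of_fixed _ σ n1 (by rw [map_div₀, hfixα σ, map_ofNat])
        (by rw [map_div₀, map_neg, map_div₀, hfixα σ, map_ofNat, map_ofNat])
    · exact smul_some_of_fixed _ σ n2 (by rw [map_div₀, map_neg, hfixβ σ, map_ofNat])
        (by rw [map_div₀, map_neg, map_div₀, map_neg, hfixβ σ, map_ofNat, map_ofNat])

/-- the same with the differences `d 1 0 = (1/4) X`, `d 0 2 = (1/4) Y` (the shape used by (N)) -/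
theorem frey_two_torsion_diff :
    ∃ T : Fin 3 → ((P.freyCurveInt.map (Int.castRingHom ℚ))⁄Qb).Point,
      (∀ i, T i ≠ 0 ∧ 2 • T i = 0) ∧ Function.Injective T ∧
      (∀ (σ : GQ) (i : Fin 3), σ • T i = T i) ∧
      ptX (T 1) - ptX (T 0) = (1 / 4 : Qb) * ((P.a ^ P.p : ℤ) : Qb) ∧
      ptX (T 0) - ptX (T 2) = (1 / 4 : Qb) * ((P.b ^ P.p : ℤ) : Qb) ∧
      ptX (T 1) - ptX (T 2) = (1 / 4 : Qb) * ((P.c ^ P.p : ℤ) : Qb) := by
  obtain ⟨T, hT, hinj, hfix, e0, e1, e2⟩ := frey_two_torsion P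
  refine ⟨T, hT, hinj, hfix, ?_, ?_, ?_⟩
  · rw [e0, e1]; ring
  · rw [e0, e2]; ring
  · rw [e1, e2, ← P.hFLT]; push_cast; ring

end Tors

end Fermat.Agent.S12lib
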