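/-
S12lib / Endgame  (helper1)  — the arithmetic ENDGAME of S12.

`X + Y = Z` (`X = a^p`, `Y = b^p`, `Z = c^p` for a Frey package; only `X, Z` odd is used) is
incompatible with a second relation `ε₁ 2^(4p-4) X^p + ε₂ Y^p = ε₃ 2^(4p-4) Z^p` (`p ≥ 5` odd),
which is what the `2`-torsion differences of the `p`-isogenous curve `E / N` (`N` canonical at every
prime) would satisfy: `A' : B' : C' = ± a^(p²) : ± 2^(4-4p) b^(p²) : ± c^(p²)`, `A' + B' = C'`.

Proof: sizes (`(x + y)^p ≥ x^p + y^p`, power mean) and one `2`-adic count.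
-/
import Mathlib

set_option autoImplicit false

namespace Fermat.Agent.S12lib

/-- for nonzero integers with `U + V = W`, one absolute value is the sum of the other two -/
theorem abs_sum_cases {U V W : ℤ} (h : U + V = W) :
    |W| = |U| + |V| ∨ |U| = |V| + |W| ∨ |V| = |U| + |W| := by
  rcases abs_cases U with ⟨h1, h1'⟩ | ⟨h1, h1'⟩ <;> rcases abs_cases V with ⟨h2, h2'⟩ | ⟨h2, h2'⟩ <;>
    rcases abs_cases W with ⟨h3, h3'⟩ | ⟨h3, h3'⟩ <;> omega

section Nat

variable {p : ℕ}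

/-- `z = x + y` is the largest: no second relation -/
theorem no_rel_of_top {x y z : ℕ} (hy : 0 < y) (hp : p ≠ 0) {m : ℕ} (hm : 0 < m)
    (h : x + y = z) : 2 ^ m * x ^ p + y ^ p < 2 ^ m * z ^ p := by
  have h1 : x ^ p + y ^ p ≤ z ^ p := by
    rw [← h]
    exact pow_add_pow_le (Nat.zero_le x) (Nat.zero_le y) hp
  have h2 : 2 ≤ 2 ^ m := by
    calc 2 = 2 ^ 1 := (pow_one 2).symm
      _ ≤ 2 ^ m := Nat.pow_le_pow_right (by norm_num) hm
  have h3 : 0 < y ^ p := pow_pos hy p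
  calc 2 ^ m * x ^ p + y ^ p < 2 ^ m * x ^ p + 2 ^ m * y ^ p := by nlinarith
    _ = 2 ^ m * (x ^ p + y ^ p) := by ring
    _ ≤ 2 ^ m * z ^ p := Nat.mul_le_mul_left _ h1

/-- the `2`-adic valuation of `2^i * o`, `o` odd -/
theorem padicValNat_two_pow_mul_odd (i : ℕ) {o : ℕ} (ho : Odd o) :
    padicValNat 2 (2 ^ i * o) = i := by
  have ho0 : o ≠ 0 := by
    rintro rfl
    simp at ho
  rw [padicValNat.mul (pow_ne_zero i (by norm_num)) ho0, padicValNat.prime_pow,
    padicValNat.eq_zero_of_not_dvd (fun hd => by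
      rcases ho with ⟨k, rfl⟩
      omega), add_zero]

/-- the geometric sum `Σ x^i z^(p-1-i)` is odd for `x, z, p` odd -/
theorem odd_geom_sum₂ {x z : ℕ} (hx : Odd x) (hz : Odd z) (hp : Odd p) :
    Odd (∑ i ∈ Finset.range p, x ^ i * z ^ (p - 1 - i)) := by
  rw [Finset.odd_sum_iff_odd_card_odd]
  have : (Finset.range p).filter (fun i => Odd (x ^ i * z ^ (p - 1 - i))) = Finset.range p := by
    apply Finset.filter_true_of_mem
    intro i _
    exact (hx.pow).mul (hz.pow)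
  rw [this, Finset.card_range]
  exact hp

/-- the middle case: `y = x + z`, `2^m (x^p - z^p) = y^p` with `m = 4p - 4` is impossible -/
theorem no_rel_of_mid {x z : ℕ} (hx : Odd x) (hz : Odd z) (hp : Odd p) (hp5 : 5 ≤ p)
    (h : (x + z) ^ p + 2 ^ (4 * p - 4) * z ^ p = 2 ^ (4 * p - 4) * x ^ p) : False := by
  have hzpos : 0 < z := hz.pos
  have hxpos : 0 < x := hx.pos
  have hlt : z < x := by
    by_contra hle
    push Not at hle
    have h1 : x ^ p ≤ z ^ p := Nat.pow_le_pow_left hle p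
    have h2 : 0 < (x + z) ^ p := pow_pos (by omega) p
    have h3 : 2 ^ (4 * p - 4) * x ^ p ≤ 2 ^ (4 * p - 4) * z ^ p := Nat.mul_le_mul_left _ h1
    omega
  -- `x^p - z^p = (x - z) * S`, `S` odd
  set S : ℕ := ∑ i ∈ Finset.range p, x ^ i * z ^ (p - 1 - i) with hS
  have hSodd : Odd S := odd_geom_sum₂ hx hz hp
  have hgeom : x ^ p = z ^ p + (x - z) * S := by
    have hZ : ((x : ℤ) - z) * (∑ i ∈ Finset.range p, (x : ℤ) ^ i * (z : ℤ) ^ (p - 1 - i)) =
        (x : ℤ) ^ p - (z : ℤ) ^ p := by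
      rw [mul_comm]
      exact (Commute.all (x : ℤ) (z : ℤ)).geom_sum₂_mul p
    have hScast : (S : ℤ) = ∑ i ∈ Finset.range p, (x : ℤ) ^ i * (z : ℤ) ^ (p - 1 - i) := by
      rw [hS]
      push_cast
      rfl
    have hcast : ((x - z : ℕ) : ℤ) = (x : ℤ) - z := by
      rw [Nat.cast_sub hlt.le]
    have : ((x ^ p : ℕ) : ℤ) = ((z ^ p + (x - z) * S : ℕ) : ℤ) := by
      rw [Nat.cast_add, Nat.cast_mul, hcast, hScast, hZ]
      push_cast
      ring
    exact_mod_cast this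
  -- the relation becomes `(x + z)^p = 2^m (x - z) S`
  have hrel : (x + z) ^ p = 2 ^ (4 * p - 4) * ((x - z) * S) := by
    rw [hgeom, mul_add] at h
    omega
  -- `x - z = g`, `x + z = hh`, both even, `g + hh = 2 x`
  obtain ⟨kx, rfl⟩ := hx
  obtain ⟨kz, rfl⟩ := hz
  have hg : 2 * kx + 1 - (2 * kz + 1) = 2 * (kx - kz) := by omega
  have hh : 2 * kx + 1 + (2 * kz + 1) = 2 * (kx + kz + 1) := by omega
  rw [hg, hh] at hrel
  have hkk : kz < kx := by omega
  -- parity of `kx - kz` and `kx + kz + 1` differ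
  rcases Nat.even_or_odd (kx - kz) with he | ho
  · -- then `kx + kz + 1` is odd: `x + z = 2 u`, `u` odd
    have hu : Odd (kx + kz + 1) := by
      rcases he with ⟨t, ht⟩
      exact ⟨kz + t, by omega⟩
    have h1 : padicValNat 2 ((2 * (kx + kz + 1)) ^ p) = p := by
      rw [mul_pow]
      exact padicValNat_two_pow_mul_odd p hu.pow
    have hne : kx - kz ≠ 0 := by omega
    have hSne : S ≠ 0 := by
      rintro h0
      rw [h0] at hSodd
      simp at hSodd
    have h2 : 4 * p - 4 + 1 ≤ padicValNat 2 (2 ^ (4 * p - 4) * (2 * (kx - kz) * S)) := by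
      have h22 : padicValNat 2 2 = 1 := padicValNat.self (by norm_num)
      rw [padicValNat.mul (pow_ne_zero _ (by norm_num))
          (mul_ne_zero (mul_ne_zero two_ne_zero hne) hSne), padicValNat.prime_pow,
        padicValNat.mul (mul_ne_zero two_ne_zero hne) hSne, padicValNat.mul two_ne_zero hne, h22]
      omega
    rw [← hrel, h1] at h2
    omega
  · -- `x - z = 2 w`, `w` odd
    have hw : Odd ((kx - kz) * S) := ho.mul hSodd
    have h1 : padicValNat 2 (2 ^ (4 * p - 4) * (2 * (kx - kz) * S)) = 4 * p - 4 + 1 := by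
      have : 2 ^ (4 * p - 4) * (2 * (kx - kz) * S) = 2 ^ (4 * p - 4 + 1) * ((kx - kz) * S) := by
        rw [pow_succ]; ring
      rw [this]
      exact padicValNat_two_pow_mul_odd _ hw
    have hpos : kx + kz + 1 ≠ 0 := by omega
    have h2 : padicValNat 2 ((2 * (kx + kz + 1)) ^ p) = p * padicValNat 2 (2 * (kx + kz + 1)) := by
      exact padicValNat.pow _ p
    rw [← hrel, h2] at h1
    -- `p ∣ 4 p - 3`
    have hdvd : p ∣ 4 * p - 4 + 1 := ⟨_, h1.symm⟩
    have h3 : p ∣ 3 := by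
      have h4 : p ∣ 4 * p := Dvd.intro_left 4 rfl
      have : 4 * p - (4 * p - 4 + 1) = 3 := by omega
      rw [← this]
      exact Nat.dvd_sub h4 hdvd
    have := Nat.le_of_dvd (by norm_num) h3
    omega

/-- the middle case with the sum on the even side: `y^p = 2^m (x^p + z^p)`, `y = x + z` -/
theorem no_rel_of_mid_sum {x z : ℕ} (hx : 0 < x) (hp5 : 5 ≤ p)
    (h : (x + z) ^ p = 2 ^ (4 * p - 4) * x ^ p + 2 ^ (4 * p - 4) * z ^ p) : False := by
  have h1 : (x + z) ^ p ≤ 2 ^ (p - 1) * (x ^ p + z ^ p) :=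
    add_pow_le (Nat.zero_le x) (Nat.zero_le z) p
  have h2 : 0 < x ^ p + z ^ p := by
    have := pow_pos hx p
    omega
  have h3 : 2 ^ (p - 1) < 2 ^ (4 * p - 4) := Nat.pow_lt_pow_right (by norm_num) (by omega)
  have h4 : 2 ^ (p - 1) * (x ^ p + z ^ p) < 2 ^ (4 * p - 4) * (x ^ p + z ^ p) :=
    Nat.mul_lt_mul_of_pos_right h3 h2
  have h5 : 2 ^ (4 * p - 4) * (x ^ p + z ^ p) =
      2 ^ (4 * p - 4) * x ^ p + 2 ^ (4 * p - 4) * z ^ p := mul_add _ _ _
  omega

end Nat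

/-- **the endgame over `ℕ`**: `x, z` odd, one of `x, y, z` the sum of the other two, and one of
`2^m x^p, y^p, 2^m z^p` (`m = 4p - 4`) the sum of the other two: impossible. -/
theorem endgame_nat {p : ℕ} (hp : Odd p) (hp5 : 5 ≤ p) {x y z : ℕ} (hx : Odd x) (hy : 0 < y)
    (hz : Odd z)
    (h1 : x + y = z ∨ y + z = x ∨ x + z = y)
    (h2 : 2 ^ (4 * p - 4) * x ^ p + y ^ p = 2 ^ (4 * p - 4) * z ^ p ∨
      y ^ p + 2 ^ (4 * p - 4) * z ^ p = 2 ^ (4 * p - 4) * x ^ p ∨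
      2 ^ (4 * p - 4) * x ^ p + 2 ^ (4 * p - 4) * z ^ p = y ^ p) : False := by
  have hp0 : p ≠ 0 := by omega
  have hm : 0 < 4 * p - 4 := by omega
  have hxpos : 0 < x := hx.pos
  have hzpos : 0 < z := hz.pos
  have hUpos : 0 < 2 ^ (4 * p - 4) * x ^ p := by positivity
  have hVpos : 0 < y ^ p := by positivity
  have hWpos : 0 < 2 ^ (4 * p - 4) * z ^ p := by positivity
  rcases h1 with h1 | h1 | h1
  · have := no_rel_of_top (p := p) hy hp0 hm h1
    rcases h2 with h2 | h2 | h2 <;> omega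
  · have := no_rel_of_top (p := p) (x := z) (y := y) (z := x) hy hp0 hm (by omega)
    rcases h2 with h2 | h2 | h2 <;> omega
  · rcases h2 with h2 | h2 | h2
    · -- `2^m z^p = 2^m x^p + y^p`: the mirror of the middle case
      refine no_rel_of_mid (p := p) (x := z) (z := x) hz hx hp hp5 ?_
      rw [add_comm z x, h1]
      omega
    · refine no_rel_of_mid (p := p) hx hz hp hp5 ?_
      rw [h1]
      omega
    · refine no_rel_of_mid_sum (p := p) (x := x) (z := z) hxpos hp5 ?_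
      rw [h1]
      omega

/-- **the endgame over `ℤ`** (signs `ε = ± 1`). -/
theorem endgame {p : ℕ} (hp : Odd p) (hp5 : 5 ≤ p) {X Y Z : ℤ} (hsum : X + Y = Z)
    (hX : Odd X) (hY : Y ≠ 0) (hZ : Odd Z) {ε₁ ε₂ ε₃ : ℤ}
    (h₁ : ε₁ = 1 ∨ ε₁ = -1) (h₂ : ε₂ = 1 ∨ ε₂ = -1) (h₃ : ε₃ = 1 ∨ ε₃ = -1)
    (hrel : ε₁ * 2 ^ (4 * p - 4) * X ^ p + ε₂ * Y ^ p = ε₃ * 2 ^ (4 * p - 4) * Z ^ p) : False := by
  have hX0 : X ≠ 0 := by
    rintro rfl
    simp at hX
  have hZ0 : Z ≠ 0 := by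
    rintro rfl
    simp at hZ
  have habs : ∀ ε : ℤ, ε = 1 ∨ ε = -1 → |ε| = 1 := by
    rintro ε (rfl | rfl) <;> simp
  have hε0 : ∀ ε : ℤ, ε = 1 ∨ ε = -1 → ε ≠ 0 := by
    rintro ε (rfl | rfl) <;> norm_num
  have c1 := abs_sum_cases hsum
  have hU0 : ε₁ * 2 ^ (4 * p - 4) * X ^ p ≠ 0 :=
    mul_ne_zero (mul_ne_zero (hε0 _ h₁) (pow_ne_zero _ (by norm_num))) (pow_ne_zero _ hX0)
  have hV0 : ε₂ * Y ^ p ≠ 0 := mul_ne_zero (hε0 _ h₂) (pow_ne_zero _ hY)
  have hW0 : ε₃ * 2 ^ (4 * p - 4) * Z ^ p ≠ 0 :=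
    mul_ne_zero (mul_ne_zero (hε0 _ h₃) (pow_ne_zero _ (by norm_num))) (pow_ne_zero _ hZ0)
  have c2 := abs_sum_cases hrel
  have e2 : |(2 : ℤ)| = 2 := abs_two
  simp only [abs_mul, abs_pow, habs _ h₁, habs _ h₂, habs _ h₃, one_mul, e2] at c2
  -- pass to `ℕ`
  have hx : Odd X.natAbs := Int.natAbs_odd.mpr hX
  have hz : Odd Z.natAbs := Int.natAbs_odd.mpr hZ
  have hy : 0 < Y.natAbs := Int.natAbs_pos.mpr hY
  refine endgame_nat hp hp5 hx hy hz ?_ ?_
  · rcases c1 with c | c | c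
    · left
      have : ((X.natAbs + Y.natAbs : ℕ) : ℤ) = (Z.natAbs : ℤ) := by
        push_cast; exact c.symm
      exact_mod_cast this
    · right; left
      have : ((Y.natAbs + Z.natAbs : ℕ) : ℤ) = (X.natAbs : ℤ) := by
        push_cast; exact c.symm
      exact_mod_cast this
    · right; right
      have : ((X.natAbs + Z.natAbs : ℕ) : ℤ) = (Y.natAbs : ℤ) := by
        push_cast; exact c.symm
      exact_mod_cast this
  · rcases c2 with c | c | c
    · left
      have : ((2 ^ (4 * p - 4) * X.natAbs ^ p + Y.natAbs ^ p : ℕ) : ℤ) =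
          ((2 ^ (4 * p - 4) * Z.natAbs ^ p : ℕ) : ℤ) := by
        push_cast; exact c.symm
      exact_mod_cast this
    · right; left
      have : ((Y.natAbs ^ p + 2 ^ (4 * p - 4) * Z.natAbs ^ p : ℕ) : ℤ) =
          ((2 ^ (4 * p - 4) * X.natAbs ^ p : ℕ) : ℤ) := by
        push_cast; exact c.symm
      exact_mod_cast this
    · right; right
      have : ((2 ^ (4 * p - 4) * X.natAbs ^ p + 2 ^ (4 * p - 4) * Z.natAbs ^ p : ℕ) : ℤ) =
          ((Y.natAbs ^ p : ℕ) : ℤ) := by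
        push_cast; exact c.symm
      exact_mod_cast this

end Fermat.Agent.S12lib
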