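/-
S12lib / PartLambda  (helper1)  — the `λ`-forms of helper3's `Part.Jfun`, `Part.Ffun`
(`S12lib/Part/Defs.lean`): with `r = (u - w)/u`,
`jl r = Jfun (1 - r) r = Jfun w (u - w)` and `fs r = Ffun 1 (1 - r) = Ffun u w`.
-/
import Mathlib
import Fermat.Agent.S12lib.Part.Defs

set_option autoImplicit false

namespace Fermat.Agent.S12lib.Part

variable {K : Type*} [Field K]

/-- the `λ`-form of `j` -/
def jl (r : K) : K := 256 * (1 - r + r ^ 2) ^ 3 / (r ^ 2 * (1 - r) ^ 2)

/-- the `λ`-form of the special partner -/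
def fs (r : K) : K := 16 * (16 - 16 * r + r ^ 2) ^ 3 / ((1 - r) * r ^ 4)

/-- `Ffun u w = fs r` with `r = (u - w)/u` -/
theorem Ffun_eq_fs {u w : K} (hu : u ≠ 0) : Ffun u w = fs ((u - w) / u) := by
  have h1 : Ffun u w = Ffun (u * 1) (u * (w / u)) := by
    rw [mul_one, mul_div_cancel₀ _ hu]
  rw [h1, Ffun_smul hu]
  have h2 : w / u = 1 - (u - w) / u := by
    field_simp
    ring
  rw [h2]
  unfold Ffun fs
  ring

/-- `Jfun w (u - w) = jl r` with `r = (u - w)/u` -/
theorem Jfun_eq_jl {u w : K} (hu : u ≠ 0) : Jfun w (u - w) = jl ((u - w) / u) := by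
  have h1 : Jfun w (u - w) = Jfun (u * (w / u)) (u * ((u - w) / u)) := by
    rw [mul_div_cancel₀ _ hu, mul_div_cancel₀ _ hu]
  rw [h1, Jfun_smul hu]
  have h2 : w / u = 1 - (u - w) / u := by
    field_simp
    ring
  rw [h2]
  unfold Jfun jl
  ring

end Fermat.Agent.S12lib.Part
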