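/-
S12lib / LocalVal  (helper1)  — valuations of `jl r` and `fs r` in the four regimes of `r`, and the
local comparison lemma of the partition step of S12.

`v` any valuation on a field `K` with `v n ≤ 1` for `n : ℕ`; `c = v 16`.
* (R1) `v r < 1`      : `v (jl r) * v r ^ 2 = c ^ 2`; if `v r < c` also `v (fs r) * v r ^ 4 = c ^ 4`;
* (R2) `1 < v r`      : `v (jl r) = v (fs r) ^ 2`;
* (R3) `v r = 1`, `v (1 - r) < 1` : `v (jl r) = v (fs r) ^ 2`;
* (R4) `v r = 1 = v (1 - r)` : `v (jl r) ≤ c ^ 2`.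
`local_main`: if `v r < c`, `v (jl r') = v (jl r) ^ p` and `v (fs r')` is `v (fs r) ^ p` or its
`p`-th root (`p ≥ 3`), then `r'` is in regime (R1) and `v r' * c ^ p = v r ^ p * c`.
-/
import Mathlib
import Fermat.Agent.S12lib.PartLambda

set_option autoImplicit false

namespace Fermat.Agent.S12lib.Part

section Gamma

variable {Γ₀' : Type*} [LinearOrderedCommGroupWithZero Γ₀']

theorem pow_lt_pow_left_g {x y : Γ₀'} (h : x < y) {n : ℕ} (hn : n ≠ 0) : x ^ n < y ^ n :=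
  pow_lt_pow_left₀ h zero_le hn

theorem pow_left_inj_g {x y : Γ₀'} {n : ℕ} (hn : n ≠ 0) (h : x ^ n = y ^ n) : x = y := by
  rcases lt_trichotomy x y with hlt | heq | hgt
  · exact absurd h (pow_lt_pow_left_g hlt hn).ne
  · exact heq
  · exact absurd h (pow_lt_pow_left_g hgt hn).ne'

theorem pow_right_inj_g {x : Γ₀'} (hx : 1 < x) {m n : ℕ} (h : x ^ m = x ^ n) : m = n := by
  rcases lt_trichotomy m n with hlt | heq | hgt
  · exact absurd h (pow_lt_pow_right₀ hx hlt).ne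
  · exact heq
  · exact absurd h (pow_lt_pow_right₀ hx hgt).ne'

/-- `J * a² = c²` with `a < c` forces `1 < J` -/
theorem one_lt_of_mul_sq {J a c : Γ₀'} (h : J * a ^ 2 = c ^ 2) (hac : a < c) : 1 < J := by
  by_contra hJ
  push Not at hJ
  have h1 : J * a ^ 2 ≤ a ^ 2 := mul_le_of_le_one_left' hJ
  have h2 : a ^ 2 < c ^ 2 := pow_lt_pow_left_g hac two_ne_zero
  rw [h] at h1
  exact absurd h1 (not_le.mpr h2)

end Gamma

variable {K : Type*} [Field K] {Γ₀ : Type*} [LinearOrderedCommGroupWithZero Γ₀]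
variable {v : Valuation K Γ₀}

theorem v16_le_one (hv : ∀ n : ℕ, v (n : K) ≤ 1) : v (16 : K) ≤ 1 := by
  have := hv 16
  simpa using this

theorem v256_eq (v : Valuation K Γ₀) : v (256 : K) = v 16 ^ 2 := by
  rw [← map_pow]
  norm_num

/-! ### invariance of `jl` -/

theorem jl_inv {r : K} (hr0 : r ≠ 0) : jl r⁻¹ = jl r := by
  by_cases h1 : 1 - r = 0
  · have : r = 1 := by linear_combination -h1
    subst this
    simp
  have h3 : r - 1 ≠ 0 := fun h => h1 (by linear_combination -h)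
  have e1 : 1 - r⁻¹ = (r - 1) / r := by field_simp
  have e2 : 1 - r⁻¹ + r⁻¹ ^ 2 = (1 - r + r ^ 2) / r ^ 2 := by
    field_simp
    ring
  have e3 : (1 - r) ^ 2 = (r - 1) ^ 2 := by ring
  unfold jl
  rw [e2, e1, e3]
  field_simp

theorem jl_one_sub (r : K) : jl (1 - r) = jl r := by
  unfold jl
  ring

/-! ### regime (R1) -/

theorem val_jl_of_lt_one {r : K} (hr0 : r ≠ 0) (hr : v r < 1) :
    v (jl r) * v r ^ 2 = v 16 ^ 2 := by
  have h1 : v (1 - r) = 1 := Valuation.map_one_sub_of_lt v hr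
  have h1r : 1 - r ≠ 0 := by
    intro h
    rw [h, map_zero] at h1
    exact zero_ne_one h1
  have h2 : v (1 - r + r ^ 2) = 1 := by
    have : v (r ^ 2) < v (1 - r) := by
      rw [h1, map_pow]
      simpa using pow_lt_pow_left_g hr (n := 2) two_ne_zero
    rw [Valuation.map_add_eq_of_lt_left v this, h1]
  have e : jl r * r ^ 2 = 256 * (1 - r + r ^ 2) ^ 3 / (1 - r) ^ 2 := by
    unfold jl
    field_simp
  have := congrArg v e
  rw [map_mul, map_pow, map_div₀, map_mul, map_pow, map_pow, h1, h2, one_pow, one_pow, mul_one,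
    div_one, v256_eq] at this
  exact this

theorem val_fs_of_lt (hv : ∀ n : ℕ, v (n : K) ≤ 1) {r : K} (hr0 : r ≠ 0) (hr : v r < v 16) :
    v (fs r) * v r ^ 4 = v 16 ^ 4 := by
  have h16 : v (16 : K) ≤ 1 := v16_le_one hv
  have hr1 : v r < 1 := lt_of_lt_of_le hr h16
  have h1 : v (1 - r) = 1 := Valuation.map_one_sub_of_lt v hr1
  have h1r : 1 - r ≠ 0 := by
    intro h
    rw [h, map_zero] at h1
    exact zero_ne_one h1
  have h3 : v (16 - 16 * r) = v 16 := by
    have e : (16 : K) - 16 * r = 16 * (1 - r) := by ring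
    rw [e, map_mul, h1, mul_one]
  have h2 : v (16 - 16 * r + r ^ 2) = v 16 := by
    have : v (r ^ 2) < v (16 - 16 * r) := by
      rw [h3, map_pow, pow_two]
      calc v r * v r ≤ v r := mul_le_of_le_one_right' hr1.le
        _ < v 16 := hr
    rw [Valuation.map_add_eq_of_lt_left v this, h3]
  have e : fs r * r ^ 4 = 16 * (16 - 16 * r + r ^ 2) ^ 3 / (1 - r) := by
    unfold fs
    field_simp
  have := congrArg v e
  rw [map_mul, map_pow, map_div₀, map_mul, map_pow, h1, h2, div_one, ← pow_succ'] at this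
  exact this

/-! ### regimes (R2), (R3): `v (jl r) = v (fs r) ^ 2` -/

theorem jl_fs_identity {r : K} (hr0 : r ≠ 0) (hr1 : 1 - r ≠ 0) :
    jl r * (16 - 16 * r + r ^ 2) ^ 6 = fs r ^ 2 * ((1 - r + r ^ 2) ^ 3 * r ^ 6) := by
  unfold jl fs
  field_simp
  ring

theorem val_jl_eq_fs_sq_of_one_lt (hv : ∀ n : ℕ, v (n : K) ≤ 1) {r : K} (hr : 1 < v r) :
    v (jl r) = v (fs r) ^ 2 := by
  have h16 : v (16 : K) ≤ 1 := v16_le_one hv
  have hr0 : r ≠ 0 := by
    rintro rfl
    rw [map_zero] at hr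
    exact absurd hr (not_lt.mpr zero_le)
  have hvr0 : v r ≠ 0 := (Valuation.ne_zero_iff v).mpr hr0
  have h1 : v (1 - r) = v r := Valuation.map_sub_eq_of_lt_right v (by rwa [map_one])
  have h1r : 1 - r ≠ 0 := by
    intro h
    rw [h, map_zero] at h1
    exact hvr0 h1.symm
  have hsq : v r < v (r ^ 2) := by
    rw [map_pow, pow_two]
    exact lt_mul_of_one_lt_right (zero_lt_iff.mpr hvr0) hr
  have hN1 : v (1 - r + r ^ 2) = v r ^ 2 := by
    rw [Valuation.map_add_eq_of_lt_right v (by rwa [h1]), map_pow]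
  have hN2 : v (16 - 16 * r + r ^ 2) = v r ^ 2 := by
    have e : (16 : K) - 16 * r = 16 * (1 - r) := by ring
    have : v (16 - 16 * r) < v (r ^ 2) := by
      rw [e, map_mul, h1]
      exact lt_of_le_of_lt (mul_le_of_le_one_left' h16) hsq
    rw [Valuation.map_add_eq_of_lt_right v this, map_pow]
  have := congrArg v (jl_fs_identity hr0 h1r)
  rw [map_mul, map_mul, map_mul, map_pow, map_pow, map_pow, map_pow, hN1, hN2] at this
  have e6 : v r ^ 6 = (v r ^ 2) ^ 3 := by rw [← pow_mul]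
  have e66 : (v r ^ 2) ^ 3 * (v r ^ 2) ^ 3 = (v r ^ 2) ^ 6 := by rw [← pow_add]
  rw [e6, e66] at this
  exact mul_right_cancel₀ (pow_ne_zero 6 (pow_ne_zero 2 hvr0)) this

theorem val_jl_eq_fs_sq_of_one_sub_lt (hv : ∀ n : ℕ, v (n : K) ≤ 1) {r : K} (hr : v r = 1)
    (hρ : v (1 - r) < 1) (hr1 : 1 - r ≠ 0) : v (jl r) = v (fs r) ^ 2 := by
  have h16 : v (16 : K) ≤ 1 := v16_le_one hv
  have hr0 : r ≠ 0 := by
    rintro rfl
    rw [map_zero] at hr
    exact zero_ne_one hr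
  have hr2 : v (r ^ 2) = 1 := by rw [map_pow, hr, one_pow]
  have hN1 : v (1 - r + r ^ 2) = 1 := by
    rw [Valuation.map_add_eq_of_lt_right v (by rwa [hr2]), hr2]
  have hN2 : v (16 - 16 * r + r ^ 2) = 1 := by
    have e : (16 : K) - 16 * r = 16 * (1 - r) := by ring
    have : v (16 - 16 * r) < v (r ^ 2) := by
      rw [e, map_mul, hr2]
      exact lt_of_le_of_lt (mul_le_of_le_one_left' h16) hρ
    rw [Valuation.map_add_eq_of_lt_right v this, hr2]
  have := congrArg v (jl_fs_identity hr0 hr1)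
  rw [map_mul, map_mul, map_mul, map_pow, map_pow, map_pow, map_pow, hN1, hN2, hr] at this
  simpa only [one_pow, mul_one] using this

/-! ### regime (R4) -/

theorem val_jl_le_of_units {r : K} (hr : v r = 1) (hρ : v (1 - r) = 1) : v (jl r) ≤ v 16 ^ 2 := by
  have hN1 : v (1 - r + r ^ 2) ≤ 1 := by
    refine le_trans (Valuation.map_add v _ _) (max_le hρ.le ?_)
    rw [map_pow, hr, one_pow]
  unfold jl
  rw [map_div₀, map_mul, map_mul, map_pow, map_pow, map_pow, hr, hρ, v256_eq]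
  simp only [one_pow, mul_one, div_one]
  exact mul_le_of_le_one_right' (pow_le_one' hN1 3)

/-! ### consequences of (R1) used by the callers -/

theorem one_lt_val_jl (hv : ∀ n : ℕ, v (n : K) ≤ 1) {r : K} (hr0 : r ≠ 0) (hr : v r < v 16) :
    1 < v (jl r) :=
  one_lt_of_mul_sq (val_jl_of_lt_one hr0 (lt_of_lt_of_le hr (v16_le_one hv))) hr

theorem val_fs_eq_jl_sq (hv : ∀ n : ℕ, v (n : K) ≤ 1) {r : K} (hr0 : r ≠ 0) (hr : v r < v 16) :
    v (fs r) = v (jl r) ^ 2 := by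
  have ha0 : v r ≠ 0 := (Valuation.ne_zero_iff v).mpr hr0
  have E1 := val_jl_of_lt_one (v := v) hr0 (lt_of_lt_of_le hr (v16_le_one hv))
  have E2 := val_fs_of_lt hv hr0 hr
  have : v (jl r) ^ 2 * v r ^ 4 = v (fs r) * v r ^ 4 := by
    rw [E2]
    have e4 : v r ^ 4 = (v r ^ 2) ^ 2 := by rw [← pow_mul]
    rw [e4, ← mul_pow, E1, ← pow_mul]
  exact (mul_right_cancel₀ (pow_ne_zero 4 ha0) this).symm

theorem one_lt_val_fs (hv : ∀ n : ℕ, v (n : K) ≤ 1) {r : K} (hr0 : r ≠ 0) (hr : v r < v 16) :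
    1 < v (fs r) := by
  rw [val_fs_eq_jl_sq hv hr0 hr]
  exact one_lt_pow₀ (one_lt_val_jl hv hr0 hr) two_ne_zero

/-! ### the local comparison -/

/-- at an odd place (`v 16 = 1`): `jl r'` integral forces `r'` and `1 - r'` to be units -/
theorem units_of_val_jl_le_one (h16 : v (16 : K) = 1) {r' : K} (hr'0 : r' ≠ 0) (hr'1 : 1 - r' ≠ 0)
    (hJ : v (jl r') ≤ 1) : v r' = 1 ∧ v (1 - r') = 1 := by
  have key : ∀ x : K, x ≠ 0 → v x < 1 → jl x = jl r' → False := by
    intro x hx0 hx hjl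
    have h := val_jl_of_lt_one (v := v) hx0 hx
    rw [h16, one_pow, hjl] at h
    have h1 : (1 : Γ₀) < v (jl r') := by
      refine one_lt_of_mul_sq (a := v x) (c := 1) ?_ hx
      rw [h, one_pow]
    exact absurd hJ (not_le.mpr h1)
  have hvr0 : v r' ≠ 0 := (Valuation.ne_zero_iff v).mpr hr'0
  have hr1 : v r' = 1 := by
    rcases lt_trichotomy (v r') 1 with hlt | heq | hgt
    · exact (key r' hr'0 hlt rfl).elim
    · exact heq
    · exfalso
      refine key r'⁻¹ (inv_ne_zero hr'0) ?_ (jl_inv hr'0)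
      rw [map_inv₀]
      exact inv_lt_one_of_one_lt₀ hgt
  refine ⟨hr1, ?_⟩
  have hle : v (1 - r') ≤ 1 := by
    refine le_trans (Valuation.map_sub v _ _) (max_le ?_ hr1.le)
    rw [map_one]
  rcases lt_or_eq_of_le hle with hlt | heq
  · exact (key (1 - r') hr'1 hlt (jl_one_sub r')).elim
  · exact heq

/-- **the local comparison lemma**. -/
theorem local_main (hv : ∀ n : ℕ, v (n : K) ≤ 1) (h2 : (2 : K) ≠ 0) {p : ℕ} (hp : 3 ≤ p)
    {r r' : K} (hr0 : r ≠ 0) (hr : v r < v 16) (hr'0 : r' ≠ 0) (hr'1 : 1 - r' ≠ 0)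
    (hJ : v (jl r') = v (jl r) ^ p)
    (hF : v (fs r') = v (fs r) ^ p ∨ v (fs r') ^ p = v (fs r)) :
    v r' < 1 ∧ v r' * v 16 ^ p = v r ^ p * v 16 := by
  have h16 : v (16 : K) ≤ 1 := v16_le_one hv
  have hc0 : v (16 : K) ≠ 0 := by
    rw [Valuation.ne_zero_iff]
    have : (16 : K) = 2 ^ 4 := by norm_num
    rw [this]
    exact pow_ne_zero 4 h2
  have hr1 : v r < 1 := lt_of_lt_of_le hr h16
  have ha0 : v r ≠ 0 := (Valuation.ne_zero_iff v).mpr hr0
  have E1 := val_jl_of_lt_one (v := v) hr0 hr1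
  have E2 := val_fs_of_lt hv hr0 hr
  have hJ1 : 1 < v (jl r) := one_lt_of_mul_sq E1 hr
  -- `F = J²`
  have hFJ : v (fs r) = v (jl r) ^ 2 := by
    have : v (jl r) ^ 2 * v r ^ 4 = v (fs r) * v r ^ 4 := by
      rw [E2]
      have e4 : v r ^ 4 = (v r ^ 2) ^ 2 := by rw [← pow_mul]
      rw [e4, ← mul_pow, E1, ← pow_mul]
    exact (mul_right_cancel₀ (pow_ne_zero 4 ha0) this).symm
  -- the contradiction in the regimes (R2), (R3)
  have hcontra : v (jl r') = v (fs r') ^ 2 → False := by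
    intro hJF
    rcases hF with hF | hF
    · -- `J^p = J' = F'^2 = J^(4p)`
      have : v (jl r) ^ p = v (jl r) ^ (2 * (p * 2)) := by
        rw [← hJ, hJF, hF, hFJ, ← pow_mul, ← pow_mul]
      have := pow_right_inj_g hJ1 this
      omega
    · -- `J^(p p) = J'^p = (F'^p)^2 = J^4`
      have : v (jl r) ^ (p * p) = v (jl r) ^ (2 * 2) := by
        rw [pow_mul, ← hJ, hJF, ← pow_mul, mul_comm 2 p, pow_mul, hF, hFJ, ← pow_mul]
      have := pow_right_inj_g hJ1 this
      nlinarith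
  have hJ'1 : 1 < v (jl r') := by
    rw [hJ]
    exact one_lt_pow₀ hJ1 (by omega)
  have hlt : v r' < 1 := by
    rcases lt_trichotomy (v r') 1 with hlt | heq | hgt
    · exact hlt
    · exfalso
      have hle : v (1 - r') ≤ 1 := by
        refine le_trans (Valuation.map_sub v _ _) (max_le ?_ heq.le)
        rw [map_one]
      rcases lt_or_eq_of_le hle with hlt' | heq'
      · exact hcontra (val_jl_eq_fs_sq_of_one_sub_lt hv heq hlt' hr'1)
      · have h4 := val_jl_le_of_units (v := v) heq heq'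
        have : v (16 : K) ^ 2 ≤ 1 := pow_le_one' h16 2
        exact absurd (lt_of_lt_of_le hJ'1 (h4.trans this)) (lt_irrefl _)
    · exact (hcontra (val_jl_eq_fs_sq_of_one_lt hv hgt)).elim
  refine ⟨hlt, ?_⟩
  have E1' := val_jl_of_lt_one (v := v) hr'0 hlt
  -- `(c^p a')² = (c a^p)²`
  apply pow_left_inj_g (n := 2) two_ne_zero
  calc (v r' * v 16 ^ p) ^ 2 = v r' ^ 2 * (v 16 ^ 2) ^ p := by
        rw [mul_pow, ← pow_mul, ← pow_mul, mul_comm p 2]
    _ = v r' ^ 2 * (v (jl r) * v r ^ 2) ^ p := by rw [E1]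
    _ = (v (jl r') * v r' ^ 2) * (v r ^ 2) ^ p := by
        rw [mul_pow, hJ, ← mul_assoc, mul_comm (v r' ^ 2)]
    _ = v 16 ^ 2 * (v r ^ 2) ^ p := by rw [E1']
    _ = (v r ^ p * v 16) ^ 2 := by
        rw [mul_pow, ← pow_mul, ← pow_mul, mul_comm p 2, mul_comm]

end Fermat.Agent.S12lib.Part
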