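/-
S12lib / QbVal  (helper1)  — valuation-subring facts over `Q̄` used by the partition step of S12:
* `val_natCast_le_one`, `val_intCast_le_one`, `val_intCast_lt_one_iff`, `val_intCast_eq_one_iff`
  (at `A ∣ ℓ`; wrappers of `S05lib/Inertia`);
* `phi_dichotomy`  : `Φ_p(b; a) = 0`, `a ∉ A` ⇒ `v b = v a ^ p ∨ v b ^ p = v a` (helper8's Newton);
* `mem_of_phi`     : `Φ_p(b; a) = 0`, `a ∈ A` ⇒ `b ∈ A` (monic);
* `eq_one_or_neg_one_of_forall_val` : a Galois-fixed element of `Q̄` which is a unit at every place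
  over every prime is `± 1`.
-/
import Mathlib
import Fermat.Agent.S15lib.Dict.Newton
import Fermat.Agent.S05lib.Inertia
import Fermat.Agent.S18lib.Gink.Residue
import Fermat.Agent.S13lib.PlaceOpen

set_option autoImplicit false

noncomputable section

namespace Fermat.Agent.S12lib

open Polynomial Fermat.Agent.S28lib Fermat.Agent.S37lib.ConjNorm Fermat.Agent.S18lib
open Fermat.Agent.S15lib.Dict

local notation "Qb" => AlgebraicClosure ℚ
local notation "GQ" => (AlgebraicClosure ℚ ≃ₐ[ℚ] AlgebraicClosure ℚ)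

/-- the embedding of the algebraic integers used by `S15lib/Dict` -/
abbrev iQb : Zb →+* Qb := (Gink.intToQbar : Zb →+* Qb)

variable (A : ValuationSubring Qb)

theorem val_natCast_le_one (n : ℕ) : A.valuation ((n : ℕ) : Qb) ≤ 1 :=
  (A.valuation_le_one_iff _).mpr (natCast_mem A n)

theorem val_intCast_le_one (m : ℤ) : A.valuation ((m : ℤ) : Qb) ≤ 1 :=
  Fermat.Agent.S05lib.val_intCast_le_one (A := A) m

theorem val_intCast_eq_one_iff {ℓ : ℕ} (hℓ : ℓ.Prime) (hA : A.LiesOverPrime ℓ) (m : ℤ) :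
    A.valuation ((m : ℤ) : Qb) = 1 ↔ ¬ (ℓ : ℤ) ∣ m :=
  Fermat.Agent.S05lib.val_intCast_eq_one_iff (A := A) hℓ hA m

theorem val_intCast_lt_one_iff {ℓ : ℕ} (hℓ : ℓ.Prime) (hA : A.LiesOverPrime ℓ) (m : ℤ) :
    A.valuation ((m : ℤ) : Qb) < 1 ↔ (ℓ : ℤ) ∣ m := by
  constructor
  · intro h
    by_contra hnd
    rw [(val_intCast_eq_one_iff A hℓ hA m).mpr hnd] at h
    exact lt_irrefl _ h
  · intro h
    exact Fermat.Agent.S05lib.val_intCast_lt_one_of_dvd (A := A) hℓ hA h

variable {p : ℕ} [Fact p.Prime]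

/-- helper8's Newton dichotomy in valuation form -/
theorem phi_dichotomy (hodd : Odd p) {a b : Qb} (ha : a ∉ A)
    (h : biEval₂ iQb (phiZ p) b a = 0) :
    A.valuation b = A.valuation a ^ p ∨ A.valuation b ^ p = A.valuation a := by
  have ha0 : a ≠ 0 := by
    rintro rfl
    exact ha A.zero_mem
  have hva0 : A.valuation a ≠ 0 := (Valuation.ne_zero_iff _).mpr ha0
  obtain ⟨_, hcases⟩ := newton_dichotomy A (Gink.intToA A) p hodd ha h
  have hunit_of_res : ∀ u : A, IsLocalRing.residue A u = 1 → A.valuation (u : Qb) = 1 := by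
    intro u hu
    refine (A.valuation_eq_one_iff u).mp ?_
    by_contra hnu
    have : u ∈ IsLocalRing.maximalIdeal A := (IsLocalRing.mem_maximalIdeal _).mpr hnu
    rw [← IsLocalRing.residue_eq_zero_iff, hu] at this
    exact one_ne_zero this
  rcases hcases with ⟨_, u, _, _, hu, hures⟩ | ⟨u, hu, hures⟩
  · right
    have h1 := hunit_of_res u hures
    rw [hu, map_mul, map_pow, map_inv₀] at h1
    exact (mul_inv_eq_one₀ hva0).mp h1
  · left
    have h1 := hunit_of_res u hures
    rw [hu, map_mul, map_pow, map_inv₀, inv_pow] at h1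
    exact (mul_inv_eq_one₀ (pow_ne_zero p hva0)).mp h1

/-- integrality: `Φ_p(X; a)` is monic with coefficients in `A` when `a ∈ A` -/
theorem mem_of_phi {a b : Qb} (ha : a ∈ A) (h : biEval₂ iQb (phiZ p) b a = 0) : b ∈ A := by
  by_contra hb
  have hb1 : 1 < A.valuation b := by
    rw [← not_le, A.valuation_le_one_iff]
    exact hb
  have hb0 : A.valuation b ≠ 0 := ne_of_gt (lt_trans zero_lt_one hb1)
  have hexp := biEval₂_eq_sum A (Gink.intToA A) p a b
  have hc : ∀ m, A.valuation (cAt A (Gink.intToA A) p a m) ≤ 1 := by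
    intro m
    rw [A.valuation_le_one_iff]
    unfold cAt
    have := Polynomial.hom_eval₂ ((phiZ p).coeff m) (Gink.intToA A) A.subtype ⟨a, ha⟩
    have e : A.subtype ⟨a, ha⟩ = a := rfl
    rw [e] at this
    rw [← this]
    exact Subtype.property _
  have hsum : A.valuation (∑ m ∈ Finset.range (p + 1), cAt A (Gink.intToA A) p a m * b ^ m) <
      A.valuation (b ^ (p + 1)) := by
    refine Valuation.map_sum_lt _ (by rw [map_pow]; exact pow_ne_zero _ hb0) fun m hm => ?_
    rw [Finset.mem_range] at hm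
    rw [map_mul, map_pow, map_pow]
    calc A.valuation (cAt A (Gink.intToA A) p a m) * A.valuation b ^ m ≤ A.valuation b ^ m :=
          mul_le_of_le_one_left' (hc m)
      _ < A.valuation b ^ (p + 1) := pow_lt_pow_right₀ hb1 hm
  have h0 : biEval₂ (A.subtype.comp (Gink.intToA A)) (phiZ p) b a = 0 := h
  rw [hexp] at h0
  have := Valuation.map_add_eq_of_lt_left A.valuation hsum
  rw [h0, map_zero, map_pow] at this
  exact pow_ne_zero _ hb0 this.symm

omit [Fact p.Prime] in
/-- a Galois-fixed element of `Q̄` which is a unit at every place over every prime is `± 1` -/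
theorem eq_one_or_neg_one_of_forall_val {U : Qb} (hfix : ∀ σ : GQ, σ U = U)
    (hval : ∀ ℓ : ℕ, ℓ.Prime → ∀ A : ValuationSubring Qb, A.LiesOverPrime ℓ →
      A.valuation U = 1) : U = 1 ∨ U = -1 := by
  obtain ⟨q, rfl⟩ := (InfiniteGalois.mem_range_algebraMap_iff_fixed U).mpr hfix
  have hcast : algebraMap ℚ Qb q = ((q.num : ℤ) : Qb) / ((q.den : ℤ) : Qb) := by
    conv_lhs => rw [← Rat.num_div_den q]
    rw [map_div₀, map_intCast, map_natCast]
    push_cast
    rfl
  have hden0 : ((q.den : ℤ) : Qb) ≠ 0 := by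
    have := q.den_ne_zero
    exact_mod_cast this
  -- no prime divides the numerator
  have hnum : q.num.natAbs = 1 := by
    by_contra hne
    obtain ⟨ℓ, hℓ, hdvd⟩ := Nat.exists_prime_and_dvd hne
    obtain ⟨A, hA⟩ := Fermat.Agent.S13lib.exists_liesOverPrime hℓ
    have h1 := hval ℓ hℓ A hA
    rw [hcast, map_div₀] at h1
    have hn : A.valuation ((q.num : ℤ) : Qb) < 1 :=
      (val_intCast_lt_one_iff A hℓ hA _).mpr (Int.natCast_dvd.mpr hdvd)
    have hd : A.valuation ((q.den : ℤ) : Qb) = 1 := by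
      rw [val_intCast_eq_one_iff A hℓ hA]
      intro hd
      have hd' : ℓ ∣ q.den := Int.natCast_dvd_natCast.mp hd
      have h2 := Nat.dvd_gcd hdvd hd'
      rw [q.reduced] at h2
      exact hℓ.one_lt.ne' (Nat.dvd_one.mp h2)
    rw [hd, div_one] at h1
    exact absurd h1 hn.ne
  have hden : q.den = 1 := by
    by_contra hne
    obtain ⟨ℓ, hℓ, hdvd⟩ := Nat.exists_prime_and_dvd hne
    obtain ⟨A, hA⟩ := Fermat.Agent.S13lib.exists_liesOverPrime hℓ
    have h1 := hval ℓ hℓ A hA
    rw [hcast, map_div₀] at h1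
    have hd : A.valuation ((q.den : ℤ) : Qb) < 1 :=
      (val_intCast_lt_one_iff A hℓ hA _).mpr (Int.natCast_dvd_natCast.mpr hdvd)
    have hn : A.valuation ((q.num : ℤ) : Qb) = 1 := by
      rw [val_intCast_eq_one_iff A hℓ hA]
      intro hn
      have hn' : ℓ ∣ q.num.natAbs := Int.natCast_dvd.mp hn
      have h2 := Nat.dvd_gcd hn' hdvd
      rw [q.reduced] at h2
      exact hℓ.one_lt.ne' (Nat.dvd_one.mp h2)
    rw [hn] at h1
    have hd0 : A.valuation ((q.den : ℤ) : Qb) ≠ 0 := (Valuation.ne_zero_iff _).mpr hden0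
    have : A.valuation ((q.den : ℤ) : Qb) = 1 := by
      have h3 := (div_eq_one_iff_eq hd0).mp h1
      exact h3.symm
    exact absurd this hd.ne
  rw [hcast, hden]
  rcases Int.natAbs_eq q.num with h | h
  · left
    rw [h, hnum]
    simp
  · right
    rw [h, hnum]
    simp

end Fermat.Agent.S12lib
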