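/-
S12lib / Partition  (helper1)  — block (N) of the one-step S12 route.

`E : y² = (x-x₀)(x-x₁)(x-x₂)` with `2`-torsion differences `X = x₁-x₀`, `Y = x₀-x₂`, `Z = X+Y`
(integers, `X, Z` odd, `32 ∣ Y`, coprime: the Frey triple `a^p, b^p, c^p` up to a common scalar) and
the `p`-isogenous curve `E' = E/N` with differences `X', Y', Z' = X'+Y'` (Galois-fixed elements of
`Q̄`).  If `N` is canonical at every place (`|j(E')| = |j(E)|^p` wherever `j(E)` is not integral) and
the three `2`-isogenous partners are `p`-isogenous (`Φ_p(F_i(E'); F_i(E)) = 0`), then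
`X' : Y' : Z' = ± X^p : ± Y^p/16^(p-1) : ± Z^p`, which contradicts `S12lib.endgame`.
-/
import Mathlib
import Fermat.Agent.S12lib.Endgame
import Fermat.Agent.S12lib.PartLambda
import Fermat.Agent.S12lib.LocalVal
import Fermat.Agent.S12lib.QbVal

set_option autoImplicit false

noncomputable section

namespace Fermat.Agent.S12lib

open Polynomial Fermat.Agent.S28lib Fermat.Agent.S37lib.ConjNorm Fermat.Agent.S18lib
open Fermat.Agent.S15lib.Dict Fermat.Agent.S12lib.Part

local notation "Qb" => AlgebraicClosure ℚ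
local notation "GQ" => (AlgebraicClosure ℚ ≃ₐ[ℚ] AlgebraicClosure ℚ)

/-! ### the three relabellings of `Jfun` -/

section Rot

variable {K : Type*} [Field K]

theorem Jfun_rot0 (A B : K) : Jfun (-B) (A - (-B)) = Jfun A B := by
  unfold Jfun
  congr 1 <;> ring

theorem Jfun_rot1 (A B : K) : Jfun (-(A + B)) (-A - (-(A + B))) = Jfun A B := by
  unfold Jfun
  congr 1 <;> ring

theorem Jfun_rot2 (A B : K) : Jfun (A + B) (B - (A + B)) = Jfun A B := by
  unfold Jfun
  congr 1 <;> ring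

end Rot

/-! ### value-group bookkeeping -/

section Gamma

variable {Γ₀ : Type*} [LinearOrderedCommGroupWithZero Γ₀]

theorem gamma_unit {y' y c : Γ₀} {p : ℕ} (hy : y ≠ 0) (hc : c ≠ 0)
    (h : y' * c ^ p = y ^ p * c) : y' * c ^ p * (y⁻¹) ^ p / c = 1 := by
  rw [h, mul_right_comm, ← mul_pow, mul_inv_cancel₀ hy, one_pow, one_mul, div_self hc]

end Gamma

variable {p : ℕ} [Fact p.Prime]

/-! ### one configuration at one place -/

/-- the pair `(u, w)` with `u - w` small at `A` (partner `Ffun u w` special, `j = Jfun w (u - w)`),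
and the corresponding pair `(u', w')` of `E'` -/
theorem config_step (hodd : Odd p) (hp3 : 3 ≤ p) (A : ValuationSubring Qb)
    {u w u' w' : Qb} (hu : u ≠ 0) (hs : u - w ≠ 0) (hu' : u' ≠ 0) (hw' : w' ≠ 0)
    (hs' : u' - w' ≠ 0)
    (hsmall : A.valuation ((u - w) / u) < A.valuation 16)
    (hJ : A.valuation (Jfun w' (u' - w') * ((Jfun w (u - w))⁻¹) ^ p) = 1)
    (hF : biEval₂ iQb (phiZ p) (Ffun u' w') (Ffun u w) = 0) :
    A.valuation ((u' - w') / u') < 1 ∧
      A.valuation ((u' - w') / u') * A.valuation 16 ^ p =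
        A.valuation ((u - w) / u) ^ p * A.valuation 16 := by
  have hv : ∀ n : ℕ, A.valuation ((n : ℕ) : Qb) ≤ 1 := val_natCast_le_one A
  have h2 : (2 : Qb) ≠ 0 := two_ne_zero
  have hr0 : (u - w) / u ≠ 0 := div_ne_zero hs hu
  have hr'0 : (u' - w') / u' ≠ 0 := div_ne_zero hs' hu'
  have hr'1 : 1 - (u' - w') / u' ≠ 0 := by
    have : 1 - (u' - w') / u' = w' / u' := by
      field_simp
      ring
    rw [this]
    exact div_ne_zero hw' hu'
  rw [Jfun_eq_jl hu, Jfun_eq_jl hu'] at hJ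
  rw [Ffun_eq_fs hu, Ffun_eq_fs hu'] at hF
  have hJ1 := one_lt_val_jl hv hr0 hsmall
  have hF1 := one_lt_val_fs hv hr0 hsmall
  have hJne : A.valuation (jl ((u - w) / u)) ≠ 0 := ne_of_gt (lt_trans zero_lt_one hJ1)
  have hJ' : A.valuation (jl ((u' - w') / u')) = A.valuation (jl ((u - w) / u)) ^ p := by
    rw [map_mul, map_pow, map_inv₀, inv_pow] at hJ
    exact (mul_inv_eq_one₀ (pow_ne_zero p hJne)).mp hJ
  have hFnot : fs ((u - w) / u) ∉ A := by
    rw [← A.valuation_le_one_iff, not_le]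
    exact hF1
  have hdich := phi_dichotomy A hodd hFnot hF
  exact local_main hv h2 hp3 hr0 hsmall hr'0 hr'1 hJ' hdich

/-! ### the two ratios are units at every place -/

section Place

variable {X Y Z : ℤ} {X' Y' : Qb}

/-- the two ratios which turn out to be `± 1` -/
def ratioY (p : ℕ) (X Y : ℤ) (X' Y' : Qb) : Qb :=
  Y' / X' * 16 ^ p * ((X : Qb) / (Y : Qb)) ^ p / 16

def ratioZ (p : ℕ) (X Z : ℤ) (X' Y' : Qb) : Qb :=
  (X' + Y') / X' * ((X : Qb) / (Z : Qb)) ^ p

theorem units_at_place (hodd : Odd p) (hp3 : 3 ≤ p) (hsum : X + Y = Z) (hX : Odd X) (hZ : Odd Z)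
    (hY32 : 32 ∣ Y) (hY0 : Y ≠ 0) (hXY : IsCoprime X Y)
    (hX' : X' ≠ 0) (hY' : Y' ≠ 0) (hZ' : X' + Y' ≠ 0)
    (hΦ0 : biEval₂ iQb (phiZ p) (Jfun X' Y') (Jfun (X : Qb) (Y : Qb)) = 0)
    (hF0 : biEval₂ iQb (phiZ p) (Ffun X' (-Y')) (Ffun (X : Qb) (-(Y : Qb))) = 0)
    (hF1 : biEval₂ iQb (phiZ p) (Ffun (-X') (-(X' + Y'))) (Ffun (-(X : Qb)) (-(Z : Qb))) = 0)
    (hF2 : biEval₂ iQb (phiZ p) (Ffun Y' (X' + Y')) (Ffun (Y : Qb) (Z : Qb)) = 0)
    {ℓ : ℕ} (hℓ : ℓ.Prime) (A : ValuationSubring Qb) (hA : A.LiesOverPrime ℓ)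
    (hcan : Jfun (X : Qb) (Y : Qb) ∉ A →
      A.valuation (Jfun X' Y' * ((Jfun (X : Qb) (Y : Qb))⁻¹) ^ p) = 1) :
    A.valuation (ratioY p X Y X' Y') = 1 ∧ A.valuation (ratioZ p X Z X' Y') = 1 := by
  have hv : ∀ n : ℕ, A.valuation ((n : ℕ) : Qb) ≤ 1 := val_natCast_le_one A
  have hX0 : X ≠ 0 := by
    rintro rfl
    simp at hX
  have hZ0 : Z ≠ 0 := by
    rintro rfl
    simp at hZ
  have hXq : (X : Qb) ≠ 0 := Int.cast_ne_zero.mpr hX0
  have hYq : (Y : Qb) ≠ 0 := Int.cast_ne_zero.mpr hY0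
  have hZq : (Z : Qb) ≠ 0 := Int.cast_ne_zero.mpr hZ0
  have hZc : (Z : Qb) = (X : Qb) + (Y : Qb) := by
    rw [← hsum]
    push_cast
    rfl
  have h16ne : A.valuation (16 : Qb) ≠ 0 := (Valuation.ne_zero_iff _).mpr (by norm_num)
  have h16int : A.valuation (16 : Qb) = A.valuation (((16 : ℤ) : ℤ) : Qb) := by norm_num
  -- `v 16 = 1` at odd places
  have h16odd : ℓ ≠ 2 → A.valuation (16 : Qb) = 1 := by
    intro h2
    rw [h16int, val_intCast_eq_one_iff A hℓ hA]
    intro hd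
    have h1 : (ℓ : ℤ) ∣ 2 ^ 4 := by
      norm_num
      exact hd
    have h3 := (Nat.prime_iff_prime_int.mp hℓ).dvd_of_dvd_pow h1
    have h4 : ℓ ∣ 2 := by exact_mod_cast h3
    exact h2 ((Nat.prime_dvd_prime_iff_eq hℓ Nat.prime_two).mp h4)
  have hvint : ∀ m : ℤ, ¬ (ℓ : ℤ) ∣ m → A.valuation ((m : ℤ) : Qb) = 1 := fun m hm =>
    (val_intCast_eq_one_iff A hℓ hA m).mpr hm
  have hvlt : ∀ m : ℤ, (ℓ : ℤ) ∣ m → A.valuation ((m : ℤ) : Qb) < 1 := fun m hm =>
    (val_intCast_lt_one_iff A hℓ hA m).mpr hm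
  have hℓprime : Prime (ℓ : ℤ) := Nat.prime_iff_prime_int.mp hℓ
  have hnotunit : ¬ IsUnit (ℓ : ℤ) := hℓprime.not_isUnit
  -- coprimality consequences
  have hXYnot : (ℓ : ℤ) ∣ X → (ℓ : ℤ) ∣ Y → False := fun h1 h2 =>
    hnotunit (hXY.isUnit_of_dvd' h1 h2)
  have hodd_of_dvd : ∀ m : ℤ, Odd m → (ℓ : ℤ) ∣ m → ℓ ≠ 2 := by
    rintro m hm hd rfl
    have : (2 : ℤ) ∣ m := by exact_mod_cast hd
    exact (Int.not_even_iff_odd.mpr hm) (even_iff_two_dvd.mpr this)
  unfold ratioY ratioZ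
  by_cases hℓY : (ℓ : ℤ) ∣ Y
  · -- configuration 1: `(u, w) = (-X, -Z)`, `u - w = Y`
    have hℓX : ¬ (ℓ : ℤ) ∣ X := fun h => hXYnot h hℓY
    have hℓZ : ¬ (ℓ : ℤ) ∣ Z := by
      intro h
      apply hℓX
      have : X = Z - Y := by rw [← hsum]; ring
      rw [this]
      exact dvd_sub h hℓY
    have hvX := hvint X hℓX
    have hvZ := hvint Z hℓZ
    have er : (-(X : Qb) - (-(Z : Qb))) / (-(X : Qb)) = -((Y : Qb) / X) := by
      rw [hZc]
      field_simp
      ring
    have er' : (-X' - (-(X' + Y'))) / (-X') = -(Y' / X') := by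
      field_simp
      ring
    have hsmall : A.valuation ((-(X : Qb) - (-(Z : Qb))) / (-(X : Qb))) < A.valuation 16 := by
      rw [er, Valuation.map_neg, map_div₀, hvX, div_one]
      by_cases h2 : ℓ = 2
      · -- `32 ∣ Y`
        obtain ⟨m, rfl⟩ := hY32
        have h2lt : A.valuation ((2 : ℤ) : Qb) < 1 := by
          apply hvlt
          rw [h2]
          norm_num
        have e32 : (((32 * m : ℤ) : ℤ) : Qb) = ((2 : ℤ) : Qb) * 16 * ((m : ℤ) : Qb) := by
          push_cast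
          ring
        rw [e32, map_mul, map_mul]
        calc A.valuation ((2 : ℤ) : Qb) * A.valuation 16 * A.valuation ((m : ℤ) : Qb)
            ≤ A.valuation ((2 : ℤ) : Qb) * A.valuation 16 :=
              mul_le_of_le_one_right' (val_intCast_le_one A m)
          _ < A.valuation 16 := by
              have := mul_lt_mul_of_pos_right h2lt (zero_lt_iff.mpr h16ne)
              rwa [one_mul] at this
      · rw [h16odd h2]
        exact hvlt Y hℓY
    have hJne : Jfun (X : Qb) (Y : Qb) ∉ A := by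
      have h1 := one_lt_val_jl hv (div_ne_zero (by
        rw [hZc]; ring_nf; exact hYq) (neg_ne_zero.mpr hXq)) hsmall
      rw [← Jfun_eq_jl (neg_ne_zero.mpr hXq), hZc, Jfun_rot1] at h1
      rw [← A.valuation_le_one_iff, not_le]
      exact h1
    have hJ := hcan hJne
    have hstep := config_step hodd hp3 A (u := -(X : Qb)) (w := -(Z : Qb)) (u' := -X')
      (w' := -(X' + Y')) (neg_ne_zero.mpr hXq) (by rw [hZc]; ring_nf; exact hYq)
      (neg_ne_zero.mpr hX') (neg_ne_zero.mpr hZ') (by ring_nf; exact hY') hsmall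
      (by rw [Jfun_rot1, hZc, Jfun_rot1]; exact hJ) hF1
    obtain ⟨hr', hrel⟩ := hstep
    rw [er, er', Valuation.map_neg, Valuation.map_neg] at hrel
    rw [er', Valuation.map_neg] at hr'
    constructor
    · have hy0 : A.valuation ((Y : Qb) / X) ≠ 0 :=
        (Valuation.ne_zero_iff _).mpr (div_ne_zero hYq hXq)
      have e : A.valuation ((X : Qb) / Y) = (A.valuation ((Y : Qb) / X))⁻¹ := by
        rw [← map_inv₀, inv_div]
      rw [map_div₀, map_mul, map_mul, map_pow, map_pow, e]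
      exact gamma_unit hy0 h16ne hrel
    · have e1 : (X' + Y') / X' = 1 - -(Y' / X') := by
        field_simp
        ring
      have h1 : A.valuation ((X' + Y') / X') = 1 := by
        rw [e1]
        exact Valuation.map_one_sub_of_lt _ (by rwa [Valuation.map_neg])
      rw [map_mul, map_pow, h1, map_div₀, hvX, hvZ, div_one, one_pow, mul_one]
  · by_cases hℓX : (ℓ : ℤ) ∣ X
    · -- configuration 2: `(u, w) = (Y, Z)`, `u - w = -X`; `ℓ` odd
      have h2 : ℓ ≠ 2 := hodd_of_dvd X hX hℓX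
      have hc1 := h16odd h2
      have hℓZ : ¬ (ℓ : ℤ) ∣ Z := by
        intro h
        apply hℓY
        have : Y = Z - X := by rw [← hsum]; ring
        rw [this]
        exact dvd_sub h hℓX
      have hvY := hvint Y hℓY
      have hvZ := hvint Z hℓZ
      have er : ((Y : Qb) - (Z : Qb)) / (Y : Qb) = -((X : Qb) / Y) := by
        rw [hZc]
        field_simp
        ring
      have er' : (Y' - (X' + Y')) / Y' = -(X' / Y') := by
        field_simp
        ring
      have hsmall : A.valuation (((Y : Qb) - (Z : Qb)) / (Y : Qb)) < A.valuation 16 := by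
        rw [er, Valuation.map_neg, map_div₀, hvY, div_one, hc1]
        exact hvlt X hℓX
      have hJne : Jfun (X : Qb) (Y : Qb) ∉ A := by
        have h1 := one_lt_val_jl hv (div_ne_zero (by
          rw [hZc]; ring_nf; exact neg_ne_zero.mpr hXq) hYq) hsmall
        rw [← Jfun_eq_jl hYq, hZc, Jfun_rot2] at h1
        rw [← A.valuation_le_one_iff, not_le]
        exact h1
      have hJ := hcan hJne
      have hstep := config_step hodd hp3 A (u := (Y : Qb)) (w := (Z : Qb)) (u' := Y')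
        (w' := X' + Y') hYq (by rw [hZc]; ring_nf; exact neg_ne_zero.mpr hXq)
        hY' hZ' (by ring_nf; exact neg_ne_zero.mpr hX') hsmall
        (by rw [Jfun_rot2, hZc, Jfun_rot2]; exact hJ) hF2
      obtain ⟨hr', hrel⟩ := hstep
      rw [er, er', Valuation.map_neg, Valuation.map_neg, hc1, one_pow, mul_one, mul_one] at hrel
      rw [er', Valuation.map_neg] at hr'
      have hx0 : A.valuation ((X : Qb) / Y) ≠ 0 :=
        (Valuation.ne_zero_iff _).mpr (div_ne_zero hXq hYq)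
      have e : A.valuation (Y' / X') = (A.valuation (X' / Y'))⁻¹ := by
        rw [← map_inv₀, inv_div]
      have hxp : A.valuation (Y' / X') * A.valuation ((X : Qb) / Y) ^ p = 1 := by
        rw [e, hrel]
        exact inv_mul_cancel₀ (pow_ne_zero p hx0)
      constructor
      · rw [map_div₀, map_mul, map_mul, map_pow, map_pow, hc1, one_pow, mul_one, div_one]
        exact hxp
      · have e1 : (X' + Y') / X' = (1 - -(X' / Y')) * (Y' / X') := by
          field_simp
          ring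
        have h1 : A.valuation (1 - -(X' / Y')) = 1 :=
          Valuation.map_one_sub_of_lt _ (by rwa [Valuation.map_neg])
        have e2 : A.valuation ((X : Qb) / Z) = A.valuation ((X : Qb) / Y) := by
          rw [map_div₀, map_div₀, hvY, hvZ]
        rw [map_mul, map_pow, e1, map_mul, h1, one_mul, e2]
        exact hxp
    · by_cases hℓZ : (ℓ : ℤ) ∣ Z
      · -- configuration 0: `(u, w) = (X, -Y)`, `u - w = Z`; `ℓ` odd
        have h2 : ℓ ≠ 2 := hodd_of_dvd Z hZ hℓZ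
        have hc1 := h16odd h2
        have hvX := hvint X hℓX
        have hvY := hvint Y hℓY
        have er : ((X : Qb) - (-(Y : Qb))) / (X : Qb) = (Z : Qb) / X := by
          rw [hZc]
          ring
        have er' : (X' - (-Y')) / X' = (X' + Y') / X' := by ring
        have hsmall : A.valuation (((X : Qb) - (-(Y : Qb))) / (X : Qb)) < A.valuation 16 := by
          rw [er, map_div₀, hvX, div_one, hc1]
          exact hvlt Z hℓZ
        have hJne : Jfun (X : Qb) (Y : Qb) ∉ A := by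
          have h1 := one_lt_val_jl hv (div_ne_zero (by
            rw [sub_neg_eq_add, ← hZc]; exact hZq) hXq) hsmall
          rw [← Jfun_eq_jl hXq, Jfun_rot0] at h1
          rw [← A.valuation_le_one_iff, not_le]
          exact h1
        have hJ := hcan hJne
        have hstep := config_step hodd hp3 A (u := (X : Qb)) (w := -(Y : Qb)) (u' := X')
          (w' := -Y') hXq (by rw [sub_neg_eq_add, ← hZc]; exact hZq)
          hX' (neg_ne_zero.mpr hY') (by rw [sub_neg_eq_add]; exact hZ') hsmall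
          (by rw [Jfun_rot0, Jfun_rot0]; exact hJ) hF0
        obtain ⟨hr', hrel⟩ := hstep
        rw [er, er', hc1, one_pow, mul_one, mul_one] at hrel
        rw [er'] at hr'
        have hz0 : A.valuation ((Z : Qb) / X) ≠ 0 :=
          (Valuation.ne_zero_iff _).mpr (div_ne_zero hZq hXq)
        constructor
        · have e1 : Y' / X' = -(1 - (X' + Y') / X') := by
            field_simp
            ring
          have h1 : A.valuation (Y' / X') = 1 := by
            rw [e1, Valuation.map_neg]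
            exact Valuation.map_one_sub_of_lt _ hr'
          rw [map_div₀, map_mul, map_mul, map_pow, map_pow, hc1, h1, map_div₀, hvX, hvY]
          simp
        · have e : A.valuation ((X : Qb) / Z) = (A.valuation ((Z : Qb) / X))⁻¹ := by
            rw [← map_inv₀, inv_div]
          rw [map_mul, map_pow, hrel, e, ← mul_pow, mul_inv_cancel₀ hz0, one_pow]
      · -- good place: everything is a unit; `ℓ` is odd since `2 ∣ Y`
        have h2 : ℓ ≠ 2 := by
          rintro rfl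
          apply hℓY
          exact dvd_trans (by norm_num) hY32
        have hc1 := h16odd h2
        have hvX := hvint X hℓX
        have hvY := hvint Y hℓY
        have hvZ := hvint Z hℓZ
        -- `j(E) ∈ A`
        have er : (-(X : Qb) - (-(Z : Qb))) / (-(X : Qb)) = -((Y : Qb) / X) := by
          rw [hZc]
          field_simp
          ring
        have er1 : 1 - -((Y : Qb) / X) = (Z : Qb) / X := by
          rw [hZc]
          field_simp
          ring
        have er' : (-X' - (-(X' + Y'))) / (-X') = -(Y' / X') := by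
          field_simp
          ring
        have hJA : Jfun (X : Qb) (Y : Qb) ∈ A := by
          rw [← A.valuation_le_one_iff]
          have h1 : A.valuation (jl (-((Y : Qb) / X))) ≤ A.valuation 16 ^ 2 :=
            val_jl_le_of_units (by rw [Valuation.map_neg, map_div₀, hvX, hvY, div_one])
              (by rw [er1, map_div₀, hvX, hvZ, div_one])
          rw [hc1, one_pow, ← er, ← Jfun_eq_jl (neg_ne_zero.mpr hXq), hZc, Jfun_rot1] at h1
          exact h1
        have hJ'A : Jfun X' Y' ∈ A := mem_of_phi A hJA hΦ0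
        have hJ'le : A.valuation (jl (-(Y' / X'))) ≤ 1 := by
          rw [← er', ← Jfun_eq_jl (neg_ne_zero.mpr hX'), Jfun_rot1, A.valuation_le_one_iff]
          exact hJ'A
        have er1' : 1 - -(Y' / X') = (X' + Y') / X' := by
          field_simp
          ring
        obtain ⟨hu1, hu2⟩ := units_of_val_jl_le_one hc1
          (neg_ne_zero.mpr (div_ne_zero hY' hX')) (by rw [er1']; exact div_ne_zero hZ' hX') hJ'le
        rw [Valuation.map_neg] at hu1
        rw [er1'] at hu2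
        constructor
        · rw [map_div₀, map_mul, map_mul, map_pow, map_pow, hc1, hu1, map_div₀, hvX, hvY]
          simp
        · rw [map_mul, map_pow, hu2, map_div₀, hvX, hvZ]
          simp

theorem sixteen_pow_eq (n : ℕ) (hn : 1 ≤ n) : (16 : Qb) ^ n = 16 * 2 ^ (4 * n - 4) := by
  obtain ⟨k, rfl⟩ : ∃ k, n = k + 1 := ⟨n - 1, by omega⟩
  have : 4 * (k + 1) - 4 = 4 * k := by omega
  rw [this, pow_succ, pow_mul]
  norm_num
  ring

/-- **block (N)**: the partition step. -/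
theorem no_partition (hp5 : 5 ≤ p) {X Y Z : ℤ} (hsum : X + Y = Z) (hX : Odd X) (hZ : Odd Z)
    (hY32 : 32 ∣ Y) (hY0 : Y ≠ 0) (hXY : IsCoprime X Y)
    {X' Y' : Qb} (hX' : X' ≠ 0) (hY' : Y' ≠ 0) (hZ' : X' + Y' ≠ 0)
    (hfX : ∀ σ : GQ, σ X' = X') (hfY : ∀ σ : GQ, σ Y' = Y')
    (hΦ0 : biEval₂ iQb (phiZ p) (Jfun X' Y') (Jfun (X : Qb) (Y : Qb)) = 0)
    (hcan : ∀ ℓ : ℕ, ℓ.Prime → ∀ A : ValuationSubring Qb, A.LiesOverPrime ℓ →
      Jfun (X : Qb) (Y : Qb) ∉ A →
      A.valuation (Jfun X' Y' * ((Jfun (X : Qb) (Y : Qb))⁻¹) ^ p) = 1)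
    (hF0 : biEval₂ iQb (phiZ p) (Ffun X' (-Y')) (Ffun (X : Qb) (-(Y : Qb))) = 0)
    (hF1 : biEval₂ iQb (phiZ p) (Ffun (-X') (-(X' + Y'))) (Ffun (-(X : Qb)) (-(Z : Qb))) = 0)
    (hF2 : biEval₂ iQb (phiZ p) (Ffun Y' (X' + Y')) (Ffun (Y : Qb) (Z : Qb)) = 0) : False := by
  have hpp : p.Prime := Fact.out
  have hodd : Odd p := hpp.odd_of_ne_two (by omega)
  have hp3 : 3 ≤ p := by omega
  have hunits := fun (ℓ : ℕ) (hℓ : ℓ.Prime) (A : ValuationSubring Qb) (hA : A.LiesOverPrime ℓ) =>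
    units_at_place hodd hp3 hsum hX hZ hY32 hY0 hXY hX' hY' hZ' hΦ0 hF0 hF1 hF2 hℓ A hA
      (hcan ℓ hℓ A hA)
  have hfixY : ∀ σ : GQ, σ (ratioY p X Y X' Y') = ratioY p X Y X' Y' := by
    intro σ
    unfold ratioY
    simp only [map_div₀, map_mul, map_pow, hfX, hfY, map_intCast, map_ofNat]
  have hfixZ : ∀ σ : GQ, σ (ratioZ p X Z X' Y') = ratioZ p X Z X' Y' := by
    intro σ
    unfold ratioZ
    simp only [map_div₀, map_mul, map_pow, map_add, hfX, hfY, map_intCast]
  have hUY := eq_one_or_neg_one_of_forall_val hfixY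
    (fun ℓ hℓ A hA => (hunits ℓ hℓ A hA).1)
  have hUZ := eq_one_or_neg_one_of_forall_val hfixZ
    (fun ℓ hℓ A hA => (hunits ℓ hℓ A hA).2)
  obtain ⟨εY, hεY, hUY'⟩ : ∃ ε : ℤ, (ε = 1 ∨ ε = -1) ∧ ratioY p X Y X' Y' = ((ε : ℤ) : Qb) := by
    rcases hUY with h | h
    · exact ⟨1, Or.inl rfl, by rw [h]; simp⟩
    · exact ⟨-1, Or.inr rfl, by rw [h]; simp⟩
  obtain ⟨εZ, hεZ, hUZ'⟩ : ∃ ε : ℤ, (ε = 1 ∨ ε = -1) ∧ ratioZ p X Z X' Y' = ((ε : ℤ) : Qb) := by
    rcases hUZ with h | h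
    · exact ⟨1, Or.inl rfl, by rw [h]; simp⟩
    · exact ⟨-1, Or.inr rfl, by rw [h]; simp⟩
  have hX0 : X ≠ 0 := by
    rintro rfl
    simp at hX
  have hZ0 : Z ≠ 0 := by
    rintro rfl
    simp at hZ
  have hXq : (X : Qb) ≠ 0 := Int.cast_ne_zero.mpr hX0
  have hYq : (Y : Qb) ≠ 0 := Int.cast_ne_zero.mpr hY0
  have hZq : (Z : Qb) ≠ 0 := Int.cast_ne_zero.mpr hZ0
  unfold ratioY at hUY'
  unfold ratioZ at hUZ'
  rw [sixteen_pow_eq p (by omega)] at hUY'
  -- `a T X^p = εY Y^p`, `(1 + a) X^p = εZ Z^p` with `a = Y'/X'`, `T = 2^(4p-4)`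
  have h1 : Y' / X' * 2 ^ (4 * p - 4) * (X : Qb) ^ p = (εY : Qb) * (Y : Qb) ^ p := by
    rw [← hUY', div_pow]
    field_simp
  have h2 : (1 + Y' / X') * (X : Qb) ^ p = (εZ : Qb) * (Z : Qb) ^ p := by
    rw [← hUZ', div_pow]
    field_simp
  have key : (((1 * 2 ^ (4 * p - 4) * X ^ p + εY * Y ^ p : ℤ) : ℤ) : Qb) =
      (((εZ * 2 ^ (4 * p - 4) * Z ^ p : ℤ) : ℤ) : Qb) := by
    push_cast
    linear_combination -h1 + (2 : Qb) ^ (4 * p - 4) * h2
  have hrel : 1 * 2 ^ (4 * p - 4) * X ^ p + εY * Y ^ p = εZ * 2 ^ (4 * p - 4) * Z ^ p :=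
    Int.cast_injective key
  exact endgame hodd hp5 hsum hX hY0 hZ (Or.inl rfl) hεY hεZ hrel

/-- **block (N) in the shape of helper5's `partner_Qb`**: `x i` the abscissas of the three
`2`-torsion points of `E` (`x 1 - x 0 = c X`, `x 0 - x 2 = c Y`), `D i j` the Vélu differences
`veluDiff E Q (T i) (T j) p` of `E' = E / ⟨Q⟩`. -/
theorem no_partition_of_partner (hp5 : 5 ≤ p) {X Y Z : ℤ} (hsum : X + Y = Z) (hX : Odd X)
    (hZ : Odd Z) (hY32 : 32 ∣ Y) (hY0 : Y ≠ 0) (hXY : IsCoprime X Y)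
    {c : Qb} (hc : c ≠ 0) {x : Fin 3 → Qb} (hx10 : x 1 - x 0 = c * (X : Qb))
    (hx02 : x 0 - x 2 = c * (Y : Qb))
    {D : Fin 3 → Fin 3 → Qb} (hD01 : D 0 1 = -D 1 0) (hD20 : D 2 0 = -D 0 2)
    (hD12 : D 1 2 = D 1 0 + D 0 2) (hD21 : D 2 1 = -(D 1 0 + D 0 2))
    (hne : ∀ i j : Fin 3, i ≠ j → D i j ≠ 0) (hfix : ∀ (σ : GQ) (i j : Fin 3), σ (D i j) = D i j)
    {a₀ b₀ : Qb} (ha₀ : a₀ = Jfun (x 1 - x 0) (x 0 - x 2)) (hb₀ : b₀ = Jfun (D 1 0) (D 0 2))
    (hΦ0 : biEval₂ iQb (phiZ p) b₀ a₀ = 0)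
    (hcan : ∀ ℓ : ℕ, ℓ.Prime → ∀ A : ValuationSubring Qb, A.LiesOverPrime ℓ → a₀ ∉ A →
      A.valuation (b₀ * (a₀⁻¹) ^ p) = 1)
    (hF : ∀ i j k : Fin 3, i ≠ j → i ≠ k → j ≠ k →
      biEval₂ iQb (phiZ p) (Ffun (D j i) (D k i)) (Ffun (x j - x i) (x k - x i)) = 0) :
    False := by
  have hZc : (Z : Qb) = (X : Qb) + (Y : Qb) := by
    rw [← hsum]
    push_cast
    rfl
  have ha₀' : a₀ = Jfun (X : Qb) (Y : Qb) := by
    rw [ha₀, hx10, hx02, Jfun_smul hc]
  have hx12 : x 1 - x 2 = c * (Z : Qb) := by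
    have : x 1 - x 2 = (x 1 - x 0) + (x 0 - x 2) := by ring
    rw [this, hx10, hx02, hZc]
    ring
  have hF0 := hF 0 1 2 (by decide) (by decide) (by decide)
  have hF1 := hF 1 0 2 (by decide) (by decide) (by decide)
  have hF2 := hF 2 0 1 (by decide) (by decide) (by decide)
  have e0 : Ffun (x 1 - x 0) (x 2 - x 0) = Ffun (X : Qb) (-(Y : Qb)) := by
    have : x 2 - x 0 = c * (-(Y : Qb)) := by
      have : x 2 - x 0 = -(x 0 - x 2) := by ring
      rw [this, hx02]
      ring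
    rw [hx10, this, Ffun_smul hc]
  have e1 : Ffun (x 0 - x 1) (x 2 - x 1) = Ffun (-(X : Qb)) (-(Z : Qb)) := by
    have h1 : x 0 - x 1 = c * (-(X : Qb)) := by
      have : x 0 - x 1 = -(x 1 - x 0) := by ring
      rw [this, hx10]
      ring
    have h2 : x 2 - x 1 = c * (-(Z : Qb)) := by
      have : x 2 - x 1 = -(x 1 - x 2) := by ring
      rw [this, hx12]
      ring
    rw [h1, h2, Ffun_smul hc]
  have e2 : Ffun (x 0 - x 2) (x 1 - x 2) = Ffun (Y : Qb) (Z : Qb) := by
    rw [hx02, hx12, Ffun_smul hc]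
  rw [e0, hD20] at hF0
  rw [e1, hD01, hD21] at hF1
  rw [e2, hD12] at hF2
  rw [ha₀', hb₀] at hΦ0
  refine no_partition hp5 hsum hX hZ hY32 hY0 hXY (hne 1 0 (by decide)) (hne 0 2 (by decide))
    (by rw [← hD12]; exact hne 1 2 (by decide)) (fun σ => hfix σ 1 0) (fun σ => hfix σ 0 2) hΦ0
    (fun ℓ hℓ A hA hnot => ?_) hF0 hF1 hF2
  have := hcan ℓ hℓ A hA (by rw [ha₀']; exact hnot)
  rw [ha₀', hb₀] at this
  exact this

end Place

end Fermat.Agent.S12lib
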