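/-
S12lib / Assembly  (helper9) — S12, block (X), second half: the assembly.

`s12_of_atP : AtPStmt → ∀ P, 17 ≤ P.p → ¬ HasGaloisStableCofixedLine ℚ P.freyCurve P.p`

from
* (C)  helper6 `frey_cofixed_generator`, (FM) helper2 `freyModelStmt`;
* (X₁) `frey_canonical` (`S12lib/Canon.lean`: (K) + (D) + (G) + the hypothesis (P));
* (F)  helper7 `frey_arith`, `frey_two_torsion_diff`;
* (L)  helper3 + helper5 `Part.partner_Qb`, `Part.veluDiff_galois`, `Part.veluDiff_swap/add`;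
* (N) + (Z) helper1 `no_partition_of_partner`.
-/
import Mathlib
import Fermat.Agent.S12lib.Canon
import Fermat.Agent.S12lib.FreyTors
import Fermat.Agent.S12lib.Part.Qb
import Fermat.Agent.S12lib.Partition

set_option autoImplicit false
set_option linter.style.haveILetI false

noncomputable section

namespace Fermat.Agent.S12lib

open WeierstrassCurve WeierstrassCurve.Affine WeierstrassCurve.Affine.Point
open Fermat.Agent.S15lib Fermat.Agent.S15lib.Dict Fermat.Agent.S15lib.Dict.EL2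
open Fermat.Agent.S12lib.Part

local notation "Qb" => AlgebraicClosure ℚ
local notation "GQ" => (AlgebraicClosure ℚ ≃ₐ[ℚ] AlgebraicClosure ℚ)

/-- **S12 from the block (P)**: the Frey curve has no Galois-stable cofixed line for `p ≥ 17`. -/
theorem s12_of_atP (hAtP : AtPStmt) (P : FreyPackage) (hp17 : 17 ≤ P.p) :
    ¬ HasGaloisStableCofixedLine (K := AlgebraicClosure ℚ) ℚ P.freyCurve P.p := by
  classical
  intro h
  obtain ⟨hFM, hΔ, -⟩ := freyModelStmt P
  obtain ⟨Q, hQord, -, hst, hcof, hne⟩ := frey_cofixed_generator P hFM hΔ h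
  have hp : P.p.Prime := P.pp
  haveI : Fact P.p.Prime := ⟨hp⟩
  have hp2 : P.p ≠ 2 := by omega
  have hEΔ0 : ((P.freyCurveInt.map (Int.castRingHom ℚ) : WeierstrassCurve ℚ)⁄Qb).Δ ≠ 0 := by
    rw [bc_Δ]
    exact_mod_cast hΔ
  obtain ⟨hsum, hX, hZ, hY32, hY0, hXY⟩ := frey_arith P
  obtain ⟨T, hT, hinj, hTfix, hx10, hx02, -⟩ := frey_two_torsion_diff P
  obtain ⟨hDne, ha₀, hb₀, hF⟩ := partner_Qb hp2 _ hEΔ0 Q hQord T hT hinj
  obtain ⟨-, hΦ0⟩ := veluQbStmt_closed hp2 _ hEΔ0 Q hQord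
  have hcan := frey_canonical hAtP P hp17 Q hQord hst hcof hne
  rw [← bc_c₄, ← bc_Δ] at hcan
  refine no_partition_of_partner (p := P.p) (by omega) hsum hX hZ hY32 hY0 hXY
    (c := (1 / 4 : Qb)) (by norm_num) (x := fun i => ptX (T i)) hx10 hx02
    (D := fun i j => veluDiff ((P.freyCurveInt.map (Int.castRingHom ℚ) : WeierstrassCurve ℚ)⁄Qb)
      Q (T i) (T j) P.p)
    (veluDiff_swap _ Q (T 0) (T 1) P.p) (veluDiff_swap _ Q (T 2) (T 0) P.p)
    (veluDiff_add _ Q (T 1) (T 0) (T 2) P.p).symm ?_ hDne ?_ ha₀ hb₀ hΦ0 hcan hF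
  · show veluDiff _ Q (T 2) (T 1) P.p = -(veluDiff _ Q (T 1) (T 0) P.p + veluDiff _ Q (T 0) (T 2) P.p)
    rw [veluDiff_add, veluDiff_swap]
  · intro σ i j
    exact veluDiff_galois (P.freyCurveInt.map (Int.castRingHom ℚ)) σ hQord (hst σ) (hTfix σ i)
      (hTfix σ j)

end Fermat.Agent.S12lib
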