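/-
S12lib / AtPa  (helper3) — S12, block (P)(a): a Galois-stable line of the Frey curve is RAMIFIED at
every place over `p`.

If the inertia group of some `A ∣ p` acted trivially on a Galois-stable line `N ⊂ E[p]`, the
pointwise stabiliser of `N` (an open normal subgroup of `G_ℚ`) would contain an inertia group over
every prime (away from `p`: inertia acts unipotently, `S13lib.frey_huni` + `unipotent_line`), hence
be everything (Minkowski, `S13lib.asm_hmink`); but no nonzero `p`-torsion point of the Frey curve is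
rational (`S13lib.frey_hfix`).  This is the first branch of `S13lib.hasCofixedLine_of_bricks`, run at
a GIVEN place `A` (Minkowski only needs one place over each prime and the stabiliser is normal).
-/
import Fermat.Agent.S13lib.Assembly
import Fermat.Agent.S13lib.TorsionPrime
import Fermat.Agent.S13lib.FreyAway
import Fermat.Agent.S13lib.FreyTop

set_option autoImplicit false
set_option linter.style.haveILetI false

namespace Fermat.Agent.S12lib

open WeierstrassCurve WeierstrassCurve.Affine WeierstrassCurve.Affine.Point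
open Fermat.Agent.S13lib

/-- **(P)(a)**: a Galois-stable line of the Frey curve is not fixed pointwise by the inertia group
of any place over `p`. -/
theorem frey_line_ramified_at_p (P : FreyPackage)
    (N : Submodule (ZMod P.p)
      (Submodule.torsionBy ℤ ((P.freyCurve : Affine ℚ)⁄(AlgebraicClosure ℚ)).Point P.p))
    (hst : IsGaloisStable ℚ N) (hbot : N ≠ ⊥) (htop : N ≠ ⊤)
    (A : ValuationSubring (AlgebraicClosure ℚ)) (hA : A.LiesOverPrime P.p) :
    ∃ τ ∈ A.inertiaSubgroupIn ℚ, ∃ x ∈ N, τ • x ≠ x := by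
  haveI : Fact P.p.Prime := ⟨P.pp⟩
  by_contra hcon
  push Not at hcon
  obtain ⟨hnt, hfin, hcard⟩ := frey_torsion_facts P
  obtain ⟨hcV, hcN⟩ := card_eq_of_ne_bot_ne_top hcard N hbot htop
  have hH0 := isOpen_stabAll (asm_hopen (P.freyCurve : Affine ℚ) P.p)
  have hH1 : IsOpen (stabSub (P.freyCurve : Affine ℚ) P.p N : Set GQ) :=
    Subgroup.isOpen_mono (stabAll_le_stabSub N) hH0
  have htop1 : stabSub (P.freyCurve : Affine ℚ) P.p N = ⊤ := by
    refine asm_hmink _ (stabSub_normal N hst) hH1 (fun ℓ hℓ => ?_)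
    by_cases hℓp : ℓ = P.p
    · subst hℓp
      exact ⟨A, hA, fun σ hσ => hcon σ hσ⟩
    · obtain ⟨A', hA'⟩ := asm_hex ℓ hℓ
      refine ⟨A', hA', fun σ hσ => ?_⟩
      exact (unipotent_line hcV N hcN σ (hst σ) (frey_huni P ℓ hℓ hℓp A' hA' σ hσ)).1
  apply hbot
  rw [Submodule.eq_bot_iff]
  intro x hx
  apply frey_hfix P x
  intro σ
  have : σ ∈ stabSub (P.freyCurve : Affine ℚ) P.p N := by
    rw [htop1]
    exact Subgroup.mem_top σ
  exact this x hx

/-- a Galois-stable proper line `⟨Q⟩` in generator form, as a Prelude `Submodule` of `E[p]` -/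
theorem exists_stable_line_of_generator (W' : WeierstrassCurve ℚ) {p : ℕ} (hp : p.Prime)
    (Q : ((W' : Affine ℚ)⁄(AlgebraicClosure ℚ)).Point) (hQord : addOrderOf Q = p)
    (hst : ∀ σ : AlgebraicClosure ℚ ≃ₐ[ℚ] AlgebraicClosure ℚ, σ • Q ∈ AddSubgroup.zmultiples Q)
    (hprop : ∃ x : ((W' : Affine ℚ)⁄(AlgebraicClosure ℚ)).Point,
      p • x = 0 ∧ x ∉ AddSubgroup.zmultiples Q) :
    ∃ N : Submodule (ZMod p)
        (Submodule.torsionBy ℤ ((W' : Affine ℚ)⁄(AlgebraicClosure ℚ)).Point p),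
      IsGaloisStable ℚ N ∧ N ≠ ⊥ ∧ N ≠ ⊤ ∧
        ∀ x : Submodule.torsionBy ℤ ((W' : Affine ℚ)⁄(AlgebraicClosure ℚ)).Point p,
          x ∈ N ↔ x.1 ∈ AddSubgroup.zmultiples Q := by
  haveI : Fact p.Prime := ⟨hp⟩
  have hpQ : p • Q = 0 := by
    rw [← hQord]
    exact addOrderOf_nsmul_eq_zero Q
  have hQmem : Q ∈ Submodule.torsionBy ℤ ((W' : Affine ℚ)⁄(AlgebraicClosure ℚ)).Point p := by
    rw [Submodule.mem_torsionBy_iff, Nat.cast_smul_eq_nsmul]
    exact hpQ
  set Q' : Submodule.torsionBy ℤ ((W' : Affine ℚ)⁄(AlgebraicClosure ℚ)).Point p :=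
    ⟨Q, hQmem⟩ with hQ'
  have hmem : ∀ x : Submodule.torsionBy ℤ ((W' : Affine ℚ)⁄(AlgebraicClosure ℚ)).Point p,
      x ∈ Submodule.span (ZMod p) {Q'} → x.1 ∈ AddSubgroup.zmultiples Q := by
    intro x hx
    obtain ⟨c, rfl⟩ := Submodule.mem_span_singleton.1 hx
    obtain ⟨n, rfl⟩ := ZMod.natCast_zmod_surjective c
    rw [Nat.cast_smul_eq_nsmul]
    exact AddSubgroup.nsmul_mem _ (AddSubgroup.mem_zmultiples Q) n
  have hmem' : ∀ x : Submodule.torsionBy ℤ ((W' : Affine ℚ)⁄(AlgebraicClosure ℚ)).Point p,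
      x.1 ∈ AddSubgroup.zmultiples Q → x ∈ Submodule.span (ZMod p) {Q'} := by
    intro x hx
    obtain ⟨k, hk⟩ := AddSubgroup.mem_zmultiples_iff.1 hx
    have : x = (k : ZMod p) • Q' := by
      apply Subtype.ext
      rw [Int.cast_smul_eq_zsmul]
      exact hk.symm
    rw [this]
    exact Submodule.smul_mem _ _ (Submodule.mem_span_singleton_self Q')
  refine ⟨Submodule.span (ZMod p) {Q'}, ?_, ?_, ?_, fun x => ⟨hmem x, hmem' x⟩⟩
  · intro σ x hx
    apply hmem'
    obtain ⟨k, hk⟩ := AddSubgroup.mem_zmultiples_iff.1 (hmem x hx)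
    show σ • (x : ((W' : Affine ℚ)⁄(AlgebraicClosure ℚ)).Point) ∈ _
    rw [← hk, algEquiv_smul_zsmul]
    exact AddSubgroup.zsmul_mem _ (hst σ) k
  · intro h
    have h1 : Q' ∈ (⊥ : Submodule (ZMod p) _) := by
      rw [← h]
      exact Submodule.mem_span_singleton_self Q'
    have h2 : Q = 0 := congrArg Subtype.val ((Submodule.mem_bot _).1 h1)
    rw [h2, addOrderOf_zero] at hQord
    exact hp.one_lt.ne' hQord.symm
  · intro h
    obtain ⟨x, hpx, hx⟩ := hprop
    have hxmem : x ∈ Submodule.torsionBy ℤ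
        ((W' : Affine ℚ)⁄(AlgebraicClosure ℚ)).Point p := by
      rw [Submodule.mem_torsionBy_iff, Nat.cast_smul_eq_nsmul]
      exact hpx
    apply hx
    exact hmem ⟨x, hxmem⟩ (by rw [h]; exact Submodule.mem_top)

/-- **(P)(a), pointwise**: in the shape of helper6's `frey_cofixed_generator`.  A generator `Q` of a
Galois-stable proper line of (a model `W'` of) the Frey curve is moved by the inertia group of every
place over `p`. -/
theorem frey_generator_ramified_at_p (P : FreyPackage) {W' : WeierstrassCurve ℚ}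
    (hW : P.freyCurve = W') (Q : ((W' : Affine ℚ)⁄(AlgebraicClosure ℚ)).Point)
    (hQord : addOrderOf Q = P.p)
    (hst : ∀ σ : AlgebraicClosure ℚ ≃ₐ[ℚ] AlgebraicClosure ℚ, σ • Q ∈ AddSubgroup.zmultiples Q)
    (hprop : ∃ x : ((W' : Affine ℚ)⁄(AlgebraicClosure ℚ)).Point,
      P.p • x = 0 ∧ x ∉ AddSubgroup.zmultiples Q)
    (A : ValuationSubring (AlgebraicClosure ℚ)) (hA : A.LiesOverPrime P.p) :
    ∃ τ ∈ A.inertiaSubgroupIn ℚ, τ • Q ≠ Q := by
  subst hW
  obtain ⟨N, hstN, hbot, htop, hN⟩ :=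
    exists_stable_line_of_generator P.freyCurve P.pp Q hQord hst hprop
  obtain ⟨τ, hτ, x, hx, hne⟩ := frey_line_ramified_at_p P N hstN hbot htop A hA
  refine ⟨τ, hτ, fun hfix => hne ?_⟩
  obtain ⟨k, hk⟩ := AddSubgroup.mem_zmultiples_iff.1 ((hN x).1 hx)
  apply Subtype.ext
  show τ • (x : ((P.freyCurve : Affine ℚ)⁄(AlgebraicClosure ℚ)).Point) = x
  rw [← hk, algEquiv_smul_zsmul, hfix]

end Fermat.Agent.S12lib
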