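/-
S12lib / AtPc  (helper7) — S12 one-step route, block (P), part (c):
at a prime `p` of multiplicative reduction the `p`-torsion is NOT contained in `E⁰(A)`, `A ∣ p`.

* `nsmul_eq_zero_of_node_charP` : a nodal cubic over an algebraically closed field of
  characteristic `p` has no nonsingular point of order `p` (`W_ns ≅ kˣ`, `u ^ p = 1 ⇒ u = 1`);
* `nsmul_red_eq_zero` : if a point of odd order `n = 2m+1` has integral coordinates and a nonsingular
  reduction, then the reduction is killed by `n` (the ladder polynomial `ladF W m ∈ ℤ[X]` reduces);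
  no hypothesis on the residue characteristic;
* `exists_torsion_not_inZero_at_p` : the statement, from `S13lib.exists_not_inE1_of_int_model`
  (Eisenstein: a Galois-stable line forces a `p`-torsion point outside the kernel of reduction).
-/
import Mathlib
import Fermat.Prelude.Def_EllipticCurve_ZeroComponentAt
import Fermat.Agent.S13lib.NotInE1Leg
import Fermat.Agent.S15lib.Dict.EL2.Nodal
import Fermat.Agent.S58lib.Mult.Normal
import Fermat.Agent.S58lib.Red.Hom
import Fermat.Agent.S18lib.Gink.Residue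
import Fermat.Agent.S41lib.NE.TorsionCard

set_option autoImplicit false

noncomputable section

namespace Fermat.Agent.S12lib

open IsLocalRing WeierstrassCurve WeierstrassCurve.Affine WeierstrassCurve.Affine.Point Polynomial
open Fermat.Agent.S05lib Fermat.Agent.S13lib Fermat.Agent.S41lib.NE
open Fermat.Agent.S58lib.Mult Fermat.Agent.S58lib.Red Fermat.Agent.S15lib.Dict.EL2

local notation "Qb" => AlgebraicClosure ℚ
local notation "GQ" => (AlgebraicClosure ℚ ≃ₐ[ℚ] AlgebraicClosure ℚ)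

/-- **a nodal cubic in characteristic `p` has no nonsingular point of order `p`** -/
theorem nsmul_eq_zero_of_node_charP {k : Type*} [Field k] [DecidableEq k] [IsAlgClosed k]
    (W : WeierstrassCurve k) (hΔ : W.Δ = 0) (hc₄ : W.c₄ ≠ 0) {p : ℕ} [Fact p.Prime] [CharP k p]
    {P : W.toAffine.Point} (hP : p • P = 0) : P = 0 := by
  obtain ⟨C, hC⟩ := exists_variableChange_nodal W hΔ hc₄
  set e := Fermat.Agent.S51lib.vcEquiv' W C hC with he
  obtain ⟨u, hu⟩ := gm_surjective (e.symm P)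
  have h1 : p • gm u = 0 := by
    rw [hu, ← map_nsmul, hP, _root_.map_zero]
  rw [nsmul_gm, gm_eq_zero_iff] at h1
  have h2 : ((u : k)) ^ p = 1 ^ p := by
    rw [one_pow, ← Units.val_pow_eq_pow_val, h1, Units.val_one]
  have h3 : (u : k) = 1 := frobenius_inj k p h2
  have h4 : u = 1 := Units.ext h3
  have h5 : e.symm P = 0 := by rw [← hu, h4]; exact gm_of_eq_one rfl
  exact (AddEquiv.map_eq_zero_iff e.symm).mp h5

/-- evaluating an integral polynomial at an element of a valuation ring commutes with reduction -/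
theorem eval₂_residue_eq_zero {L : Type*} [Field L] (A : ValuationSubring L) (f : ℤ[X]) {x : L}
    (hx : x ∈ A) (h : f.eval₂ (Int.castRingHom L) x = 0) :
    f.eval₂ (Int.castRingHom (ResidueField A)) (residue A ⟨x, hx⟩) = 0 := by
  have e1 : A.subtype (f.eval₂ (Int.castRingHom A) ⟨x, hx⟩) =
      f.eval₂ (Int.castRingHom L) x := by
    rw [Polynomial.hom_eval₂]
    congr 1
  have h0 : f.eval₂ (Int.castRingHom A) ⟨x, hx⟩ = 0 := by
    apply Subtype.ext
    have : ((f.eval₂ (Int.castRingHom A) ⟨x, hx⟩ : A) : L) = 0 := by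
      rw [← h, ← e1]; rfl
    exact this
  have e2 : residue A (f.eval₂ (Int.castRingHom A) ⟨x, hx⟩) =
      f.eval₂ (Int.castRingHom (ResidueField A)) (residue A ⟨x, hx⟩) := by
    rw [Polynomial.hom_eval₂]
    congr 1
  rw [← e2, h0, _root_.map_zero]

/-- **the reduction of a point of odd order `n` is killed by `n`** (integral coordinates,
nonsingular reduction; any residue characteristic) -/
theorem nsmul_red_eq_zero (W : WeierstrassCurve ℤ) (A : ValuationSubring Qb)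
    [DecidableEq (ResidueField A)] (m : ℕ) {x y : Qb}
    (h : ((W.map (Int.castRingHom ℚ))⁄Qb).toAffine.Nonsingular x y) (hx : x ∈ A) (hy : y ∈ A)
    (hb : (W.map (Int.castRingHom (ResidueField A))).toAffine.Nonsingular
      (residue A ⟨x, hx⟩) (residue A ⟨y, hy⟩))
    (hP : (2 * m + 1) • (Point.some x y h : ((W.map (Int.castRingHom ℚ))⁄Qb).Point) = 0) :
    (2 * m + 1) • (Point.some _ _ hb :
      (W.map (Int.castRingHom (ResidueField A))).toAffine.Point) = 0 := by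
  rw [odd_nsmul_eq_zero_iff_ladF] at hP ⊢
  have e : ladF ((W.map (Int.castRingHom ℚ))⁄Qb) m = (ladF W m).map (Int.castRingHom Qb) := by
    rw [ladF_map]
    change ladF ((W.map (Int.castRingHom ℚ)).map (algebraMap ℚ Qb)) m = _
    rw [WeierstrassCurve.map_map]
    congr 2
  rw [e, Polynomial.eval_map] at hP
  rw [← ladF_map, Polynomial.eval_map]
  exact eval₂_residue_eq_zero A _ hx hP

/-- **at a prime `p` of multiplicative reduction, `E⁰(A) ∩ E[p] ⊆ E₁(A)`** (`A ∣ p`): a `p`-torsion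
point with a nonsingular reduction would reduce to a point of order `p` of the nodal cubic. -/
theorem inE1_of_inZero_at_p (W : WeierstrassCurve ℤ) {p : ℕ} (hp : p.Prime) (hodd : p ≠ 2)
    (hpΔ : (p : ℤ) ∣ W.Δ) (hpc₄ : ¬ (p : ℤ) ∣ W.c₄)
    (A : ValuationSubring Qb) (hA : A.LiesOverPrime p)
    {x : ((W.map (Int.castRingHom ℚ))⁄Qb).Point} (hpx : p • x = 0)
    (hz : W.InZeroComponentAt A x) :
    InE1 A.valuation ((W.map (Int.castRingHom ℚ))⁄Qb).toAffine x := by
  classical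
  haveI : Fact p.Prime := ⟨hp⟩
  haveI := charP_residueField hp hA
  have : IsAlgClosed (ResidueField A) := Fermat.Agent.S18lib.Gink.isAlgClosed_residueField A
  rcases hz with h0 | ⟨x', y', h', rfl, hcase⟩
  · rw [h0]; exact trivial
  rcases hcase with hx' | ⟨hx, hy, hb⟩
  · show 1 < A.valuation x'
    rw [← not_le, A.valuation_le_one_iff]
    exact hx'
  exfalso
  -- the reduced curve is nodal
  have hΔb : (W.map (Int.castRingHom (ResidueField A))).Δ = 0 := by
    rw [WeierstrassCurve.map_Δ]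
    show ((W.Δ : ℤ) : ResidueField A) = 0
    exact (CharP.intCast_eq_zero_iff (ResidueField A) p _).mpr hpΔ
  have hc₄b : (W.map (Int.castRingHom (ResidueField A))).c₄ ≠ 0 := by
    rw [WeierstrassCurve.map_c₄]
    show ((W.c₄ : ℤ) : ResidueField A) ≠ 0
    exact fun h0 => hpc₄ ((CharP.intCast_eq_zero_iff (ResidueField A) p _).mp h0)
  obtain ⟨m, hm⟩ : ∃ m, p = 2 * m + 1 := by
    rcases hp.eq_two_or_odd' with h2 | h2
    · exact absurd h2 hodd
    · exact h2
  rw [hm] at hpx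
  have hred := nsmul_red_eq_zero W A m h' hx hy hb hpx
  rw [← hm] at hred
  exact Point.some_ne_zero _ (nsmul_eq_zero_of_node_charP _ hΔb hc₄b hred)

/-- the kernel of reduction lies in `E⁰` (any integral model, any place) -/
theorem inZero_of_inE1 (W : WeierstrassCurve ℤ) (A : ValuationSubring Qb)
    {x : ((W.map (Int.castRingHom ℚ))⁄Qb).Point}
    (hx : InE1 A.valuation ((W.map (Int.castRingHom ℚ))⁄Qb).toAffine x) :
    W.InZeroComponentAt A x := by
  rcases x with _ | ⟨x₀, y₀, h⟩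
  · exact Or.inl rfl
  · refine Or.inr ⟨x₀, y₀, h, rfl, Or.inl ?_⟩
    intro hmem
    have h1 : 1 < A.valuation x₀ := hx
    exact absurd ((A.valuation_le_one_iff _).mpr hmem) (not_le.mpr h1)

/-- **`E⁰(A) ∩ E[p]` is closed under addition at `A ∣ p`** (multiplicative reduction at `p`):
it is `E₁(A) ∩ E[p]`. -/
theorem inZero_add_at_p (W : WeierstrassCurve ℤ) {p : ℕ} (hp : p.Prime) (hodd : p ≠ 2)
    (hpΔ : (p : ℤ) ∣ W.Δ) (hpc₄ : ¬ (p : ℤ) ∣ W.c₄)
    (A : ValuationSubring Qb) (hA : A.LiesOverPrime p)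
    {x y : ((W.map (Int.castRingHom ℚ))⁄Qb).Point} (hpx : p • x = 0) (hpy : p • y = 0)
    (hx : W.InZeroComponentAt A x) (hy : W.InZeroComponentAt A y) :
    W.InZeroComponentAt A (x + y) := by
  classical
  exact inZero_of_inE1 W A (InE1.add (integralModel_baseChange_int W A)
    (inE1_of_inZero_at_p W hp hodd hpΔ hpc₄ A hA hpx hx)
    (inE1_of_inZero_at_p W hp hodd hpΔ hpc₄ A hA hpy hy))

/-- multiples -/
theorem inZero_nsmul_at_p (W : WeierstrassCurve ℤ) {p : ℕ} (hp : p.Prime) (hodd : p ≠ 2)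
    (hpΔ : (p : ℤ) ∣ W.Δ) (hpc₄ : ¬ (p : ℤ) ∣ W.c₄)
    (A : ValuationSubring Qb) (hA : A.LiesOverPrime p)
    {x : ((W.map (Int.castRingHom ℚ))⁄Qb).Point} (hpx : p • x = 0)
    (hx : W.InZeroComponentAt A x) (k : ℕ) : W.InZeroComponentAt A (k • x) := by
  classical
  have h1 := inE1_of_inZero_at_p W hp hodd hpΔ hpc₄ A hA hpx hx
  have h2 : k • x ∈ kerRed (integralModel_baseChange_int W A) :=
    AddSubgroup.nsmul_mem _ h1 k
  exact inZero_of_inE1 W A h2

/-- **(P)(c)** at a prime `p` of multiplicative reduction of an integral model, if `E[p]` has a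
Galois-stable line then some `p`-torsion point lies outside `E⁰(A)`, for every `A ∣ p`. -/
theorem exists_torsion_not_inZero_at_p (W : WeierstrassCurve ℤ) (hΔ : W.Δ ≠ 0) {p : ℕ}
    (hp : p.Prime) (hodd : p ≠ 2) (hpΔ : (p : ℤ) ∣ W.Δ) (hpc₄ : ¬ (p : ℤ) ∣ W.c₄)
    (A : ValuationSubring Qb) (hA : A.LiesOverPrime p)
    (N : Submodule (ZMod p) (Submodule.torsionBy ℤ ((W.map (Int.castRingHom ℚ))⁄Qb).Point p))
    (hst : IsGaloisStable ℚ N) (hbot : N ≠ ⊥) (htop : N ≠ ⊤) :
    ∃ x : ((W.map (Int.castRingHom ℚ))⁄Qb).Point, p • x = 0 ∧ ¬ W.InZeroComponentAt A x := by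
  classical
  obtain ⟨⟨x, hxmem⟩, hxE1⟩ := exists_not_inE1_of_int_model W (W.map (Int.castRingHom ℚ)) rfl hΔ
    hp hodd A hA N hst hbot htop
  have hpx : p • x = 0 := by
    have := (Submodule.mem_torsionBy_iff _ _).mp hxmem
    rwa [natCast_zsmul] at this
  exact ⟨x, hpx, fun hz => hxE1 (inE1_of_inZero_at_p W hp hodd hpΔ hpc₄ A hA hpx hz)⟩

/-- **(P)(d), group-theoretic half**: if the line `⟨Q⟩` lies in `E⁰(A)` (`A ∣ p`, multiplicative
reduction at `p`, `E[p]` has a Galois-stable line), then every `p`-torsion point `Q' ∉ ⟨Q⟩` has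
`⟨Q'⟩ ∩ E⁰(A) = 0`. -/
theorem not_inZero_nsmul_of_not_mem_at_p (W : WeierstrassCurve ℤ) (hΔ : W.Δ ≠ 0) {p : ℕ}
    (hp : p.Prime) (hodd : p ≠ 2) (hpΔ : (p : ℤ) ∣ W.Δ) (hpc₄ : ¬ (p : ℤ) ∣ W.c₄)
    (A : ValuationSubring Qb) (hA : A.LiesOverPrime p)
    (N : Submodule (ZMod p) (Submodule.torsionBy ℤ ((W.map (Int.castRingHom ℚ))⁄Qb).Point p))
    (hst : IsGaloisStable ℚ N) (hbot : N ≠ ⊥) (htop : N ≠ ⊤)
    {Q : ((W.map (Int.castRingHom ℚ))⁄Qb).Point} (hQord : addOrderOf Q = p)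
    (hQz : W.InZeroComponentAt A Q)
    {Q' : ((W.map (Int.castRingHom ℚ))⁄Qb).Point} (hpQ' : p • Q' = 0)
    (hQ' : Q' ∉ AddSubgroup.zmultiples Q) {k : ℕ} (hk : ¬ p ∣ k) :
    ¬ W.InZeroComponentAt A (k • Q') := by
  classical
  haveI : Fact p.Prime := ⟨hp⟩
  intro hkz
  have hpQ : p • Q = 0 := by rw [← hQord]; exact addOrderOf_nsmul_eq_zero Q
  -- `Q' ∈ E⁰`
  obtain ⟨j, hj⟩ : ∃ j : ℕ, k * j % p = 1 := by
    have hcop : Nat.Coprime k p := ((Nat.Prime.coprime_iff_not_dvd hp).2 hk).symm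
    obtain ⟨j, -, hj⟩ := Nat.exists_mul_mod_eq_one_of_coprime hcop hp.one_lt
    exact ⟨j, hj⟩
  have hQ'z : W.InZeroComponentAt A Q' := by
    have h1 : j • (k • Q') = Q' := by
      rw [← mul_nsmul]
      have hdecomp : k * j = (k * j / p) * p + 1 := by
        have := Nat.div_add_mod (k * j) p
        rw [hj] at this
        rw [mul_comm (k * j / p) p]
        exact this.symm
      rw [hdecomp, add_nsmul, mul_nsmul', one_nsmul, hpQ', nsmul_zero, zero_add]
    rw [← h1]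
    exact inZero_nsmul_at_p W hp hodd hpΔ hpc₄ A hA
      (by rw [smul_comm, hpQ', nsmul_zero]) hkz j
  -- the subgroup `H = E₁ ∩ E[p]` contains `Q`, `Q'`, hence is all of `E[p]`
  have hint := integralModel_baseChange_int W (K := Qb) A
  set T : AddSubgroup ((W.map (Int.castRingHom ℚ))⁄Qb).Point :=
    (Submodule.torsionBy ℤ ((W.map (Int.castRingHom ℚ))⁄Qb).Point p).toAddSubgroup with hT
  have hmemT : ∀ x : ((W.map (Int.castRingHom ℚ))⁄Qb).Point, x ∈ T ↔ p • x = 0 := by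
    intro x
    rw [hT, Submodule.mem_toAddSubgroup, Submodule.mem_torsionBy_iff, natCast_zsmul]
  set H : AddSubgroup ((W.map (Int.castRingHom ℚ))⁄Qb).Point := kerRed hint ⊓ T with hH
  have hΔb : ((W.map (Int.castRingHom ℚ))⁄Qb).Δ ≠ 0 := by
    obtain ⟨-, -, -, -, -, e⟩ := baseChange_int_coeffs W (K := Qb)
    rw [e]
    exact_mod_cast hΔ
  have hTcard : Nat.card T = p ^ 2 :=
    Fermat.Agent.S41lib.NE.card_torsionBy_eq_sq (W := ((W.map (Int.castRingHom ℚ))⁄Qb)) hΔb p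
      hp.two_le
  haveI : Finite T := Nat.finite_of_card_ne_zero (by rw [hTcard]; exact pow_ne_zero 2 hp.ne_zero)
  have hQH : Q ∈ H := ⟨inE1_of_inZero_at_p W hp hodd hpΔ hpc₄ A hA hpQ hQz, (hmemT Q).2 hpQ⟩
  have hQ'H : Q' ∈ H := ⟨inE1_of_inZero_at_p W hp hodd hpΔ hpc₄ A hA hpQ' hQ'z, (hmemT Q').2 hpQ'⟩
  have hZH : AddSubgroup.zmultiples Q ≤ H := by
    rw [AddSubgroup.zmultiples_le]; exact hQH
  have hHT : H ≤ T := inf_le_right
  haveI : Finite H := Finite.of_injective (AddSubgroup.inclusion hHT)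
    (AddSubgroup.inclusion_injective hHT)
  have hZcard : Nat.card (AddSubgroup.zmultiples Q) = p := by
    rw [Nat.card_zmultiples, hQord]
  have hd1 : Nat.card H ∣ p ^ 2 := by
    rw [← hTcard]; exact AddSubgroup.card_dvd_of_le hHT
  have hd2 : p ∣ Nat.card H := by
    rw [← hZcard]; exact AddSubgroup.card_dvd_of_le hZH
  obtain ⟨e, he2, he⟩ := (Nat.dvd_prime_pow hp).mp hd1
  have he0 : e ≠ 0 := by
    rintro rfl
    rw [pow_zero] at he
    rw [he] at hd2
    exact hp.one_lt.ne' (Nat.dvd_one.mp hd2)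
  have he1 : e ≠ 1 := by
    rintro rfl
    rw [pow_one] at he
    have : AddSubgroup.zmultiples Q = H :=
      AddSubgroup.eq_of_le_of_card_ge hZH (by rw [he, hZcard])
    exact hQ' (by rw [this]; exact hQ'H)
  have he' : e = 2 := by omega
  rw [he'] at he
  have hHT' : H = T := AddSubgroup.eq_of_le_of_card_ge hHT (by rw [he, hTcard])
  -- a torsion point outside `E⁰`
  obtain ⟨x, hpx, hxz⟩ := exists_torsion_not_inZero_at_p W hΔ hp hodd hpΔ hpc₄ A hA N hst hbot htop
  apply hxz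
  have hxH : x ∈ H := by rw [hHT']; exact (hmemT x).2 hpx
  exact inZero_of_inE1 W A hxH.1

/-- from a generator to a Prelude-style submodule: the line `⟨Q⟩ ⊂ E[p]` -/
theorem exists_submodule_of_generator (W' : WeierstrassCurve ℚ) {p : ℕ} [Fact p.Prime]
    (Q : (W'⁄Qb).Point) (hQord : addOrderOf Q = p)
    (hst : ∀ σ : GQ, σ • Q ∈ AddSubgroup.zmultiples Q)
    (hprop : ∃ x : (W'⁄Qb).Point, p • x = 0 ∧ x ∉ AddSubgroup.zmultiples Q) :
    ∃ N : Submodule (ZMod p) (Submodule.torsionBy ℤ (W'⁄Qb).Point p),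
      IsGaloisStable ℚ N ∧ N ≠ ⊥ ∧ N ≠ ⊤ := by
  have hp : p.Prime := Fact.out
  have hpQ : p • Q = 0 := by
    rw [← hQord]
    exact addOrderOf_nsmul_eq_zero Q
  have hQmem : Q ∈ Submodule.torsionBy ℤ (W'⁄Qb).Point p := by
    rw [Submodule.mem_torsionBy_iff, Nat.cast_smul_eq_nsmul]
    exact hpQ
  set Q' : Submodule.torsionBy ℤ (W'⁄Qb).Point p := ⟨Q, hQmem⟩ with hQ'
  have hmem : ∀ x : Submodule.torsionBy ℤ (W'⁄Qb).Point p,
      x ∈ Submodule.span (ZMod p) {Q'} → x.1 ∈ AddSubgroup.zmultiples Q := by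
    intro x hx
    obtain ⟨c, rfl⟩ := Submodule.mem_span_singleton.1 hx
    obtain ⟨n, rfl⟩ := ZMod.natCast_zmod_surjective c
    rw [Nat.cast_smul_eq_nsmul]
    exact AddSubgroup.nsmul_mem _ (AddSubgroup.mem_zmultiples Q) n
  have hmem' : ∀ x : Submodule.torsionBy ℤ (W'⁄Qb).Point p,
      x.1 ∈ AddSubgroup.zmultiples Q → x ∈ Submodule.span (ZMod p) {Q'} := by
    intro x hx
    obtain ⟨k, hk⟩ := AddSubgroup.mem_zmultiples_iff.1 hx
    have : x = (k : ZMod p) • Q' := by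
      apply Subtype.ext
      rw [Int.cast_smul_eq_zsmul]
      exact hk.symm
    rw [this]
    exact Submodule.smul_mem _ _ (Submodule.mem_span_singleton_self Q')
  refine ⟨Submodule.span (ZMod p) {Q'}, ?_, ?_, ?_⟩
  · intro σ x hx
    apply hmem'
    obtain ⟨k, hk⟩ := AddSubgroup.mem_zmultiples_iff.1 (hmem x hx)
    show σ • (x : (W'⁄Qb).Point) ∈ _
    rw [← hk, algEquiv_smul_zsmul]
    exact AddSubgroup.zsmul_mem _ (hst σ) k
  · intro h
    have h1 : Q' ∈ (⊥ : Submodule (ZMod p) _) := by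
      rw [← h]
      exact Submodule.mem_span_singleton_self Q'
    have h2 : Q = 0 := congrArg Subtype.val ((Submodule.mem_bot _).1 h1)
    rw [h2, addOrderOf_zero] at hQord
    exact hp.one_lt.ne' hQord.symm
  · intro h
    obtain ⟨x, hpx, hx⟩ := hprop
    have hxmem : x ∈ Submodule.torsionBy ℤ (W'⁄Qb).Point p := by
      rw [Submodule.mem_torsionBy_iff, Nat.cast_smul_eq_nsmul]
      exact hpx
    apply hx
    exact hmem ⟨x, hxmem⟩ (by rw [h]; exact Submodule.mem_top)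

/-- **(P)(c), generator form** (the binders of `AtPStmt`) -/
theorem exists_torsion_not_inZero_at_p_gen (W : WeierstrassCurve ℤ) (hΔ : W.Δ ≠ 0) {p : ℕ}
    (hp : p.Prime) (hodd : p ≠ 2) (hpΔ : (p : ℤ) ∣ W.Δ) (hpc₄ : ¬ (p : ℤ) ∣ W.c₄)
    (A : ValuationSubring Qb) (hA : A.LiesOverPrime p)
    {Q : ((W.map (Int.castRingHom ℚ))⁄Qb).Point} (hQord : addOrderOf Q = p)
    (hst : ∀ σ : GQ, σ • Q ∈ AddSubgroup.zmultiples Q)
    (hprop : ∃ x : ((W.map (Int.castRingHom ℚ))⁄Qb).Point,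
      p • x = 0 ∧ x ∉ AddSubgroup.zmultiples Q) :
    ∃ x : ((W.map (Int.castRingHom ℚ))⁄Qb).Point, p • x = 0 ∧ ¬ W.InZeroComponentAt A x := by
  haveI : Fact p.Prime := ⟨hp⟩
  obtain ⟨N, hN, hbot, htop⟩ := exists_submodule_of_generator _ Q hQord hst hprop
  exact exists_torsion_not_inZero_at_p W hΔ hp hodd hpΔ hpc₄ A hA N hN hbot htop

/-- **(P)(d), group-theoretic half, generator form**: `hoff` of `val_pair_lt_one_of_off` for every
point of order `p` outside the line `⟨Q⟩ ⊂ E⁰(A)`. -/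
theorem off_of_not_mem_at_p (W : WeierstrassCurve ℤ) (hΔ : W.Δ ≠ 0) {p : ℕ}
    (hp : p.Prime) (hodd : p ≠ 2) (hpΔ : (p : ℤ) ∣ W.Δ) (hpc₄ : ¬ (p : ℤ) ∣ W.c₄)
    (A : ValuationSubring Qb) (hA : A.LiesOverPrime p)
    {Q : ((W.map (Int.castRingHom ℚ))⁄Qb).Point} (hQord : addOrderOf Q = p)
    (hst : ∀ σ : GQ, σ • Q ∈ AddSubgroup.zmultiples Q)
    (hprop : ∃ x : ((W.map (Int.castRingHom ℚ))⁄Qb).Point,
      p • x = 0 ∧ x ∉ AddSubgroup.zmultiples Q)
    (hQz : W.InZeroComponentAt A Q)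
    {Q' : ((W.map (Int.castRingHom ℚ))⁄Qb).Point} (hpQ' : p • Q' = 0)
    (hQ' : Q' ∉ AddSubgroup.zmultiples Q) :
    ∀ k : ℕ, ¬ p ∣ k → ¬ W.InZeroComponentAt A (k • Q') := by
  haveI : Fact p.Prime := ⟨hp⟩
  obtain ⟨N, hN, hbot, htop⟩ := exists_submodule_of_generator _ Q hQord hst hprop
  intro k hk
  exact not_inZero_nsmul_of_not_mem_at_p W hΔ hp hodd hpΔ hpc₄ A hA N hN hbot htop hQord hQz
    hpQ' hQ' hk

end Fermat.Agent.S12lib
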