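/-
S12lib / BigRoot  (helper6)  — block (P)(e) of the one-step route: the "sum of the roots" step.

`K` an algebraically closed field, `O` a valuation subring of `K` receiving the algebraic integers
`Zb`.  If `a ∉ O` then the polynomial `Φ_p(X; a)` (monic of degree `p + 1`) has a root `b` with
`|b| = |a|^p` — the root "over the cusp `∞`".  Indeed minus the sum of the roots is the coefficient
`c_p(a) = γ_p a^p` with `γ_p ≡ -1` a unit (helper8's `exists_gamma`), so some root has
`|b| ≥ |a|^p`, and helper8's `newton_dichotomy` leaves only `b / a^p ≡ 1`.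

Specialisation `exists_root_unit_Qb` to `K = ℚ̄`, `ι = Gink.intToQbar`.
-/
import Mathlib
import Fermat.Agent.S15lib.Dict.Newton

set_option autoImplicit false
set_option linter.unusedSectionVars false

noncomputable section

namespace Fermat.Agent.S12lib

open ModularCurve Polynomial Fermat.Agent.S28lib Fermat.Agent.S18lib Fermat.Agent.S37lib.ConjNorm
  Fermat.Agent.S15lib.Dict

section Val

variable {K : Type*} [Field K] {Γ : Type*} [LinearOrderedCommGroupWithZero Γ]

/-- a multiset sum all of whose terms have valuation `< g` has valuation `< g` -/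
theorem val_multiset_sum_lt (v : Valuation K Γ) {g : Γ} (hg : g ≠ 0) (s : Multiset K)
    (h : ∀ x ∈ s, v x < g) : v s.sum < g := by
  induction s using Multiset.induction_on with
  | empty =>
    rw [Multiset.sum_zero, map_zero]
    exact zero_lt_iff.mpr hg
  | cons x s ih =>
    rw [Multiset.sum_cons]
    exact v.map_add_lt (h x (Multiset.mem_cons_self x s))
      (ih fun y hy => h y (Multiset.mem_cons_of_mem hy))

/-- if a multiset sum has valuation `≥ g ≠ 0` then so has one of its terms -/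
theorem exists_mem_le_val (v : Valuation K Γ) {g : Γ} (hg : g ≠ 0) (s : Multiset K)
    (h : g ≤ v s.sum) : ∃ x ∈ s, g ≤ v x := by
  by_contra hne
  refine absurd (val_multiset_sum_lt v hg s fun x hx => ?_) (not_lt.mpr h)
  by_contra hx'
  exact hne ⟨x, hx, not_lt.mp hx'⟩

end Val

section Root

variable {K : Type*} [Field K] (O : ValuationSubring K) (ι₀ : Zb →+* O)
variable (p : ℕ) [Fact p.Prime]

/-- the specialised polynomial `Φ_p(X; a) ∈ K[X]` -/
def phiSpecAt (a : K) : K[X] := (phiZ p).map (Polynomial.eval₂RingHom (O.subtype.comp ι₀) a)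

theorem phiSpecAt_monic (a : K) : (phiSpecAt O ι₀ p a).Monic := (phiZ_monic p).map _

theorem phiSpecAt_natDegree (a : K) : (phiSpecAt O ι₀ p a).natDegree = p + 1 := by
  rw [phiSpecAt, (phiZ_monic p).natDegree_map, phiZ_natDegree]

theorem phiSpecAt_eval (a b : K) :
    (phiSpecAt O ι₀ p a).eval b = biEval₂ (O.subtype.comp ι₀) (phiZ p) b a := by
  rw [phiSpecAt, eval_map]
  rfl

theorem phiSpecAt_coeff (a : K) (m : ℕ) : (phiSpecAt O ι₀ p a).coeff m = cAt O ι₀ p a m := by
  rw [phiSpecAt, coeff_map]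
  rfl

theorem phiSpecAt_nextCoeff (a : K) : (phiSpecAt O ι₀ p a).nextCoeff = cAt O ι₀ p a p := by
  rw [nextCoeff_of_natDegree_pos (by rw [phiSpecAt_natDegree]; omega), phiSpecAt_natDegree,
    Nat.add_sub_cancel, phiSpecAt_coeff]

/-- **the root over the cusp `∞`**: for `a ∉ O` the polynomial `Φ_p(X; a)` has a root `b` with
`|b / a^p| = 1` (indeed `b / a^p ≡ 1`). -/
theorem exists_root_residue [IsAlgClosed K] (hodd : Odd p) {a : K} (ha : a ∉ O) :
    ∃ b : K, biEval₂ (O.subtype.comp ι₀) (phiZ p) b a = 0 ∧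
      ∃ u : O, (u : K) = b * (a⁻¹) ^ p ∧ IsLocalRing.residue O u = 1 := by
  obtain ⟨α, γ, γ0, hα, hαm, hγ, hγ0, hres_p, hres_0⟩ := exists_gamma O ι₀ p hodd ha
  have hp1 : 1 ≤ p := (Fact.out : p.Prime).one_lt.le
  have ha0 : a ≠ 0 := by
    rintro rfl
    exact ha O.zero_mem
  have hsplit : (phiSpecAt O ι₀ p a).Splits := IsAlgClosed.splits _
  have hsum := hsplit.nextCoeff_eq_neg_sum_roots_of_monic (phiSpecAt_monic O ι₀ p a)
  rw [phiSpecAt_nextCoeff, hγ p hp1 le_rfl] at hsum
  -- `γ_p` is a unit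
  have hγunit : O.valuation (γ p : K) = 1 := by
    rw [← ValuationSubring.valuation_eq_one_iff]
    by_contra hnu
    have : γ p ∈ IsLocalRing.maximalIdeal O := (IsLocalRing.mem_maximalIdeal _).mpr hnu
    rw [← IsLocalRing.residue_eq_zero_iff, hres_p] at this
    exact one_ne_zero (neg_eq_zero.mp this)
  have hvsum : O.valuation (phiSpecAt O ι₀ p a).roots.sum = O.valuation a ^ p := by
    have : (phiSpecAt O ι₀ p a).roots.sum = -((γ p : K) * a ^ p) := by rw [hsum, neg_neg]
    rw [this, Valuation.map_neg, map_mul, hγunit, one_mul, map_pow]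
  have hva0 : O.valuation a ^ p ≠ 0 := pow_ne_zero _ ((Valuation.ne_zero_iff _).mpr ha0)
  obtain ⟨b, hb, hvb⟩ := exists_mem_le_val O.valuation hva0 _ hvsum.ge
  have hroot : biEval₂ (O.subtype.comp ι₀) (phiZ p) b a = 0 := by
    rw [← phiSpecAt_eval]
    exact (mem_roots'.mp hb).2
  refine ⟨b, hroot, ?_⟩
  obtain ⟨-, hcases⟩ := newton_dichotomy O ι₀ p hodd ha hroot
  rcases hcases with ⟨σ, u, hσ, hσm, -, -⟩ | h
  · exfalso
    have h1 : O.valuation (b * (a⁻¹) ^ p) < 1 := by
      rw [← hσ]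
      exact (O.valuation_lt_one_iff σ).mp hσm
    have h2 : (1 : _) ≤ O.valuation (b * (a⁻¹) ^ p) := by
      rw [map_mul, map_pow, map_inv₀, inv_pow]
      exact (le_mul_inv_iff₀ (zero_lt_iff.mpr hva0)).mpr (by rwa [one_mul])
    exact absurd h1 (not_lt.mpr h2)
  · exact h

theorem exists_root_unit [IsAlgClosed K] (hodd : Odd p) {a : K} (ha : a ∉ O) :
    ∃ b : K, biEval₂ (O.subtype.comp ι₀) (phiZ p) b a = 0 ∧
      O.valuation (b * (a⁻¹) ^ p) = 1 := by
  obtain ⟨b, hb, u, hu, hres⟩ := exists_root_residue O ι₀ p hodd ha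
  refine ⟨b, hb, ?_⟩
  rw [← hu, ← ValuationSubring.valuation_eq_one_iff]
  by_contra hnu
  have : u ∈ IsLocalRing.maximalIdeal O := (IsLocalRing.mem_maximalIdeal _).mpr hnu
  rw [← IsLocalRing.residue_eq_zero_iff, hres] at this
  exact one_ne_zero this

end Root

section Qbar

local notation "Qb" => AlgebraicClosure ℚ

/-- the `ℚ̄` form: for `a ∉ A` there is `b` with `Φ_p(b, a) = 0` and `|b| = |a|^p`. -/
theorem exists_root_unit_Qb (A : ValuationSubring Qb) (p : ℕ) [Fact p.Prime] (hodd : Odd p)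
    {a : Qb} (ha : a ∉ A) :
    ∃ b : Qb, biEval₂ (Gink.intToQbar : Zb →+* Qb) (phiZ p) b a = 0 ∧
      A.valuation (b * (a⁻¹) ^ p) = 1 :=
  exists_root_unit A (Gink.intToA A) p hodd ha

/-- the same with the valuation of `b` made explicit -/
theorem exists_root_val_Qb (A : ValuationSubring Qb) (p : ℕ) [Fact p.Prime] (hodd : Odd p)
    {a : Qb} (ha : a ∉ A) :
    ∃ b : Qb, biEval₂ (Gink.intToQbar : Zb →+* Qb) (phiZ p) b a = 0 ∧
      A.valuation b = A.valuation a ^ p := by
  obtain ⟨b, hb, hv⟩ := exists_root_unit_Qb A p hodd ha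
  refine ⟨b, hb, ?_⟩
  have ha0 : a ≠ 0 := by
    rintro rfl
    exact ha A.zero_mem
  have hva0 : A.valuation a ^ p ≠ 0 := pow_ne_zero _ ((Valuation.ne_zero_iff _).mpr ha0)
  rw [map_mul, map_pow, map_inv₀, inv_pow] at hv
  exact (mul_inv_eq_one₀ hva0).mp hv

end Qbar

end Fermat.Agent.S12lib
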