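/-
S12lib / LineInv  (helper6) — S12: Vélu's invariants depend only on the LINE `⟨Q⟩`.

Over any field of characteristic `0`: for a point `Q` of odd prime order `p` and `p ∤ a`,
`veluT`, `veluW`, `veluC4`, `veluC6`, `veluJ` of `a • Q` and of `Q` coincide
(both half-system sums are `(Σ_{P ∈ ⟨Q⟩} f(x(P)) - f(0)) / 2`).
-/
import Mathlib
import Fermat.Agent.S12lib.Line

set_option autoImplicit false
set_option linter.unusedSectionVars false

noncomputable section

namespace Fermat.Agent.S12lib

open WeierstrassCurve WeierstrassCurve.Affine WeierstrassCurve.Affine.Point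
open Fermat.Agent.S15lib.Dict

section General

variable {K : Type*} [Field K] [DecidableEq K] [CharZero K] (E : WeierstrassCurve K)

omit [CharZero K] in
theorem ptX_neg' (P : E.toAffine.Point) : ptX (-P) = ptX P := by
  rcases P with _ | ⟨x, y, h⟩
  · rfl
  · rfl

/-- sums over equal subgroups -/
theorem sum_subgroup_congr {G M : Type*} [AddGroup G] [AddCommMonoid M] {H H' : AddSubgroup G}
    (h : H = H') [Fintype H] [Fintype H'] (f : G → M) : ∑ P : H, f P.1 = ∑ P : H', f P.1 := by
  subst h
  exact Finset.sum_congr (by ext; simp) fun _ _ => rfl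

variable {p : ℕ} (hp : p.Prime) (hp2 : p ≠ 2) (Q : E.toAffine.Point) (hQord : addOrderOf Q = p)
  {a : ℕ} (ha : ¬ p ∣ a)

include hp hQord ha in
theorem addOrderOf_nsmul_of_not_dvd : addOrderOf (a • Q) = p := by
  have hcop : (addOrderOf Q).Coprime a := by
    rw [hQord]
    exact (Nat.Prime.coprime_iff_not_dvd hp).2 ha
  rw [hcop.addOrderOf_nsmul, hQord]

include hp hQord ha in
theorem zmultiples_nsmul_of_not_dvd :
    AddSubgroup.zmultiples (a • Q) = AddSubgroup.zmultiples Q := by
  have hle : AddSubgroup.zmultiples (a • Q) ≤ AddSubgroup.zmultiples Q := by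
    rw [AddSubgroup.zmultiples_le]
    exact AddSubgroup.nsmul_mem _ (AddSubgroup.mem_zmultiples Q) a
  have hfin : IsOfFinAddOrder Q := by
    rw [← addOrderOf_pos_iff, hQord]
    exact hp.pos
  have : Finite (AddSubgroup.zmultiples Q) := Finite.of_equiv _ (finEquivZMultiples hfin)
  apply AddSubgroup.eq_of_le_of_card_ge hle
  rw [Nat.card_zmultiples, Nat.card_zmultiples, hQord,
    addOrderOf_nsmul_of_not_dvd E hp Q hQord ha]

include hp hp2 hQord ha in
/-- a half-system sum of a function of the `x`-coordinate depends only on the line -/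
theorem halfSum_nsmul (g : K → K) :
    ∑ j ∈ Finset.Icc 1 ((p - 1) / 2), g (ptX (j • a • Q)) =
      ∑ j ∈ Finset.Icc 1 ((p - 1) / 2), g (ptX (j • Q)) := by
  classical
  have hodd : Odd p := hp.odd_of_ne_two hp2
  have hord' := addOrderOf_nsmul_of_not_dvd E hp Q hQord ha
  have hfin : IsOfFinAddOrder Q := by
    rw [← addOrderOf_pos_iff, hQord]
    exact hp.pos
  have hfin' : IsOfFinAddOrder (a • Q) := by
    rw [← addOrderOf_pos_iff, hord']
    exact hp.pos
  have i1 : Fintype (AddSubgroup.zmultiples Q) := Fintype.ofEquiv _ (finEquivZMultiples hfin)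
  have i2 : Fintype (AddSubgroup.zmultiples (a • Q)) :=
    Fintype.ofEquiv _ (finEquivZMultiples hfin')
  have h1 := sum_zmultiples_eq_half Q hodd hQord (fun P => g (ptX P))
    (fun P => by rw [ptX_neg'])
  have h2 := sum_zmultiples_eq_half (a • Q) hodd hord' (fun P => g (ptX P))
    (fun P => by rw [ptX_neg'])
  have h3 := sum_subgroup_congr (zmultiples_nsmul_of_not_dvd E hp Q hQord ha)
    (fun P => g (ptX P))
  rw [h1, h2] at h3
  have h4 := add_left_cancel h3
  rw [nsmul_eq_mul, nsmul_eq_mul] at h4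
  have h2' : ((2 : ℕ) : K) ≠ 0 := by norm_num
  exact mul_left_cancel₀ h2' h4

include hp hp2 hQord ha

theorem veluT_nsmul : veluT E (a • Q) p = veluT E Q p := by
  simp only [veluT]
  exact halfSum_nsmul E hp hp2 Q hQord ha (fun x => 6 * x ^ 2 + E.b₂ * x + E.b₄)

theorem veluW_nsmul : veluW E (a • Q) p = veluW E Q p := by
  simp only [veluW]
  exact halfSum_nsmul E hp hp2 Q hQord ha
    (fun x => 10 * x ^ 3 + 2 * E.b₂ * x ^ 2 + 3 * E.b₄ * x + E.b₆)

theorem veluC4_nsmul : veluC4 E (a • Q) p = veluC4 E Q p := by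
  rw [veluC4, veluC4, veluT_nsmul E hp hp2 Q hQord ha]

theorem veluC6_nsmul : veluC6 E (a • Q) p = veluC6 E Q p := by
  rw [veluC6, veluC6, veluT_nsmul E hp hp2 Q hQord ha, veluW_nsmul E hp hp2 Q hQord ha]

/-- `j(E/⟨Q⟩)` depends only on the line `⟨Q⟩` -/
theorem veluJ_nsmul : veluJ E (a • Q) p = veluJ E Q p := by
  rw [veluJ, veluJ, veluC4_nsmul E hp hp2 Q hQord ha, veluC6_nsmul E hp hp2 Q hQord ha]

end General

end Fermat.Agent.S12lib
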