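/-
S12lib / AtPe  (helper3) — S12, block (P), steps (d)+(e): the line in the zero component is the
CANONICAL one.

`W / ℤ` with multiplicative reduction at `ℓ` (`ℓ ∣ Δ`, `ℓ ∤ c₄`; `ℓ = p` allowed), `A ∣ ℓ`,
`E = W ⊗ ℚ̄`, `Q` a point of odd prime order `p`.  Assume
  (b) `Q ∈ E⁰(A)`,
  (c) `E[p] ⊄ E⁰(A)`,
  (s) `E⁰(A) ∩ E[p]` is closed under addition.
Then `|veluJ E Q p| = |j(E)|^p` at `A`, i.e. `|b₀ / a₀^p| = 1`.

Proof: `Φ_p(X; a₀)` has a root `b` with `|b / a₀^p| = 1` (helper6 `exists_root_unit_Qb`: sum of the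
roots + Newton); `b = veluJ E Q' p` for a point `Q'` of order `p` (helper5 `root_eq_veluJ_Qb`); if
`Q' ∉ ⟨Q⟩` then `⟨Q'⟩ ∩ E⁰ = 0` (else `E[p] = ⟨Q⟩ + ⟨Q'⟩ ⊂ E⁰`), so `|b / a₀^p| < 1`
(helper6 `val_pair_lt_one_of_off`): contradiction; hence `Q' ∈ ⟨Q⟩` and `b = veluJ E Q p`
(helper6 `veluJ_nsmul`).
-/
import Fermat.Agent.S12lib.Line
import Fermat.Agent.S12lib.LineInv
import Fermat.Agent.S12lib.BigRoot
import Fermat.Agent.S12lib.Cofixed
import Fermat.Agent.S12lib.Part.Qb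
import Fermat.Agent.S13lib.Assembly

set_option autoImplicit false
set_option linter.style.haveILetI false

noncomputable section

namespace Fermat.Agent.S12lib

open WeierstrassCurve WeierstrassCurve.Affine WeierstrassCurve.Affine.Point
open Fermat.Agent.S28lib Fermat.Agent.S37lib.ConjNorm Fermat.Agent.S18lib
open Fermat.Agent.S15lib.Dict Fermat.Agent.S15lib.Dict.EL2
open Fermat.Agent.S12lib.Part

local notation "Qb" => AlgebraicClosure ℚ
local notation "GQ" => (AlgebraicClosure ℚ ≃ₐ[ℚ] AlgebraicClosure ℚ)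

/-! ### two independent points of order `p` span `E[p]` -/

section Span

variable (W' : WeierstrassCurve ℚ) (hΔ : W'.Δ ≠ 0) {p : ℕ} (hp : p.Prime)

include hΔ hp in
/-- if `R ∉ ⟨Q⟩` (both of order `p`) every `p`-torsion point is `i • Q + j • R` -/
theorem exists_nsmul_add_nsmul {Q R : (W'⁄Qb).Point} (hQord : addOrderOf Q = p)
    (hpR : p • R = 0) (hR : R ∉ AddSubgroup.zmultiples Q) {x : (W'⁄Qb).Point} (hx : p • x = 0) :
    ∃ i j : ℕ, x = i • Q + j • R := by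
  classical
  haveI : Fact p.Prime := ⟨hp⟩
  have hΔb : (W'⁄Qb).Δ ≠ 0 := by
    have e : (W'⁄Qb).Δ = algebraMap ℚ Qb W'.Δ := WeierstrassCurve.map_Δ _ _
    rw [e]
    exact (map_ne_zero_iff _ (algebraMap ℚ Qb).injective).mpr hΔ
  have hcard : Nat.card (Submodule.torsionBy ℤ (W'⁄Qb).Point p) = p ^ 2 :=
    Fermat.Agent.S41lib.NE.card_torsionBy_eq_sq (W'⁄Qb) hΔb p hp.two_le
  have hmemT : ∀ y : (W'⁄Qb).Point, p • y = 0 → y ∈ Submodule.torsionBy ℤ (W'⁄Qb).Point p := by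
    intro y hy
    rw [Submodule.mem_torsionBy_iff, Nat.cast_smul_eq_nsmul]
    exact hy
  have hpQ : p • Q = 0 := by
    rw [← hQord]
    exact addOrderOf_nsmul_eq_zero Q
  set Q' : Submodule.torsionBy ℤ (W'⁄Qb).Point p := ⟨Q, hmemT Q hpQ⟩ with hQ'
  set R' : Submodule.torsionBy ℤ (W'⁄Qb).Point p := ⟨R, hmemT R hpR⟩ with hR'
  set N : Submodule (ZMod p) (Submodule.torsionBy ℤ (W'⁄Qb).Point p) :=
    Submodule.span (ZMod p) {Q'} with hN
  have hmem : ∀ y : Submodule.torsionBy ℤ (W'⁄Qb).Point p,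
      y ∈ N → y.1 ∈ AddSubgroup.zmultiples Q := by
    intro y hy
    obtain ⟨c, rfl⟩ := Submodule.mem_span_singleton.1 hy
    obtain ⟨n, rfl⟩ := ZMod.natCast_zmod_surjective c
    rw [Nat.cast_smul_eq_nsmul]
    exact AddSubgroup.nsmul_mem _ (AddSubgroup.mem_zmultiples Q) n
  have hbot : N ≠ ⊥ := by
    intro h
    have h1 : Q' ∈ (⊥ : Submodule (ZMod p) _) := by
      rw [← h]
      exact Submodule.mem_span_singleton_self Q'
    have h2 : Q = 0 := congrArg Subtype.val ((Submodule.mem_bot _).1 h1)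
    rw [h2, addOrderOf_zero] at hQord
    exact hp.one_lt.ne' hQord.symm
  have hR'N : R' ∉ N := fun h => hR (hmem R' h)
  have htop : N ≠ ⊤ := fun h => hR'N (by rw [h]; exact Submodule.mem_top)
  haveI hfinV : Finite (Submodule.torsionBy ℤ (W'⁄Qb).Point p) := by
    apply Nat.finite_of_card_ne_zero
    rw [hcard]
    exact pow_ne_zero 2 hp.ne_zero
  obtain ⟨hcV, hcN⟩ := Fermat.Agent.S13lib.card_eq_of_ne_bot_ne_top hcard.le N hbot htop
  obtain ⟨m, hm, d, hd⟩ :=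
    Fermat.Agent.S13lib.asm_exists_decomp hcV N hcN hR'N (⟨x, hmemT x hx⟩ : Submodule.torsionBy ℤ _ p)
  obtain ⟨c, rfl⟩ := Submodule.mem_span_singleton.1 hm
  obtain ⟨i, rfl⟩ := ZMod.natCast_zmod_surjective c
  obtain ⟨j, rfl⟩ := ZMod.natCast_zmod_surjective d
  refine ⟨i, j, ?_⟩
  have := congrArg Subtype.val hd
  rw [Nat.cast_smul_eq_nsmul, Nat.cast_smul_eq_nsmul] at this
  exact this

end Span

/-! ### the canonical line -/

section Canon

variable {p : ℕ} (hp : p.Prime) (hp2 : p ≠ 2) (W : WeierstrassCurve ℤ) (hΔ : W.Δ ≠ 0) {ℓ : ℕ}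
  (hℓ : ℓ.Prime) (hℓΔ : (ℓ : ℤ) ∣ W.Δ) (hℓc₄ : ¬ (ℓ : ℤ) ∣ W.c₄)
  (A : ValuationSubring Qb) (hA : A.LiesOverPrime ℓ)
  (Q : ((W.map (Int.castRingHom ℚ) : WeierstrassCurve ℚ)⁄Qb).Point) (hQord : addOrderOf Q = p)

include hp hp2 hΔ hℓ hℓΔ hℓc₄ hA hQord in
/-- **(P)(d)+(e)**: a line in the zero component at a multiplicative place is the canonical one:
`|veluJ E Q p / j(E)^p| = 1`.  Any residue characteristic (`ℓ = p` is the case of interest). -/
theorem val_pair_eq_one_of_zeroComp (hV : VeluQbStmt)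
    (hb : W.InZeroComponentAt A Q)
    (hc : ∃ x : ((W.map (Int.castRingHom ℚ) : WeierstrassCurve ℚ)⁄Qb).Point,
      p • x = 0 ∧ ¬ W.InZeroComponentAt A x)
    (hadd : ∀ x y : ((W.map (Int.castRingHom ℚ) : WeierstrassCurve ℚ)⁄Qb).Point,
      p • x = 0 → p • y = 0 → W.InZeroComponentAt A x → W.InZeroComponentAt A y →
        W.InZeroComponentAt A (x + y)) :
    A.valuation (veluJ _ Q p * (((W.c₄ : Qb) ^ 3 / (W.Δ : Qb))⁻¹) ^ p) = 1 := by
  classical
  haveI : Fact p.Prime := ⟨hp⟩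
  have hodd : Odd p := hp.odd_of_ne_two hp2
  have hΔq : (W.map (Int.castRingHom ℚ) : WeierstrassCurve ℚ).Δ ≠ 0 := by
    rw [WeierstrassCurve.map_Δ]
    simpa using hΔ
  have hΔE : ((W.map (Int.castRingHom ℚ) : WeierstrassCurve ℚ)⁄Qb).Δ ≠ 0 := by
    rw [bc_Δ]
    exact_mod_cast hΔ
  have hj : ((W.map (Int.castRingHom ℚ) : WeierstrassCurve ℚ)⁄Qb).c₄ ^ 3 /
      ((W.map (Int.castRingHom ℚ) : WeierstrassCurve ℚ)⁄Qb).Δ = (W.c₄ : Qb) ^ 3 / (W.Δ : Qb) := by
    rw [bc_c₄, bc_Δ]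
  have ha : (W.c₄ : Qb) ^ 3 / (W.Δ : Qb) ∉ A := j_not_mem W hℓ A hA hℓΔ hℓc₄ hΔ
  obtain ⟨b, hbΦ, hbval⟩ := exists_root_unit_Qb A p hodd ha
  rw [← hj] at hbΦ
  obtain ⟨Q', hQ'ord, rfl⟩ := root_eq_veluJ_Qb hp2 _ hΔE hbΦ
  have hpQ : p • Q = 0 := by
    rw [← hQord]
    exact addOrderOf_nsmul_eq_zero Q
  have hpQ' : p • Q' = 0 := by
    rw [← hQ'ord]
    exact addOrderOf_nsmul_eq_zero Q'
  have hfinQ : IsOfFinAddOrder Q := by
    rw [← addOrderOf_pos_iff, hQord]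
    exact hp.pos
  -- multiples of points of the zero component
  have hnsmul : ∀ (x : ((W.map (Int.castRingHom ℚ) : WeierstrassCurve ℚ)⁄Qb).Point),
      p • x = 0 → W.InZeroComponentAt A x → ∀ i : ℕ, W.InZeroComponentAt A (i • x) := by
    intro x hx hzx i
    induction i with
    | zero => rw [zero_nsmul]; exact Or.inl rfl
    | succ i ih =>
      rw [succ_nsmul]
      exact hadd _ _ (by rw [smul_comm, hx, nsmul_zero]) hx ih hzx
  by_cases hmem : Q' ∈ AddSubgroup.zmultiples Q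
  · -- `Q'` generates the same line
    obtain ⟨m, rfl⟩ := exists_nat_of_mem_zmultiples hfinQ hmem
    have hm : ¬ p ∣ m := by
      intro hdvd
      have h0 : m • Q = 0 := by
        rw [← hQord] at hdvd
        exact addOrderOf_dvd_iff_nsmul_eq_zero.1 hdvd
      rw [h0, addOrderOf_zero] at hQ'ord
      exact hp.one_lt.ne' hQ'ord.symm
    rw [veluJ_nsmul _ hp hp2 Q hQord hm] at hbval
    exact hbval
  · -- `Q'` generates another line: it is off the zero component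
    exfalso
    have hoff : ∀ k : ℕ, ¬ p ∣ k → ¬ W.InZeroComponentAt A (k • Q') := by
      intro k hk hz
      have hpR : p • (k • Q') = 0 := by rw [smul_comm, hpQ', nsmul_zero]
      have hR : k • Q' ∉ AddSubgroup.zmultiples Q := by
        intro hR
        apply hmem
        have h1 : Q' ∈ AddSubgroup.zmultiples (k • Q') := by
          rw [zmultiples_nsmul_of_not_dvd _ hp Q' hQ'ord hk]
          exact AddSubgroup.mem_zmultiples Q'
        exact (AddSubgroup.zmultiples_le.2 hR) h1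
      obtain ⟨x, hx, hnz⟩ := hc
      obtain ⟨i, j, rfl⟩ := exists_nsmul_add_nsmul _ hΔq hp hQord hpR hR hx
      apply hnz
      exact hadd _ _ (by rw [smul_comm, hpQ, nsmul_zero]) (by rw [smul_comm, hpR, nsmul_zero])
        (hnsmul Q hpQ hb i) (hnsmul _ hpR hz j)
    have hlt := val_pair_lt_one_of_off hp W hΔ hℓ hℓc₄ A hA Q' hQ'ord hoff
      (hV hp2 _ hΔE Q' hQ'ord).1
    rw [hbval] at hlt
    exact lt_irrefl _ hlt

end Canon

end Fermat.Agent.S12lib
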