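/-
S12lib / AtP  (helper3) — S12, block (P), ASSEMBLY: `AtPStmt` (helper9's `Canon.lean`) from ONE
zero-component fact at a place `A ∣ p` of multiplicative reduction:

* (u) inertia at `A` moves every `p`-torsion point inside its component: `τ x − x ∈ E⁰(A)`
  (`AtPInertiaStmt`; only needed for a generator `Q` of the line: `AtPGenStmt`);
* (s) `E⁰(A) ∩ E[p]` is closed under addition: helper7's `inZero_add_at_p` (no bridge needed).

Given (u):
  (a) `AtPa.frey_generator_ramified_at_p` : some `τ ∈ I_A` moves `Q`; `τ Q − Q = (a − 1) Q ≠ 0` lies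
      in `E⁰` by (u), and `Q` is a multiple of it, so
  (b) `Q ∈ E⁰(A)` by (s);
  (c) helper7's `AtPc.exists_torsion_not_inZero_at_p` : `E[p] ⊄ E⁰(A)`;
  (d)+(e) `AtPe.val_pair_eq_one_of_zeroComp` : `|veluJ E Q p / j(E)^p|_A = 1`.
-/
import Fermat.Agent.S12lib.AtPa
import Fermat.Agent.S12lib.AtPc
import Fermat.Agent.S12lib.AtPe
import Fermat.Agent.S12lib.Canon

set_option autoImplicit false
set_option linter.style.haveILetI false

noncomputable section

namespace Fermat.Agent.S12lib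

open WeierstrassCurve WeierstrassCurve.Affine WeierstrassCurve.Affine.Point
open Fermat.Agent.S15lib.Dict Fermat.Agent.S15lib.Dict.EL2

local notation "Qb" => AlgebraicClosure ℚ
local notation "GQ" => (AlgebraicClosure ℚ ≃ₐ[ℚ] AlgebraicClosure ℚ)

/-- **what is left of (P)**: at a place `A` over `p ∣ Δ` of the Frey curve, inertia moves every
`p`-torsion point inside its component: `τ x − x ∈ E⁰(A)` (to be transported from the `legW` model,
`S13lib.NodeDataAux.isE0_tau_sub`).  [The subgroup property of `E⁰(A) ∩ E[p]` is helper7's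
`inZero_add_at_p`, which needs no bridge.] -/
def AtPInertiaStmt : Prop :=
  ∀ (P : FreyPackage) (_hpΔ : ((P.p : ℕ) : ℤ) ∣ P.freyCurveInt.Δ)
    (A : ValuationSubring Qb) (_hA : A.LiesOverPrime P.p),
    ∀ τ ∈ A.inertiaSubgroupIn ℚ,
      ∀ x : ((P.freyCurveInt.map (Int.castRingHom ℚ) : WeierstrassCurve ℚ)⁄Qb).Point,
        P.p • x = 0 → P.freyCurveInt.InZeroComponentAt A (τ • x - x)

/-- the weaker form which suffices: only for a generator `Q` of a Galois-stable line and ONE
inertia element moving it -/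
def AtPGenStmt : Prop :=
  ∀ (P : FreyPackage) (_hpΔ : ((P.p : ℕ) : ℤ) ∣ P.freyCurveInt.Δ)
    (A : ValuationSubring Qb) (_hA : A.LiesOverPrime P.p)
    (Q : ((P.freyCurveInt.map (Int.castRingHom ℚ) : WeierstrassCurve ℚ)⁄Qb).Point)
    (_hQord : addOrderOf Q = P.p) (_hst : ∀ σ : GQ, σ • Q ∈ AddSubgroup.zmultiples Q)
    (τ : GQ) (_hτ : τ ∈ A.inertiaSubgroupIn ℚ),
    P.freyCurveInt.InZeroComponentAt A (τ • Q - Q)

theorem atPGenStmt_of_inertia (h : AtPInertiaStmt) : AtPGenStmt := by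
  intro P hpΔ A hA Q hQord _ τ hτ
  refine h P hpΔ A hA τ hτ Q ?_
  rw [← hQord]
  exact addOrderOf_nsmul_eq_zero Q

/-- (b) from (a), (u), (s): a line moved by inertia lies in the zero component -/
theorem inZero_of_moved {p : ℕ} (hp : p.Prime) (W : WeierstrassCurve ℤ)
    (A : ValuationSubring Qb)
    (Q : ((W.map (Int.castRingHom ℚ) : WeierstrassCurve ℚ)⁄Qb).Point)
    (hQord : addOrderOf Q = p)
    (hs : ∀ x y : ((W.map (Int.castRingHom ℚ) : WeierstrassCurve ℚ)⁄Qb).Point,
      p • x = 0 → p • y = 0 → W.InZeroComponentAt A x → W.InZeroComponentAt A y →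
        W.InZeroComponentAt A (x + y))
    {τ : GQ} (hτQ : τ • Q ∈ AddSubgroup.zmultiples Q) (hmv : τ • Q ≠ Q)
    (hu : W.InZeroComponentAt A (τ • Q - Q)) : W.InZeroComponentAt A Q := by
  classical
  have hpQ : p • Q = 0 := by
    rw [← hQord]
    exact addOrderOf_nsmul_eq_zero Q
  have hfinQ : IsOfFinAddOrder Q := by
    rw [← addOrderOf_pos_iff, hQord]
    exact hp.pos
  set R := τ • Q - Q with hR
  have hR0 : R ≠ 0 := sub_ne_zero.mpr hmv
  have hRmem : R ∈ AddSubgroup.zmultiples Q :=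
    AddSubgroup.sub_mem _ hτQ (AddSubgroup.mem_zmultiples Q)
  obtain ⟨m, hm⟩ := exists_nat_of_mem_zmultiples hfinQ hRmem
  have hpm : ¬ p ∣ m := by
    intro hdvd
    apply hR0
    rw [hm]
    rw [← hQord] at hdvd
    exact addOrderOf_dvd_iff_nsmul_eq_zero.1 hdvd
  have hpR : p • R = 0 := by rw [hm, smul_comm, hpQ, nsmul_zero]
  -- `Q` is a multiple of `R`
  have hQR : Q ∈ AddSubgroup.zmultiples R := by
    rw [hm, zmultiples_nsmul_of_not_dvd _ hp Q hQord hpm]
    exact AddSubgroup.mem_zmultiples Q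
  have hfinR : IsOfFinAddOrder R := by
    rw [isOfFinAddOrder_iff_nsmul_eq_zero]
    exact ⟨p, hp.pos, hpR⟩
  obtain ⟨n, hn⟩ := exists_nat_of_mem_zmultiples hfinR hQR
  have hnsmul : ∀ i : ℕ, W.InZeroComponentAt A (i • R) := by
    intro i
    induction i with
    | zero => rw [zero_nsmul]; exact Or.inl rfl
    | succ i ih =>
      rw [succ_nsmul]
      exact hs _ _ (by rw [smul_comm, hpR, nsmul_zero]) hpR ih hu
  rw [hn]
  exact hnsmul n

/-- **(P)** from the inertia statement (generator form). -/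
theorem atPStmt_of_gen (h : AtPGenStmt) : AtPStmt := by
  intro P hp17 Q hQord hst hcof hne hpΔ A hA
  obtain ⟨hFM, hΔ, hc₄⟩ := freyModelStmt P
  have hp2 : P.p ≠ 2 := by omega
  have hpc₄ := hc₄ P.p P.pp hpΔ
  have hs : ∀ x y : ((P.freyCurveInt.map (Int.castRingHom ℚ) : WeierstrassCurve ℚ)⁄Qb).Point,
      P.p • x = 0 → P.p • y = 0 → P.freyCurveInt.InZeroComponentAt A x →
        P.freyCurveInt.InZeroComponentAt A y → P.freyCurveInt.InZeroComponentAt A (x + y) :=
    fun x y hx hy hzx hzy => inZero_add_at_p P.freyCurveInt P.pp hp2 hpΔ hpc₄ A hA hx hy hzx hzy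
  have hst' : ∀ σ : GQ, σ • Q ∈ AddSubgroup.zmultiples Q := by
    intro σ
    obtain ⟨a, ha⟩ := hst σ
    rw [ha]
    exact AddSubgroup.nsmul_mem _ (AddSubgroup.mem_zmultiples Q) a
  -- (a)
  obtain ⟨τ, hτ, hmv⟩ := frey_generator_ramified_at_p P hFM Q hQord hst' hne A hA
  -- (b)
  have hb : P.freyCurveInt.InZeroComponentAt A Q :=
    inZero_of_moved P.pp P.freyCurveInt A Q hQord hs (hst' τ) hmv
      (h P hpΔ A hA Q hQord hst' τ hτ)
  -- (c)
  have hc := exists_torsion_not_inZero_at_p_gen P.freyCurveInt hΔ P.pp hp2 hpΔ hpc₄ A hA hQord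
    hst' hne
  -- (d) + (e)
  exact val_pair_eq_one_of_zeroComp P.pp hp2 P.freyCurveInt hΔ P.pp hpΔ hpc₄ A hA Q
    hQord veluQbStmt_closed hb hc hs

/-- **(P)** from the inertia statement. -/
theorem atPStmt_of_inertia (h : AtPInertiaStmt) : AtPStmt :=
  atPStmt_of_gen (atPGenStmt_of_inertia h)

end Fermat.Agent.S12lib
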