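/-
S12lib / AtPb  (helper7) — S12 one-step route, block (P), part (b), by the LIGHT route:
only the kernel of reduction `E₁` is transported between the Frey curve and its Legendre models.

* `legW_unipotent_sq`  : on `y² = x³ + a x² + b x` (`a b : ℤ`, good or nodal reduction at the odd prime
  `p`), for `σ` in the inertia group of `A ∣ p` and ANY point `x`: `(σ - 1)² x ∈ E₁(A)`
  (`S13lib.good_sub_inE1` / `S13lib.NodeDataAux.unipotent`);
* `inE1_vcEquivBaseChange_iff` : `E₁` is invariant under a change of variables `(u, r, s, t)` over `ℚ`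
  with `u` an `A`-unit and `r` `A`-integral;
* `frey_unipotent_sq`  : the same statement on the Frey curve `P.freyCurve` at `A ∣ P.p`;
* `inZero_of_inertia_eigen` : **(b)** on an integral model `W` with multiplicative reduction at `p`, a
  point `Q` of order `p` with `τ • Q = a • Q ≠ Q` for some `τ` with `(τ - 1)² Q ∈ E₁(A)` lies in
  `E⁰(A)` (indeed in `E₁(A)`); `frey_generator_inZero` : for the Frey curve.
-/
import Mathlib
import Fermat.Agent.S13lib.FreyLocalP
import Fermat.Agent.S12lib.AtPc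
import Fermat.Agent.S12lib.FreyModel

set_option autoImplicit false
set_option linter.unusedSectionVars false

noncomputable section

namespace Fermat.Agent.S12lib

open WeierstrassCurve WeierstrassCurve.Affine WeierstrassCurve.Affine.Point
open Fermat.Agent.S05lib Fermat.Agent.S13lib Fermat.Agent.S41lib.NE

local notation "Qb" => AlgebraicClosure ℚ
local notation "GQ" => (AlgebraicClosure ℚ ≃ₐ[ℚ] AlgebraicClosure ℚ)

/-- **`(σ - 1)² x ∈ E₁(A)`** on `y² = x³ + a x² + b x`, `σ` in the inertia group of `A ∣ p`. -/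
theorem legW_unipotent_sq {p : ℕ} (hp : p.Prime) (hp2 : p ≠ 2) (a b : ℤ) (hb0 : b ≠ 0)
    (hred : (¬(p : ℤ) ∣ b ∧ ¬(p : ℤ) ∣ a ^ 2 - 4 * b) ∨ (¬(p : ℤ) ∣ a ∧ (p : ℤ) ∣ b))
    (A : ValuationSubring Qb) (hA : A.LiesOverPrime p) (σ : GQ) (hσ : σ ∈ A.inertiaSubgroupIn ℚ)
    (x : ((legW (a : ℚ) (b : ℚ) : Affine ℚ)⁄Qb).Point) :
    InE1 A.valuation ((legW (a : ℚ) (b : ℚ) : Affine ℚ)⁄Qb) (σ • (σ • x - x) - (σ • x - x)) := by
  have hpA : A.valuation ((p : ℕ) : Qb) < 1 := hA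
  have hp2' : ¬(p : ℤ) ∣ 2 := by
    intro h
    have h' : p ∣ 2 := by exact_mod_cast h
    exact hp2 ((Nat.prime_dvd_prime_iff_eq hp Nat.prime_two).mp h')
  have h2 : A.valuation (2 : Qb) = 1 := by
    have := vint_eq_one_of_not_dvd A hp hpA hp2'
    simpa using this
  have eA : algebraMap ℚ Qb ((a : ℤ) : ℚ) = (a : Qb) := algebraMap_intCast a
  have eB : algebraMap ℚ Qb ((b : ℤ) : ℚ) = (b : Qb) := algebraMap_intCast b
  have hva : A.valuation (algebraMap ℚ Qb ((a : ℤ) : ℚ)) ≤ 1 := by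
    rw [eA]; exact vint_le_one A a
  have hvb : A.valuation (algebraMap ℚ Qb ((b : ℤ) : ℚ)) ≤ 1 := by
    rw [eB]; exact vint_le_one A b
  obtain ⟨hσA, hσ1⟩ := inertia_facts A σ hσ
  have : Algebra.IsAlgebraic ℚ Qb := AlgebraicClosure.isAlgebraic ℚ
  have hσv : ∀ y, A.valuation (σ y) = A.valuation y := val_algEquiv_eq σ hσA
  rw [← inE1_eLeg_iff, map_sub, eLeg_smul, map_sub, eLeg_smul]
  rcases hred with ⟨hb, hd⟩ | ⟨ha, hb⟩
  · have hvb1 : A.valuation (algebraMap ℚ Qb ((b : ℤ) : ℚ)) = 1 := by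
      rw [eB]; exact vint_eq_one_of_not_dvd A hp hpA hb
    have hvd : A.valuation ((algebraMap ℚ Qb ((a : ℤ) : ℚ)) ^ 2 -
        4 * algebraMap ℚ Qb ((b : ℤ) : ℚ)) = 1 := by
      rw [eA, eB]
      have := vint_eq_one_of_not_dvd A hp hpA hd
      push_cast at this
      exact this
    exact good_sub_inE1 hva hvb1 hvd h2 (σ : Qb →+* Qb) (fun y => hσA y)
      (fun y hy => hσ1 y hy) (tauLeg _ _ σ) (tauLeg_some _ _ σ) _
  · obtain ⟨β, hβ⟩ := exists_sq_Kbar (algebraMap ℚ Qb ((a : ℤ) : ℚ))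
    have hva1 : A.valuation (algebraMap ℚ Qb ((a : ℤ) : ℚ)) = 1 := by
      rw [eA]; exact vint_eq_one_of_not_dvd A hp hpA ha
    have hβ1 : A.valuation β = 1 := by
      have : A.valuation β ^ 2 = 1 ^ 2 := by rw [← map_pow, hβ, hva1, one_pow]
      exact (pow_left_inj₀ zero_le zero_le (by norm_num)).mp this
    have hnode : NodeData A.valuation (algebraMap ℚ Qb ((a : ℤ) : ℚ))
        (algebraMap ℚ Qb ((b : ℤ) : ℚ)) β :=
      { hb := by rw [eB]; exact vint_lt_one_of_dvd A hpA hb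
        hb0 := by rw [eB]; exact_mod_cast hb0
        hβ := hβ
        hβ1 := hβ1
        h2 := h2 }
    exact NodeDataAux.unipotent hnode (σ : Qb →+* Qb) (fun y => hσA y)
      (fun y hy => hσ1 y hy) (fun y => hσv y) (σ.commutes _) (tauLeg _ _ σ)
      (tauLeg_some _ _ σ) _

/-- **`E₁` is invariant under an integral change of variables** `(u, r, s, t)` over `ℚ` with `u` a
unit at `v` and `r` integral at `v`. -/
theorem inE1_vcEquivBaseChange_iff {Γ₀ : Type*} [LinearOrderedCommGroupWithZero Γ₀]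
    (v : Valuation Qb Γ₀) (E : Affine ℚ) (C : VariableChange ℚ)
    (hu : v (algebraMap ℚ Qb (C.u : ℚ)) = 1) (hr : v (algebraMap ℚ Qb C.r) ≤ 1)
    (P : ((C • E)⁄Qb).Point) :
    InE1 v (E⁄Qb) (Fermat.Agent.S51lib.vcEquivBaseChange (K := Qb) E C P) ↔
      InE1 v ((C • E)⁄Qb) P := by
  rcases P with _ | ⟨x, y, h⟩
  · have h0 : (Point.zero : ((C • E)⁄Qb).Point) = 0 := rfl
    rw [h0, _root_.map_zero]
    exact ⟨fun _ => trivial, fun _ => trivial⟩
  · obtain ⟨h', e'⟩ := Fermat.Agent.S51lib.vcEquivBaseChange_some (K := Qb) E C h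
    rw [e']
    show 1 < v (Fermat.Agent.S51lib.vcX (C.map (algebraMap ℚ Qb)) x) ↔ 1 < v x
    have hX : Fermat.Agent.S51lib.vcX (C.map (algebraMap ℚ Qb)) x =
        (algebraMap ℚ Qb (C.u : ℚ)) ^ 2 * x + algebraMap ℚ Qb C.r := rfl
    rw [hX]
    have hux : v ((algebraMap ℚ Qb (C.u : ℚ)) ^ 2 * x) = v x := by
      rw [map_mul, map_pow, hu, one_pow, one_mul]
    constructor
    · intro h1
      by_contra h2
      rw [not_lt] at h2
      have : v ((algebraMap ℚ Qb (C.u : ℚ)) ^ 2 * x + algebraMap ℚ Qb C.r) ≤ 1 :=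
        v.map_add_le (by rw [hux]; exact h2) hr
      exact absurd h1 (not_lt.mpr this)
    · intro h1
      have hlt : v (algebraMap ℚ Qb C.r) < v ((algebraMap ℚ Qb (C.u : ℚ)) ^ 2 * x) := by
        rw [hux]; exact lt_of_le_of_lt hr h1
      rw [Valuation.map_add_eq_of_lt_left v hlt, hux]
      exact h1

/-- transport of "`(σ - 1)² x ∈ E₁`" along a change of variables over `ℚ` -/
theorem unipotent_sq_of_variableChange_eq {Γ₀ : Type*} [LinearOrderedCommGroupWithZero Γ₀]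
    (v : Valuation Qb Γ₀) (E E' : Affine ℚ) (C : VariableChange ℚ) (hE : C • E = E')
    (hu : v (algebraMap ℚ Qb (C.u : ℚ)) = 1) (hr : v (algebraMap ℚ Qb C.r) ≤ 1) (σ : GQ)
    (h : ∀ x : (E'⁄Qb).Point, InE1 v (E'⁄Qb) (σ • (σ • x - x) - (σ • x - x)))
    (x : (E⁄Qb).Point) : InE1 v (E⁄Qb) (σ • (σ • x - x) - (σ • x - x)) := by
  subst hE
  set e := Fermat.Agent.S51lib.vcEquivBaseChange (K := Qb) E C with he
  have hsm : ∀ (P : ((C • E)⁄Qb).Point), e (σ • P) = σ • e P :=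
    Fermat.Agent.S51lib.vcEquivBaseChange_smul E C σ
  obtain ⟨y, rfl⟩ := e.surjective x
  have key : σ • (σ • e y - e y) - (σ • e y - e y) = e (σ • (σ • y - y) - (σ • y - y)) := by
    rw [map_sub, hsm, map_sub, hsm]
  rw [key, he, inE1_vcEquivBaseChange_iff v E C hu hr]
  exact h y

/-- **`(σ - 1)² x ∈ E₁(A)` on the Frey curve**, `σ` in the inertia group of `A ∣ p`, any point `x`. -/
theorem frey_unipotent_sq (P : FreyPackage) (A : ValuationSubring Qb) (hA : A.LiesOverPrime P.p)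
    (σ : GQ) (hσ : σ ∈ A.inertiaSubgroupIn ℚ) (x : ((P.freyCurve : Affine ℚ)⁄Qb).Point) :
    InE1 A.valuation ((P.freyCurve : Affine ℚ)⁄Qb) (σ • (σ • x - x) - (σ • x - x)) := by
  have hp2 : P.p ≠ 2 := by have := P.hp5; omega
  have hp0 : P.p ≠ 0 := P.hp0
  have hFLT : P.a ^ P.p + P.b ^ P.p = P.c ^ P.p := P.hFLT
  have hqprime : Prime (P.p : ℤ) := Nat.prime_iff_prime_int.mp P.pp
  have hnot_ab : ¬((P.p : ℤ) ∣ P.a ∧ (P.p : ℤ) ∣ P.b) := by
    rintro ⟨h1, h2⟩
    have := dvd_gcd h1 h2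
    rw [P.hgcdab] at this
    exact hqprime.not_isUnit (isUnit_of_dvd_one this)
  have hnot_ac : ¬((P.p : ℤ) ∣ P.a ∧ (P.p : ℤ) ∣ P.c) := by
    rintro ⟨h1, h2⟩
    have := dvd_gcd h1 h2
    rw [P.hgcdac] at this
    exact hqprime.not_isUnit (isUnit_of_dvd_one this)
  have hpow : ∀ z : ℤ, (P.p : ℤ) ∣ z ^ P.p ↔ (P.p : ℤ) ∣ z := fun z =>
    ⟨fun h => hqprime.dvd_of_dvd_pow h, fun h => dvd_pow h hp0⟩
  have hpA : A.valuation ((P.p : ℕ) : Qb) < 1 := hA
  have hp2' : ¬(P.p : ℤ) ∣ 2 := by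
    intro h
    have h' : P.p ∣ 2 := by exact_mod_cast h
    exact hp2 ((Nat.prime_dvd_prime_iff_eq P.pp Nat.prime_two).mp h')
  have h2 : A.valuation (2 : Qb) = 1 := by
    have := vint_eq_one_of_not_dvd A P.pp hpA hp2'
    simpa using this
  -- the unit `u = 1/2`
  have hu : A.valuation (algebraMap ℚ Qb (1 / 2 : ℚ)) = 1 := by
    rw [map_div₀, map_one, map_ofNat, map_div₀, map_one, h2, div_one]
  by_cases hc : (P.p : ℤ) ∣ P.c
  · -- `p ∣ c`: the shifted model, nodal reduction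
    have ha : ¬(P.p : ℤ) ∣ P.a := fun h => hnot_ac ⟨h, hc⟩
    refine unipotent_sq_of_variableChange_eq A.valuation (P.freyCurve : Affine ℚ)
      (legW (((P.a ^ P.p + P.c ^ P.p : ℤ)) : ℚ) (((P.a ^ P.p * P.c ^ P.p : ℤ)) : ℚ) : Affine ℚ)
      (freyVCShift P) ?_ hu ?_ σ
      (legW_unipotent_sq P.pp hp2 (P.a ^ P.p + P.c ^ P.p) (P.a ^ P.p * P.c ^ P.p)
        ?_ (Or.inr ⟨?_, ?_⟩) A hA σ hσ) x
    · rw [freyVCShift_smul]
      simp only [legW]
      push_cast
      rfl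
    · -- `r = a^p / 4` is integral
      show A.valuation (algebraMap ℚ Qb ((P.a : ℚ) ^ P.p / 4)) ≤ 1
      have e4 : A.valuation (4 : Qb) = 1 := by
        have : (4 : Qb) = 2 * 2 := by norm_num
        rw [this, map_mul, h2, one_mul]
      rw [map_div₀, map_pow, map_ofNat, map_div₀, e4, div_one, map_pow]
      have : algebraMap ℚ Qb (P.a : ℚ) = ((P.a : ℤ) : Qb) := algebraMap_intCast P.a
      rw [this]
      exact pow_le_one₀ zero_le (vint_le_one A P.a)
    · exact mul_ne_zero (pow_ne_zero _ P.ha0) (pow_ne_zero _ P.hc0)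
    · intro h
      have : (P.p : ℤ) ∣ P.a ^ P.p := (dvd_add_left ((hpow _).mpr hc)).mp h
      exact ha ((hpow _).mp this)
    · exact dvd_mul_of_dvd_right ((hpow _).mpr hc) _
  · -- `p ∤ c`: the Legendre model
    have hd0 : (P.b ^ P.p - P.a ^ P.p) ^ 2 - 4 * -(P.a ^ P.p * P.b ^ P.p) =
        (P.c ^ P.p) ^ 2 := by rw [← hFLT]; ring
    refine unipotent_sq_of_variableChange_eq A.valuation (P.freyCurve : Affine ℚ)
      (legW (((P.b ^ P.p - P.a ^ P.p : ℤ)) : ℚ) (((-(P.a ^ P.p * P.b ^ P.p) : ℤ)) : ℚ) : Affine ℚ)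
      freyVC ?_ hu ?_ σ
      (legW_unipotent_sq P.pp hp2 (P.b ^ P.p - P.a ^ P.p) (-(P.a ^ P.p * P.b ^ P.p))
        ?_ ?_ A hA σ hσ) x
    · rw [freyVC_smul]
      simp only [legW]
      push_cast
      rfl
    · show A.valuation (algebraMap ℚ Qb (0 : ℚ)) ≤ 1
      rw [_root_.map_zero, _root_.map_zero]
      exact zero_le_one
    · exact neg_ne_zero.mpr (mul_ne_zero (pow_ne_zero _ P.ha0) (pow_ne_zero _ P.hb0))
    · by_cases hab : (P.p : ℤ) ∣ P.a * P.b
      · -- node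
        right
        constructor
        · intro h
          rcases hqprime.dvd_or_dvd hab with h1 | h1
          · have h2 : (P.p : ℤ) ∣ P.b ^ P.p := (dvd_sub_left ((hpow _).mpr h1)).mp h
            exact hnot_ab ⟨h1, (hpow _).mp h2⟩
          · have h2 : (P.p : ℤ) ∣ P.a ^ P.p := (dvd_sub_right ((hpow _).mpr h1)).mp h
            exact hnot_ab ⟨(hpow _).mp h2, h1⟩
        · rw [dvd_neg, ← mul_pow]
          exact (hpow _).mpr hab
      · -- good reduction
        left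
        have ha : ¬(P.p : ℤ) ∣ P.a := fun h => hab (dvd_mul_of_dvd_left h _)
        have hb : ¬(P.p : ℤ) ∣ P.b := fun h => hab (dvd_mul_of_dvd_right h _)
        constructor
        · rw [dvd_neg]
          intro h
          rcases hqprime.dvd_or_dvd h with h1 | h1
          · exact ha ((hpow _).mp h1)
          · exact hb ((hpow _).mp h1)
        · intro h
          rw [hd0] at h
          exact hc ((hpow _).mp (hqprime.dvd_of_dvd_pow h))

/-- **(b), abstract form**: if `τ • Q = a • Q ≠ Q` (`a : ℤ`), `p • Q = 0` and `(τ - 1)² Q ∈ E₁(A)`,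
then `Q ∈ E₁(A)`.  (`(τ - 1)² Q = (a - 1)² Q` and `p ∤ a - 1`.) -/
theorem inE1_of_eigen_of_unipotent_sq (W : WeierstrassCurve ℤ) (A : ValuationSubring Qb) {p : ℕ}
    (hp : p.Prime) {Q : ((W.map (Int.castRingHom ℚ))⁄Qb).Point} (hpQ : p • Q = 0) (τ : GQ) {a : ℤ}
    (hτQ : τ • Q = a • Q) (hne : τ • Q ≠ Q)
    (hU : InE1 A.valuation ((W.map (Int.castRingHom ℚ))⁄Qb).toAffine
      (τ • (τ • Q - Q) - (τ • Q - Q))) :
    InE1 A.valuation ((W.map (Int.castRingHom ℚ))⁄Qb).toAffine Q := by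
  classical
  have hint := integralModel_baseChange_int W (K := Qb) A
  set n : ℤ := a - 1 with hn
  have h1 : τ • Q - Q = n • Q := by
    rw [hτQ, hn, sub_zsmul, one_zsmul, sub_eq_add_neg]
  have h2 : τ • (n • Q) = n • (a • Q) := by
    rw [algEquiv_smul_zsmul, hτQ]
  have h3 : τ • (τ • Q - Q) - (τ • Q - Q) = (n * n) • Q := by
    have h4 : a • Q - Q = n • Q := by rw [← hτQ]; exact h1
    rw [h1, h2, ← zsmul_sub, h4, mul_zsmul]
  rw [h3] at hU
  have hpn : ¬ (p : ℤ) ∣ n := by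
    rintro ⟨k, hk⟩
    apply hne
    have : τ • Q - Q = 0 := by
      rw [h1, hk, mul_comm, mul_zsmul, natCast_zsmul, hpQ, zsmul_zero]
    exact sub_eq_zero.mp this
  have hpp : Prime (p : ℤ) := Nat.prime_iff_prime_int.mp hp
  have hpnn : ¬ (p : ℤ) ∣ n * n := fun h => (hpp.dvd_or_dvd h).elim hpn hpn
  have hcop : IsCoprime (n * n) (p : ℤ) :=
    (isCoprime_comm.mp ((Prime.coprime_iff_not_dvd hpp).mpr hpnn))
  obtain ⟨u, w, huw⟩ := hcop
  have hQ : Q = u • ((n * n) • Q) := by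
    have : (u * (n * n) + w * (p : ℤ)) • Q = Q := by rw [huw, one_zsmul]
    have e1 : (w * (p : ℤ)) • Q = 0 := by rw [mul_zsmul, natCast_zsmul, hpQ, zsmul_zero]
    rw [add_zsmul, e1, add_zero, mul_zsmul] at this
    exact this.symm
  have hmem : u • ((n * n) • Q) ∈ kerRed hint := AddSubgroup.zsmul_mem _ hU u
  rw [hQ]
  exact hmem

/-- **(P)(b) for the Frey curve, `E₁` form**: a point `Q` of order `p` of the integral Frey model
whose line `⟨Q⟩` is stable under an element `τ` of the inertia group of `A ∣ p` with `τ • Q ≠ Q`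
lies in the kernel of reduction `E₁(A)`.  No hypothesis on the reduction type. -/
theorem frey_generator_inE1 (P : FreyPackage) (A : ValuationSubring Qb)
    (hA : A.LiesOverPrime P.p)
    {Q : ((P.freyCurveInt.map (Int.castRingHom ℚ))⁄Qb).Point} (hQord : addOrderOf Q = P.p)
    {τ : GQ} (hτ : τ ∈ A.inertiaSubgroupIn ℚ) (hτQ : τ • Q ∈ AddSubgroup.zmultiples Q)
    (hne : τ • Q ≠ Q) :
    InE1 A.valuation ((P.freyCurveInt.map (Int.castRingHom ℚ))⁄Qb).toAffine Q := by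
  have hFM := (freyModelStmt P).1
  have key : ∀ (W' : WeierstrassCurve ℚ), P.freyCurve = W' → ∀ x : (W'⁄Qb).Point,
      InE1 A.valuation (W'⁄Qb) (τ • (τ • x - x) - (τ • x - x)) := by
    rintro W' rfl x
    exact frey_unipotent_sq P A hA τ hτ x
  have hpQ : P.p • Q = 0 := by rw [← hQord]; exact addOrderOf_nsmul_eq_zero Q
  obtain ⟨a, ha⟩ := AddSubgroup.mem_zmultiples_iff.1 hτQ
  exact inE1_of_eigen_of_unipotent_sq P.freyCurveInt A P.pp hpQ τ ha.symm hne (key _ hFM Q)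

/-- **(P)(b) for the Frey curve**: such a `Q` lies in `E⁰(A)`. -/
theorem frey_generator_inZero (P : FreyPackage) (A : ValuationSubring Qb)
    (hA : A.LiesOverPrime P.p)
    {Q : ((P.freyCurveInt.map (Int.castRingHom ℚ))⁄Qb).Point} (hQord : addOrderOf Q = P.p)
    {τ : GQ} (hτ : τ ∈ A.inertiaSubgroupIn ℚ) (hτQ : τ • Q ∈ AddSubgroup.zmultiples Q)
    (hne : τ • Q ≠ Q) :
    P.freyCurveInt.InZeroComponentAt A Q :=
  inZero_of_inE1 P.freyCurveInt A (frey_generator_inE1 P A hA hQord hτ hτQ hne)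

/-- **`τ • Q - Q ∈ E⁰(A)`** for a generator `Q` of a `τ`-stable line, `τ` in the inertia group of
`A ∣ p`: the content of `AtPGenStmt`. -/
theorem frey_generator_sub_inZero (P : FreyPackage) (A : ValuationSubring Qb)
    (hA : A.LiesOverPrime P.p)
    {Q : ((P.freyCurveInt.map (Int.castRingHom ℚ))⁄Qb).Point} (hQord : addOrderOf Q = P.p)
    {τ : GQ} (hτ : τ ∈ A.inertiaSubgroupIn ℚ) (hτQ : τ • Q ∈ AddSubgroup.zmultiples Q) :
    P.freyCurveInt.InZeroComponentAt A (τ • Q - Q) := by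
  classical
  by_cases hfix : τ • Q = Q
  · rw [hfix, sub_self]
    exact Or.inl rfl
  · have hint := integralModel_baseChange_int P.freyCurveInt (K := Qb) A
    have hE1 := frey_generator_inE1 P A hA hQord hτ hτQ hfix
    obtain ⟨a, ha⟩ := AddSubgroup.mem_zmultiples_iff.1 hτQ
    have hmem : τ • Q - Q ∈ kerRed hint := by
      rw [← ha]
      exact AddSubgroup.sub_mem _ (AddSubgroup.zsmul_mem _ hE1 a) hE1
    exact inZero_of_inE1 P.freyCurveInt A hmem

end Fermat.Agent.S12lib
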