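/-
S12lib / AtPGen  (helper7) — S12 one-step route: the last open input of block (P).

`atPGenStmt : AtPGenStmt` (helper3's `S12lib/AtP.lean`) from `frey_generator_sub_inZero`
(`S12lib/AtPb.lean`: `(τ - 1)² x ∈ E₁(A)` transported from the Legendre models, only through `E₁`),
hence `atPStmt : AtPStmt` (helper9's `S12lib/Canon.lean`), the input of `s12_of_atP`.
-/
import Fermat.Agent.S12lib.AtP
import Fermat.Agent.S12lib.AtPb

set_option autoImplicit false

namespace Fermat.Agent.S12lib

/-- **(P), the inertia input**: `τ • Q - Q ∈ E⁰(A)` for a generator `Q` of a Galois-stable line of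
the Frey curve and `τ` in the inertia group of `A ∣ p`. -/
theorem atPGenStmt : AtPGenStmt := by
  intro P _ A hA Q hQord hst τ hτ
  exact frey_generator_sub_inZero P A hA hQord hτ (hst τ)

/-- **block (P)**: the cofixed line of the Frey curve is canonical at `p`. -/
theorem atPStmt : AtPStmt := atPStmt_of_gen atPGenStmt

end Fermat.Agent.S12lib
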